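import Mathlib

/-!
# Finite ideles in the "embedding" model

For a number field `K` and a prime `q`, the `q`-component of an idele is a function on the finite set of
embeddings `K →+* PadicAlgCl q`, equivariant for `Gal(PadicAlgCl q / ℚ_q)`.
-/

set_option autoImplicit false

open scoped NNReal

namespace Fermat.Agent.CFT

/-- primes are prime -/
instance factPrimes (q : Nat.Primes) : Fact (q : ℕ).Prime := ⟨q.2⟩

/-- the algebraic closure of `ℚ_q` -/
abbrev Cq (q : Nat.Primes) : Type := PadicAlgCl (q : ℕ)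

/-- the absolute Galois group of `ℚ_q` -/
abbrev Gq (q : Nat.Primes) : Type := Cq q ≃ₐ[ℚ_[(q : ℕ)]] Cq q

/-- embeddings of `K` in the algebraic closure of `ℚ_q` -/
abbrev Emb (K : Type*) [Field K] (q : Nat.Primes) : Type _ := K →+* Cq q

section act

variable {K : Type*} [Field K] {q : Nat.Primes}

/-- the Galois group of `ℚ_q` acts on embeddings by composition. -/
noncomputable instance embMulAction : MulAction (Gq q) (Emb K q) where
  smul τ φ := (τ : Cq q →+* Cq q).comp φ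
  one_smul φ := by ext x; rfl
  mul_smul σ τ φ := by ext x; rfl

@[simp] lemma smul_emb_apply (τ : Gq q) (φ : Emb K q) (x : K) : (τ • φ) x = τ (φ x) := rfl

lemma smul_emb_comp {L : Type*} [Field L] (τ : Gq q) (ψ : Emb L q) (g : K →+* L) :
    (τ • ψ).comp g = τ • (ψ.comp g) := rfl

/-- the action of Galois preserves the norm. -/
lemma norm_gq (τ : Gq q) (y : Cq q) : ‖τ y‖ = ‖y‖ :=
  (spectralNorm_eq_of_equiv τ y).symm

end act

/-- an element of `Cq q` integral over `ℤ` has norm `≤ 1`. -/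
lemma norm_le_one_of_isIntegral {q : Nat.Primes} {z : Cq q} (hz : IsIntegral ℤ z) : ‖z‖ ≤ 1 := by
  by_contra h
  push Not at h
  obtain ⟨P, hP, hPz⟩ := hz
  set n := P.natDegree with hn
  have hn0 : n ≠ 0 := by
    intro h0
    have : P = 1 := by
      exact (Polynomial.Monic.natDegree_eq_zero hP).1 (hn ▸ h0)
    rw [this] at hPz
    simp at hPz
  have hsum : z ^ n = - ∑ i ∈ Finset.range n, (P.coeff i : Cq q) * z ^ i := by
    rw [Polynomial.eval₂_eq_sum_range, Finset.sum_range_succ, ← hn] at hPz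
    have hc : P.coeff n = 1 := hP.coeff_natDegree
    simp only [hc, map_one, one_mul] at hPz
    have : (∑ i ∈ Finset.range n, (P.coeff i : Cq q) * z ^ i) + z ^ n = 0 := by
      simpa using hPz
    exact eq_neg_of_add_eq_zero_right this
  have hlt : ‖z ^ n‖ < ‖z‖ ^ n := by
    rw [hsum, norm_neg]
    have hne : (Finset.range n).Nonempty := Finset.nonempty_range_iff.2 hn0
    obtain ⟨i, hi, hle⟩ := IsUltrametricDist.exists_norm_finsetSum_le_of_nonempty hne
      (fun i => (P.coeff i : Cq q) * z ^ i)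
    refine lt_of_le_of_lt hle ?_
    rw [norm_mul, norm_pow]
    have h1 : ‖((P.coeff i : ℤ) : Cq q)‖ ≤ 1 := by
      have := IsUltrametricDist.norm_intCast_le_one (R := Cq q) (P.coeff i)
      simpa using this
    calc ‖((P.coeff i : ℤ) : Cq q)‖ * ‖z‖ ^ i ≤ 1 * ‖z‖ ^ i := by gcongr
      _ = ‖z‖ ^ i := one_mul _
      _ < ‖z‖ ^ n := pow_lt_pow_right₀ h (Finset.mem_range.1 hi)
  rw [norm_pow] at hlt
  exact lt_irrefl _ hlt

/-- for `x ≠ 0` in a number field, `‖φ x‖ = 1` for all embeddings at almost all primes. -/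
lemma finite_setOf_norm_ne_one {K : Type*} [Field K] [NumberField K] (x : Kˣ) :
    {q : Nat.Primes | ∃ φ : Emb K q, ‖φ (x : K)‖ ≠ 1}.Finite := by
  -- denominators of `x` and `x⁻¹`
  have key : ∀ y : K, ∃ N : ℕ, N ≠ 0 ∧ IsIntegral ℤ ((N : K) * y) := by
    intro y
    obtain ⟨N, hN, hN'⟩ := (IsFractionRing.isAlgebraic_iff ℤ ℚ K |>.2
      (Algebra.IsAlgebraic.isAlgebraic (R := ℚ) y)).exists_integral_multiple
    refine ⟨N.natAbs, by simpa using hN, ?_⟩
    have h2 : IsIntegral ℤ ((N.natAbs : ℤ) • y) := by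
      rcases Int.natAbs_eq N with h | h
      · rw [← h]; exact hN'
      · have : ((N.natAbs : ℤ) • y) = - (N • y) := by
          rw [← neg_smul]; congr 1; omega
        rw [this]; exact hN'.neg
    simpa [zsmul_eq_mul] using h2
  obtain ⟨N, hN, hNx⟩ := key (x : K)
  obtain ⟨M, hM, hMx⟩ := key ((x⁻¹ : Kˣ) : K)
  refine Set.Finite.subset (s := {q : Nat.Primes | (q : ℕ) ∣ N * M}) ?_ ?_
  · refine Set.Finite.preimage (f := fun q : Nat.Primes => (q : ℕ))
      (fun a _ b _ h => Subtype.ext h) (s := {d : ℕ | d ∣ N * M}) ?_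
    exact (Nat.divisors (N * M)).finite_toSet.subset (fun d hd => by
      simpa [Nat.mem_divisors, hN, hM] using hd)
  · rintro q ⟨φ, hφ⟩
    by_contra hq
    apply hφ
    have hqN : ¬ (q : ℕ) ∣ N := fun h => hq (Dvd.dvd.mul_right h M)
    have hqM : ¬ (q : ℕ) ∣ M := fun h => hq (Dvd.dvd.mul_left h N)
    have hnat : ∀ n : ℕ, ¬ (q : ℕ) ∣ n → ‖((n : ℕ) : Cq q)‖ = 1 := by
      intro n hn
      have h1 : ‖((n : ℤ) : ℚ_[(q : ℕ)])‖ = 1 := by
        refine le_antisymm (Padic.norm_int_le_one _) (not_lt.1 fun h => hn ?_)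
        exact_mod_cast Padic.norm_intCast_lt_one_iff.1 h
      have h2 := PadicAlgCl.norm_extends (q : ℕ) ((n : ℤ) : ℚ_[(q : ℕ)])
      rw [h1] at h2
      simpa using h2
    have hle : ∀ (n : ℕ) (y : K), ¬ (q : ℕ) ∣ n → IsIntegral ℤ ((n : K) * y) → ‖φ y‖ ≤ 1 := by
      intro n y hn hy
      have h3 : IsIntegral ℤ (φ ((n : K) * y)) := hy.map (φ.toIntAlgHom)
      have h4 := norm_le_one_of_isIntegral h3
      rw [map_mul, map_natCast, norm_mul, hnat n hn, one_mul] at h4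
      exact h4
    refine le_antisymm (hle N _ hqN hNx) ?_
    have h5 := hle M _ hqM hMx
    rw [Units.val_inv_eq_inv_val, map_inv₀, norm_inv] at h5
    have h6 : 0 < ‖φ (x : K)‖ := norm_pos_iff.2 ((map_ne_zero φ).2 x.ne_zero)
    exact (inv_le_one₀ h6).1 h5

/-- the group of Galois-equivariant functions `Emb K q → (Cq q)ˣ`, i.e. `(K ⊗ ℚ_q)ˣ`. -/
def Jq (K : Type*) [Field K] (q : Nat.Primes) : Subgroup (Emb K q → (Cq q)ˣ) where
  carrier := {f | ∀ (τ : Gq q) (φ : Emb K q), (f (τ • φ) : Cq q) = τ (f φ : Cq q)}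
  mul_mem' := by
    intro a b ha hb τ φ
    simp [ha τ φ, hb τ φ]
  one_mem' := by intro τ φ; simp
  inv_mem' := by
    intro a ha τ φ
    simp [ha τ φ]

lemma mem_Jq_iff {K : Type*} [Field K] {q : Nat.Primes} {f : Emb K q → (Cq q)ˣ} :
    f ∈ Jq K q ↔ ∀ (τ : Gq q) (φ : Emb K q), (f (τ • φ) : Cq q) = τ (f φ : Cq q) := Iff.rfl

/-- the units at `q`. -/
def Uq (K : Type*) [Field K] (q : Nat.Primes) : Subgroup (Emb K q → (Cq q)ˣ) where
  carrier := {f | f ∈ Jq K q ∧ ∀ φ, ‖(f φ : Cq q)‖ = 1}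
  mul_mem' := by
    rintro a b ⟨ha, ha'⟩ ⟨hb, hb'⟩
    exact ⟨mul_mem ha hb, fun φ => by simp [ha' φ, hb' φ]⟩
  one_mem' := ⟨one_mem _, fun φ => by simp⟩
  inv_mem' := by
    rintro a ⟨ha, ha'⟩
    exact ⟨inv_mem ha, fun φ => by simp [ha' φ]⟩

lemma mem_Uq_iff {K : Type*} [Field K] {q : Nat.Primes} {f : Emb K q → (Cq q)ˣ} :
    f ∈ Uq K q ↔ f ∈ Jq K q ∧ ∀ φ, ‖(f φ : Cq q)‖ = 1 := Iff.rfl

lemma Uq_le_Jq (K : Type*) [Field K] (q : Nat.Primes) : Uq K q ≤ Jq K q := fun _ h => h.1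

/-- the group of finite ideles of `K`, in the embedding model. -/
def Idele (K : Type*) [Field K] : Subgroup (∀ q : Nat.Primes, Emb K q → (Cq q)ˣ) where
  carrier := {f | (∀ q, f q ∈ Jq K q) ∧ {q | ∃ φ, ‖(f q φ : Cq q)‖ ≠ 1}.Finite}
  mul_mem' := by
    rintro a b ⟨ha, ha'⟩ ⟨hb, hb'⟩
    refine ⟨fun q => mul_mem (ha q) (hb q), (ha'.union hb').subset ?_⟩
    rintro q ⟨φ, hφ⟩
    by_contra h
    simp only [Set.mem_union, Set.mem_ofPred_eq, not_or, not_exists, not_not] at h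
    apply hφ
    simp [h.1 φ, h.2 φ]
  one_mem' := ⟨fun q => one_mem _, by simp⟩
  inv_mem' := by
    rintro a ⟨ha, ha'⟩
    refine ⟨fun q => inv_mem (ha q), ha'.subset ?_⟩
    rintro q ⟨φ, hφ⟩
    refine ⟨φ, fun h => hφ ?_⟩
    simp [h]

lemma mem_Idele_iff {K : Type*} [Field K] {f : ∀ q : Nat.Primes, Emb K q → (Cq q)ˣ} :
    f ∈ Idele K ↔ (∀ q, f q ∈ Jq K q) ∧ {q | ∃ φ, ‖(f q φ : Cq q)‖ ≠ 1}.Finite := Iff.rfl

section principal

variable (K : Type*) [Field K] [NumberField K]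

/-- principal ideles -/
noncomputable def princ : Kˣ →* Idele K where
  toFun x := ⟨fun q φ => Units.map (φ : K →* Cq q) x, by
    refine ⟨fun q τ φ => rfl, ?_⟩
    exact finite_setOf_norm_ne_one x⟩
  map_one' := by ext; simp
  map_mul' x y := by ext; simp

@[simp] lemma princ_apply (x : Kˣ) (q : Nat.Primes) (φ : Emb K q) :
    (((princ K x : Idele K) : ∀ q : Nat.Primes, Emb K q → (Cq q)ˣ) q φ : Cq q) = φ (x : K) := rfl

end principal

section functoriality

variable {K L M : Type*} [Field K] [Field L] [Field M]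

/-- pullback of ideles along a field extension `g : K → L`. -/
noncomputable def Idele.map (g : K →+* L) : Idele K →* Idele L where
  toFun f := ⟨fun q ψ => (f : ∀ q : Nat.Primes, Emb K q → (Cq q)ˣ) q (ψ.comp g), by
    refine ⟨fun q τ ψ => f.2.1 q τ (ψ.comp g), f.2.2.subset ?_⟩
    rintro q ⟨φ, hφ⟩
    exact ⟨φ.comp g, hφ⟩⟩
  map_one' := rfl
  map_mul' _ _ := rfl

@[simp] lemma Idele.map_apply (g : K →+* L) (f : Idele K) (q : Nat.Primes) (ψ : Emb L q) :
    ((Idele.map g f : Idele L) : ∀ q : Nat.Primes, Emb L q → (Cq q)ˣ) q ψ =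
      (f : ∀ q : Nat.Primes, Emb K q → (Cq q)ˣ) q (ψ.comp g) := rfl

lemma Idele.map_comp (g : K →+* L) (h : L →+* M) (f : Idele K) :
    Idele.map (h.comp g) f = Idele.map h (Idele.map g f) := rfl

lemma Idele.map_id (f : Idele K) : Idele.map (RingHom.id K) f = f := rfl

lemma Idele.map_princ [NumberField K] [NumberField L] (g : K →+* L) (x : Kˣ) :
    Idele.map g (princ K x) = princ L (Units.map (g : K →* L) x) := by
  ext q φ; rfl

/-- the action of an automorphism on ideles: `(σ f) ψ = f (ψ ∘ σ)`. -/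
noncomputable instance ideleMulDistribMulAction : MulDistribMulAction (L ≃+* L) (Idele L) where
  smul σ f := Idele.map (σ : L →+* L) f
  one_smul _ := rfl
  mul_smul _ _ _ := rfl
  smul_mul _ _ _ := rfl
  smul_one _ := rfl

lemma Idele.smul_def (σ : L ≃+* L) (f : Idele L) : σ • f = Idele.map (σ : L →+* L) f := rfl

@[simp] lemma Idele.smul_apply (σ : L ≃+* L) (f : Idele L) (q : Nat.Primes) (ψ : Emb L q) :
    ((σ • f : Idele L) : ∀ q : Nat.Primes, Emb L q → (Cq q)ˣ) q ψ =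
      (f : ∀ q : Nat.Primes, Emb L q → (Cq q)ˣ) q (ψ.comp (σ : L →+* L)) := rfl

lemma Idele.smul_princ [NumberField L] (σ : L ≃+* L) (x : Lˣ) :
    σ • (princ L x) = princ L (Units.map (σ : L →* L) x) := rfl

end functoriality

section norm

variable {K L M : Type*} [Field K] [Field L] [Field M] [NumberField L]

open Classical in
/-- the norm (product over the fibres) on equivariant functions. -/
noncomputable def nmq (g : K →+* L) (q : Nat.Primes) :
    (Emb L q → (Cq q)ˣ) →* (Emb K q → (Cq q)ˣ) where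
  toFun f φ := ∏ ψ : Emb L q with ψ.comp g = φ, f ψ
  map_one' := by ext; simp
  map_mul' a b := by
    funext φ
    simp only [Pi.mul_apply, Finset.prod_mul_distrib]

open Classical in
lemma nmq_apply (g : K →+* L) (q : Nat.Primes) (f : Emb L q → (Cq q)ˣ) (φ : Emb K q) :
    nmq g q f φ = ∏ ψ : Emb L q with ψ.comp g = φ, f ψ := rfl

lemma nmq_mem_Jq (g : K →+* L) (q : Nat.Primes) {f : Emb L q → (Cq q)ˣ} (hf : f ∈ Jq L q) :
    nmq g q f ∈ Jq K q := by
  classical
  intro τ φ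
  rw [nmq_apply, nmq_apply]
  simp only [Units.coe_prod, map_prod]
  refine Finset.prod_bij' (fun ψ _ => τ⁻¹ • ψ) (fun ψ _ => τ • ψ) ?_ ?_ ?_ ?_ ?_
  · intro ψ hψ
    simp only [Finset.mem_filter, Finset.mem_univ, true_and] at hψ ⊢
    rw [smul_emb_comp, hψ, inv_smul_smul]
  · intro ψ hψ
    simp only [Finset.mem_filter, Finset.mem_univ, true_and] at hψ ⊢
    rw [smul_emb_comp, hψ]
  · intro ψ _; simp
  · intro ψ _; simp
  · intro ψ _
    rw [← hf τ (τ⁻¹ • ψ), smul_inv_smul]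

lemma norm_nmq (g : K →+* L) (q : Nat.Primes) {f : Emb L q → (Cq q)ˣ}
    (hf : ∀ ψ, ‖(f ψ : Cq q)‖ = 1) (φ : Emb K q) : ‖(nmq g q f φ : Cq q)‖ = 1 := by
  classical
  rw [nmq_apply, Units.coe_prod, norm_prod]
  exact Finset.prod_eq_one fun ψ _ => hf ψ

/-- the norm map on ideles. -/
noncomputable def Idele.nm (g : K →+* L) : Idele L →* Idele K where
  toFun f := ⟨fun q => nmq g q ((f : ∀ q : Nat.Primes, Emb L q → (Cq q)ˣ) q), by
    refine ⟨fun q => nmq_mem_Jq g q (f.2.1 q), f.2.2.subset ?_⟩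
    rintro q ⟨φ, hφ⟩
    by_contra h
    simp only [Set.mem_ofPred_eq, not_exists, not_not] at h
    exact hφ (norm_nmq g q h φ)⟩
  map_one' := by ext; simp
  map_mul' a b := by ext; simp

@[simp] lemma Idele.nm_coe (g : K →+* L) (f : Idele L) (q : Nat.Primes) :
    ((Idele.nm g f : Idele K) : ∀ q : Nat.Primes, Emb K q → (Cq q)ˣ) q =
      nmq g q ((f : ∀ q : Nat.Primes, Emb L q → (Cq q)ˣ) q) := rfl

open Classical in
lemma Idele.nm_apply (g : K →+* L) (f : Idele L) (q : Nat.Primes) (φ : Emb K q) :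
    ((Idele.nm g f : Idele K) : ∀ q : Nat.Primes, Emb K q → (Cq q)ˣ) q φ =
      ∏ ψ : Emb L q with ψ.comp g = φ, (f : ∀ q : Nat.Primes, Emb L q → (Cq q)ˣ) q ψ := rfl

end norm

end Fermat.Agent.CFT
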