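import Mathlib
import Fermat.Agent.CFT.Idele

set_option autoImplicit false

open scoped NNReal

namespace Fermat.Agent.CFT

section rational

/-- simultaneous approximation of `q`-adic numbers by a rational number. -/
theorem exists_rat_approx (S : Finset Nat.Primes) (c : ∀ q : Nat.Primes, ℚ_[(q : ℕ)]) {ε : ℝ}
    (hε : 0 < ε) : ∃ r : ℚ, ∀ q ∈ S, ‖(r : ℚ_[(q : ℕ)]) - c q‖ < ε := by
  classical
  -- common denominator
  have h1 : ∀ q : Nat.Primes, ∃ k : ℕ, ‖((q : ℕ) : ℚ_[(q : ℕ)]) ^ k * c q‖ ≤ 1 := by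
    intro q
    have hq1 : (1 : ℝ) < (q : ℕ) := by exact_mod_cast q.2.one_lt
    obtain ⟨k, hk⟩ := pow_unbounded_of_one_lt ‖c q‖ hq1
    refine ⟨k, ?_⟩
    rw [norm_mul, norm_pow, Padic.norm_p, inv_pow]
    rw [inv_mul_le_iff₀ (by positivity), mul_one]
    exact hk.le
  choose k hk using h1
  set D : ℕ := ∏ q ∈ S, (q : ℕ) ^ k q with hD
  have hD0 : D ≠ 0 := Finset.prod_ne_zero_iff.2 fun q _ => pow_ne_zero _ q.2.ne_zero
  have hDc : ∀ q ∈ S, ‖(D : ℚ_[(q : ℕ)]) * c q‖ ≤ 1 := by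
    intro q hq
    have h2 : (D : ℚ_[(q : ℕ)]) =
        ((∏ q' ∈ S.erase q, (q' : ℕ) ^ k q' : ℕ) : ℚ_[(q : ℕ)]) * ((q : ℕ) : ℚ_[(q : ℕ)]) ^ k q := by
      rw [hD, ← Finset.prod_erase_mul S _ hq]
      push_cast; rfl
    rw [h2, mul_assoc, norm_mul]
    refine mul_le_one₀ ?_ (norm_nonneg _) (hk q)
    exact_mod_cast Padic.norm_int_le_one (p := (q : ℕ)) ((∏ q' ∈ S.erase q, (q' : ℕ) ^ k q' : ℕ) : ℤ)
  -- norm of `D`
  have hDpos : ∀ q : Nat.Primes, 0 < ‖(D : ℚ_[(q : ℕ)])‖ := fun q =>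
    norm_pos_iff.2 (Nat.cast_ne_zero.2 hD0)
  -- choose exponents
  have h3 : ∀ q : Nat.Primes, ∃ m : ℕ, (((q : ℕ) : ℝ)⁻¹) ^ m < ε * ‖(D : ℚ_[(q : ℕ)])‖ := by
    intro q
    refine exists_pow_lt_of_lt_one (mul_pos hε (hDpos q)) ?_
    exact inv_lt_one_of_one_lt₀ (by exact_mod_cast q.2.one_lt)
  choose m hm using h3
  -- integral approximations
  have h4 : ∀ q : Nat.Primes, ∃ a : ℕ, q ∈ S →
      ‖(a : ℚ_[(q : ℕ)]) - D * c q‖ ≤ (((q : ℕ) : ℝ)⁻¹) ^ m q := by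
    intro q
    by_cases hq : q ∈ S
    · let z : ℤ_[(q : ℕ)] := ⟨(D : ℚ_[(q : ℕ)]) * c q, hDc q hq⟩
      refine ⟨PadicInt.appr z (m q), fun _ => ?_⟩
      have h5 := PadicInt.appr_spec (m q) z
      rw [← PadicInt.norm_le_pow_iff_mem_span_pow] at h5
      rw [PadicInt.norm_def, PadicInt.coe_sub, PadicInt.coe_natCast, zpow_neg, zpow_natCast,
        ← inv_pow] at h5
      rw [norm_sub_rev]
      exact h5
    · exact ⟨0, fun h => absurd h hq⟩
  choose a ha using h4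
  obtain ⟨n, hn⟩ := Nat.chineseRemainderOfFinset a (fun q : Nat.Primes => (q : ℕ) ^ m q) S
    (fun q _ => pow_ne_zero _ q.2.ne_zero)
    (fun q _ q' _ hne => Nat.Coprime.pow _ _ ((Nat.coprime_primes q.2 q'.2).2
      fun h => hne (Subtype.ext h)))
  refine ⟨(n : ℚ) / D, fun q hq => ?_⟩
  have h6 : ‖(n : ℚ_[(q : ℕ)]) - D * c q‖ ≤ (((q : ℕ) : ℝ)⁻¹) ^ m q := by
    have h7 : ‖(n : ℚ_[(q : ℕ)]) - a q‖ ≤ (((q : ℕ) : ℝ)⁻¹) ^ m q := by
      have h8 := (Nat.modEq_iff_dvd.1 (hn q hq))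
      have h9 := (Padic.norm_int_le_pow_iff_dvd (p := (q : ℕ)) ((a q : ℤ) - n) (m q)).2
        (by exact_mod_cast h8)
      rw [norm_sub_rev]
      have h10 : (((a q : ℤ) - n : ℤ) : ℚ_[(q : ℕ)]) = (a q : ℚ_[(q : ℕ)]) - n := by push_cast; rfl
      rw [h10] at h9
      simpa using h9
    calc ‖(n : ℚ_[(q : ℕ)]) - D * c q‖ = ‖((n : ℚ_[(q : ℕ)]) - a q) + ((a q : ℚ_[(q : ℕ)]) - D * c q)‖ := by
          congr 1; ring
      _ ≤ max ‖(n : ℚ_[(q : ℕ)]) - a q‖ ‖(a q : ℚ_[(q : ℕ)]) - D * c q‖ :=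
          IsUltrametricDist.norm_add_le_max _ _
      _ ≤ _ := max_le h7 (ha q hq)
  have h11 : (((n : ℚ) / D : ℚ) : ℚ_[(q : ℕ)]) - c q = (D : ℚ_[(q : ℕ)])⁻¹ * ((n : ℚ_[(q : ℕ)]) - D * c q) := by
    have : (D : ℚ_[(q : ℕ)]) ≠ 0 := Nat.cast_ne_zero.2 hD0
    push_cast
    field_simp
  rw [h11, norm_mul, norm_inv, inv_mul_lt_iff₀ (hDpos q), mul_comm ‖(D : ℚ_[(q : ℕ)])‖]
  exact lt_of_le_of_lt h6 (hm q)

end rational

section coords

variable {K : Type*} [Field K] [NumberField K] {q : Nat.Primes}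

/-- an element of `Cq q` fixed by the Galois group is in `ℚ_q`. -/
lemma exists_eq_algebraMap_of_forall_fixed {x : Cq q} (hx : ∀ τ : Gq q, τ x = x) :
    ∃ c : ℚ_[(q : ℕ)], algebraMap ℚ_[(q : ℕ)] (Cq q) c = x := by
  have := (InfiniteGalois.mem_bot_iff_fixed (k := ℚ_[(q : ℕ)]) (K := Cq q) x).2 hx
  exact IntermediateField.mem_bot.1 this

open Module in
/-- semi-local structure: equivariant functions on embeddings are `ℚ_q`-linear combinations of
the evaluation functions at a `ℚ`-basis of `K`. -/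
theorem exists_coords {ι : Type*} [Fintype ι] (b : Basis ι ℚ K) (f : Emb K q → Cq q)
    (hf : ∀ (τ : Gq q) (φ : Emb K q), f (τ • φ) = τ (f φ)) :
    ∃ c : ι → ℚ_[(q : ℕ)], ∀ φ : Emb K q, f φ = ∑ i, algebraMap ℚ_[(q : ℕ)] (Cq q) (c i) * φ (b i) := by
  classical
  -- the map from coefficients to functions is bijective
  have hcard : Fintype.card ι = Fintype.card (K →ₐ[ℚ] Cq q) := by
    rw [AlgHom.card, finrank_eq_card_basis b]
  let e : ι ≃ (K →ₐ[ℚ] Cq q) := Fintype.equivOfCardEq hcard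
  let N := Algebra.embeddingsMatrixReindex ℚ (Cq q) b e
  have hdet : N.det ≠ 0 := by
    intro h0
    have h1 := Algebra.discr_eq_det_embeddingsMatrixReindex_pow_two ℚ (Cq q) b e
    have h2 := Algebra.discr_not_zero_of_basis ℚ b
    apply h2
    apply (algebraMap ℚ (Cq q)).injective
    rw [h1, map_zero]
    show N.det ^ 2 = 0
    rw [h0]; ring
  have hunit : IsUnit N.det := isUnit_iff_ne_zero.2 hdet
  have hN : ∀ i j, N i j = e j (b i) := by
    intro i j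
    simp [N, Algebra.embeddingsMatrixReindex, Algebra.embeddingsMatrix]
  -- solve the linear system
  let F : ι → Cq q := fun j => f (e j : K →+* Cq q)
  let c : ι → Cq q := Matrix.vecMul F N⁻¹
  have hc : ∀ φ : Emb K q, f φ = ∑ i, c i * φ (b i) := by
    intro φ
    let φ' : K →ₐ[ℚ] Cq q := RingHom.equivRatAlgHom K (Cq q) φ
    have h1 : Matrix.vecMul c N = F := by
      simp only [c, Matrix.vecMul_vecMul, Matrix.nonsing_inv_mul N hunit, Matrix.vecMul_one]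
    have h2 := congrFun h1 (e.symm φ')
    simp only [Matrix.vecMul, dotProduct, hN, Equiv.apply_symm_apply, F] at h2
    exact h2.symm
  -- uniqueness
  have huniq : ∀ c' : ι → Cq q, (∀ φ : Emb K q, ∑ i, c' i * φ (b i) = ∑ i, c i * φ (b i)) → c' = c := by
    intro c' h
    have h1 : Matrix.vecMul c' N = Matrix.vecMul c N := by
      funext j
      simp only [Matrix.vecMul, dotProduct, hN]
      exact h (e j : K →+* Cq q)
    have h2 := congrArg (fun v => Matrix.vecMul v N⁻¹) h1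
    simpa only [Matrix.vecMul_vecMul, Matrix.mul_nonsing_inv N hunit, Matrix.vecMul_one] using h2
  -- coefficients are fixed by Galois
  have hfix : ∀ (τ : Gq q) (i : ι), τ (c i) = c i := by
    intro τ
    have h1 : (fun i => τ (c i)) = c := by
      apply huniq
      intro φ
      have h2 := hf τ (τ⁻¹ • φ)
      rw [smul_inv_smul, hc φ, hc (τ⁻¹ • φ), map_sum] at h2
      rw [h2]
      refine Finset.sum_congr rfl fun i _ => ?_
      rw [map_mul, smul_emb_apply]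
      congr 1
      exact ((AlgEquiv.apply_symm_apply τ (φ (b i)))).symm
    exact fun i => congrFun h1 i
  choose d hd using fun i => exists_eq_algebraMap_of_forall_fixed (q := q) (x := c i) (fun τ => hfix τ i)
  exact ⟨d, fun φ => by rw [hc φ]; simp [hd]⟩

end coords

section dense

variable {K : Type*} [Field K] [NumberField K]

/-- `K` is dense in the product over `q ∈ S` of the semi-local algebras `K ⊗ ℚ_q`. -/
theorem dense_semilocal (S : Finset Nat.Primes) (f : ∀ q : Nat.Primes, Emb K q → Cq q)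
    (hf : ∀ q ∈ S, ∀ (τ : Gq q) (φ : Emb K q), f q (τ • φ) = τ (f q φ)) {ε : ℝ} (hε : 0 < ε) :
    ∃ x : K, ∀ q ∈ S, ∀ φ : Emb K q, ‖φ x - f q φ‖ < ε := by
  classical
  let b := Module.finBasis ℚ K
  have h1 : ∀ q : Nat.Primes, ∃ c : Fin (Module.finrank ℚ K) → ℚ_[(q : ℕ)], q ∈ S →
      ∀ φ : Emb K q, f q φ = ∑ i, algebraMap ℚ_[(q : ℕ)] (Cq q) (c i) * φ (b i) := by
    intro q
    by_cases hq : q ∈ S
    · obtain ⟨c, hc⟩ := exists_coords b (f q) (hf q hq)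
      exact ⟨c, fun _ => hc⟩
    · exact ⟨0, fun h => absurd h hq⟩
  choose c hc using h1
  -- a bound for the norms of the basis elements
  obtain ⟨B, hB0, hB⟩ : ∃ B : ℝ, 0 < B ∧ ∀ q ∈ S, ∀ (φ : Emb K q) i, ‖φ (b i)‖ ≤ B := by
    refine ⟨1 + ∑ q ∈ S, ∑ φ : Emb K q, ∑ i, ‖φ (b i)‖, by positivity, fun q hq φ i => ?_⟩
    have h2 : ‖φ (b i)‖ ≤ ∑ i, ‖φ (b i)‖ :=
      Finset.single_le_sum (f := fun i => ‖φ (b i)‖) (fun _ _ => norm_nonneg _) (Finset.mem_univ i)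
    have h3 : ∑ i, ‖φ (b i)‖ ≤ ∑ φ : Emb K q, ∑ i, ‖φ (b i)‖ :=
      Finset.single_le_sum (f := fun φ : Emb K q => ∑ i, ‖φ (b i)‖)
        (fun _ _ => Finset.sum_nonneg fun _ _ => norm_nonneg _) (Finset.mem_univ φ)
    have h4 : ∑ φ : Emb K q, ∑ i, ‖φ (b i)‖ ≤ ∑ q ∈ S, ∑ φ : Emb K q, ∑ i, ‖φ (b i)‖ :=
      Finset.single_le_sum (f := fun q : Nat.Primes => ∑ φ : Emb K q, ∑ i, ‖φ (b i)‖)
        (fun _ _ => Finset.sum_nonneg fun _ _ => Finset.sum_nonneg fun _ _ => norm_nonneg _) hq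
    linarith
  have h5 : ∀ i, ∃ r : ℚ, ∀ q ∈ S, ‖(r : ℚ_[(q : ℕ)]) - c q i‖ < ε / B := fun i =>
    exists_rat_approx S (fun q => c q i) (div_pos hε hB0)
  choose r hr using h5
  refine ⟨∑ i, (r i) • b i, fun q hq φ => ?_⟩
  rw [hc q hq φ, map_sum]
  simp only [Rat.smul_def, map_mul, map_ratCast]
  rw [← Finset.sum_sub_distrib]
  have h6 : ∀ i, ((r i : ℚ) : Cq q) * φ (b i) - algebraMap ℚ_[(q : ℕ)] (Cq q) (c q i) * φ (b i)
      = algebraMap ℚ_[(q : ℕ)] (Cq q) ((r i : ℚ_[(q : ℕ)]) - c q i) * φ (b i) := by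
    intro i
    rw [map_sub, map_ratCast]; ring
  simp only [h6]
  rcases isEmpty_or_nonempty (Fin (Module.finrank ℚ K)) with he | he
  · simp [hε]
  · obtain ⟨i, _, hi⟩ := IsUltrametricDist.exists_norm_finsetSum_le_of_nonempty
      (Finset.univ_nonempty) (fun i => algebraMap ℚ_[(q : ℕ)] (Cq q) ((r i : ℚ_[(q : ℕ)]) - c q i) * φ (b i))
    refine lt_of_le_of_lt hi ?_
    rw [norm_mul]
    have h7 : ‖algebraMap ℚ_[(q : ℕ)] (Cq q) ((r i : ℚ_[(q : ℕ)]) - c q i)‖ < ε / B := by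
      have := PadicAlgCl.norm_extends (q : ℕ) ((r i : ℚ_[(q : ℕ)]) - c q i)
      rw [this]
      exact hr i q hq
    calc ‖algebraMap ℚ_[(q : ℕ)] (Cq q) ((r i : ℚ_[(q : ℕ)]) - c q i)‖ * ‖φ (b i)‖
        ≤ ‖algebraMap ℚ_[(q : ℕ)] (Cq q) ((r i : ℚ_[(q : ℕ)]) - c q i)‖ * B := by
          gcongr; exact hB q hq φ i
      _ < ε / B * B := by gcongr
      _ = ε := by field_simp

end dense

end Fermat.Agent.CFT
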