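import Mathlib
import Fermat.Agent.CFT.SemiLocal

set_option autoImplicit false

namespace Fermat.Agent.CFT

section torsor

variable {K L : Type*} [Field K] [Field L] [Algebra K L] {q : Nat.Primes}

/-- embeddings extend along algebraic extensions. -/
lemma exists_ext [Algebra.IsAlgebraic K L] (φ : Emb K q) :
    ∃ ψ : Emb L q, ψ.comp (algebraMap K L) = φ := by
  letI : Algebra K (Cq q) := φ.toAlgebra
  let f : L →ₐ[K] Cq q := IsAlgClosed.lift
  exact ⟨f, f.comp_algebraMap⟩

/-- the Galois group acts simply transitively on the extensions of an embedding: transitivity. -/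
lemma exists_comp_eq [Normal K L] {ψ ψ' : Emb L q}
    (h : ψ'.comp (algebraMap K L) = ψ.comp (algebraMap K L)) :
    ∃ σ : L ≃ₐ[K] L, ψ' = ψ.comp (σ : L →+* L) := by
  letI : Algebra L (Cq q) := ψ.toAlgebra
  letI : Algebra K (Cq q) := (ψ.comp (algebraMap K L)).toAlgebra
  haveI : IsScalarTower K L (Cq q) := IsScalarTower.of_algebraMap_eq fun x => rfl
  let f : L →ₐ[K] Cq q := { ψ' with commutes' := fun x => congrFun (congrArg DFunLike.coe h) x }
  refine ⟨Normal.algHomEquivAut K (Cq q) L f, ?_⟩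
  have h1 := (Normal.algHomEquivAut K (Cq q) L).symm_apply_apply f
  ext x
  have h2 := congrArg (fun e : L →ₐ[K] Cq q => e x) h1
  exact h2.symm

/-- the Galois group acts simply transitively on the extensions of an embedding: freeness. -/
lemma comp_injective (ψ : Emb L q) {σ τ : L ≃ₐ[K] L}
    (h : ψ.comp (σ : L →+* L) = ψ.comp (τ : L →+* L)) : σ = τ := by
  ext x
  exact ψ.injective (congrFun (congrArg DFunLike.coe h) x)

lemma comp_comp_algebraMap (ψ : Emb L q) (σ : L ≃ₐ[K] L) :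
    (ψ.comp (σ : L →+* L)).comp (algebraMap K L) = ψ.comp (algebraMap K L) := by
  ext x; simp

open Classical in
/-- products over the fibre of restriction are products over the Galois group. -/
lemma prod_fibre_eq [NumberField L] [FiniteDimensional K L] [Normal K L] {M : Type*} [CommMonoid M]
    (f : Emb L q → M) (ψ : Emb L q) :
    ∏ ψ' : Emb L q with ψ'.comp (algebraMap K L) = ψ.comp (algebraMap K L), f ψ' =
      ∏ σ : L ≃ₐ[K] L, f (ψ.comp (σ : L →+* L)) := by
  symm
  refine Finset.prod_bij (fun (σ : L ≃ₐ[K] L) _ => ψ.comp (σ : L →+* L)) ?_ ?_ ?_ ?_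
  · intro σ _
    simp [comp_comp_algebraMap]
  · intro σ _ τ _ h
    exact comp_injective ψ h
  · intro ψ' hψ'
    simp only [Finset.mem_filter, Finset.mem_univ, true_and] at hψ'
    obtain ⟨σ, hσ⟩ := exists_comp_eq hψ'
    exact ⟨σ, Finset.mem_univ _, hσ.symm⟩
  · intro σ _; rfl

end torsor

section galois

variable {K L : Type*} [Field K] [Field L] [NumberField K] [NumberField L] [Algebra K L] [IsGalois K L]

instance : FiniteDimensional K L := inferInstance

lemma nmq_eq_prod (q : Nat.Primes) (f : Emb L q → (Cq q)ˣ) (ψ : Emb L q) :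
    nmq (algebraMap K L) q f (ψ.comp (algebraMap K L)) =
      ∏ σ : L ≃ₐ[K] L, f (ψ.comp (σ : L →+* L)) := by
  classical
  rw [nmq_apply]
  exact prod_fibre_eq f ψ

/-- `K → L` then norm is the power `[L:K]`. -/
lemma Idele.nm_map (f : Idele K) :
    Idele.nm (algebraMap K L) (Idele.map (algebraMap K L) f) = f ^ Module.finrank K L := by
  apply Subtype.ext
  funext q φ
  obtain ⟨ψ, rfl⟩ := exists_ext (L := L) φ
  rw [Idele.nm_coe, nmq_eq_prod]
  have h : ∀ σ : L ≃ₐ[K] L,
      ((Idele.map (algebraMap K L) f : Idele L) : ∀ q : Nat.Primes, Emb L q → (Cq q)ˣ) q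
        (ψ.comp (σ : L →+* L)) = (f : ∀ q : Nat.Primes, Emb K q → (Cq q)ˣ) q (ψ.comp (algebraMap K L)) := by
    intro σ
    have := comp_comp_algebraMap (K := K) ψ σ
    show (f : ∀ q : Nat.Primes, Emb K q → (Cq q)ˣ) q ((ψ.comp (σ : L →+* L)).comp (algebraMap K L)) = _
    rw [this]
  rw [Finset.prod_congr rfl (fun σ _ => h σ), Finset.prod_const, Finset.card_univ,
    ← Nat.card_eq_fintype_card, IsGalois.card_aut_eq_finrank]
  rfl

/-- norm then `K → L` is the product of conjugates. -/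
lemma Idele.map_nm (f : Idele L) :
    Idele.map (algebraMap K L) (Idele.nm (algebraMap K L) f) =
      ∏ σ : L ≃ₐ[K] L, (σ : L ≃+* L) • f := by
  apply Subtype.ext
  funext q ψ
  have h1 : ((Idele.map (algebraMap K L) (Idele.nm (algebraMap K L) f) : Idele L) :
      ∀ q : Nat.Primes, Emb L q → (Cq q)ˣ) q ψ = ∏ σ : L ≃ₐ[K] L,
      (f : ∀ q : Nat.Primes, Emb L q → (Cq q)ˣ) q (ψ.comp (σ : L →+* L)) :=
    nmq_eq_prod q _ ψ
  rw [h1]
  have h2 : ((∏ σ : L ≃ₐ[K] L, (σ : L ≃+* L) • f : Idele L) :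
      ∀ q : Nat.Primes, Emb L q → (Cq q)ˣ) = ∏ σ : L ≃ₐ[K] L, ((((σ : L ≃+* L) • f : Idele L)) :
      ∀ q : Nat.Primes, Emb L q → (Cq q)ˣ) := by
    simp
  rw [h2, Finset.prod_apply, Finset.prod_apply]
  rfl

lemma Idele.map_injective : Function.Injective (Idele.map (algebraMap K L)) := by
  intro f f' h
  apply Subtype.ext
  funext q φ
  obtain ⟨ψ, rfl⟩ := exists_ext (L := L) φ
  exact congrFun (congrFun (congrArg Subtype.val h) q) ψ

/-- Galois descent for ideles. -/
theorem Idele.exists_map_eq {f : Idele L} (hf : ∀ σ : L ≃ₐ[K] L, (σ : L ≃+* L) • f = f) :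
    ∃ f' : Idele K, Idele.map (algebraMap K L) f' = f := by
  classical
  choose e he using fun (q : Nat.Primes) (φ : Emb K q) => exists_ext (L := L) φ
  have key : ∀ (q : Nat.Primes) (ψ ψ' : Emb L q),
      ψ'.comp (algebraMap K L) = ψ.comp (algebraMap K L) →
      (f : ∀ q : Nat.Primes, Emb L q → (Cq q)ˣ) q ψ' = (f : ∀ q : Nat.Primes, Emb L q → (Cq q)ˣ) q ψ := by
    intro q ψ ψ' h
    obtain ⟨σ, rfl⟩ := exists_comp_eq h
    have h1 := congrFun (congrFun (congrArg Subtype.val (hf σ)) q) ψ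
    exact h1
  refine ⟨⟨fun q φ => (f : ∀ q : Nat.Primes, Emb L q → (Cq q)ˣ) q (e q φ), ?_, ?_⟩, ?_⟩
  · intro q τ φ
    have h1 : (f : ∀ q : Nat.Primes, Emb L q → (Cq q)ˣ) q (e q (τ • φ)) =
        (f : ∀ q : Nat.Primes, Emb L q → (Cq q)ˣ) q (τ • e q φ) := by
      apply key
      rw [he, smul_emb_comp, he]
    show (((f : ∀ q : Nat.Primes, Emb L q → (Cq q)ˣ) q (e q (τ • φ)) : (Cq q)ˣ) : Cq q) = _
    rw [h1]
    exact f.2.1 q τ (e q φ)
  · refine f.2.2.subset ?_
    rintro q ⟨φ, hφ⟩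
    exact ⟨e q φ, hφ⟩
  · apply Subtype.ext
    funext q ψ
    exact key q _ _ (he q _)

/-- norm of principal ideles. -/
lemma Idele.nm_princ (y : Lˣ) : Idele.nm (algebraMap K L) (princ L y) =
    princ K (Units.map (Algebra.norm K : L →* K) y) := by
  apply Subtype.ext
  funext q φ
  obtain ⟨ψ, rfl⟩ := exists_ext (L := L) φ
  rw [Idele.nm_coe, nmq_eq_prod]
  apply Units.ext
  rw [princ_apply, Units.coe_prod]
  simp only [princ_apply]
  have h1 := Algebra.norm_eq_prod_automorphisms K (y : L)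
  have h2 := congrArg ψ h1
  rw [map_prod] at h2
  exact h2.symm

end galois

section tower

variable {K L M : Type*} [Field K] [Field L] [Field M] [NumberField L] [NumberField M]

/-- norms in towers. -/
lemma Idele.nm_comp (g : K →+* L) (h : L →+* M) (f : Idele M) :
    Idele.nm (h.comp g) f = Idele.nm g (Idele.nm h f) := by
  classical
  apply Subtype.ext
  funext q φ
  rw [Idele.nm_apply, Idele.nm_apply]
  simp only [Idele.nm_apply]
  rw [Finset.prod_sigma']
  refine Finset.prod_bij' (fun χ _ => ⟨χ.comp h, χ⟩) (fun x _ => x.2) ?_ ?_ ?_ ?_ ?_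
  · intro χ hχ
    simp only [Finset.mem_filter, Finset.mem_univ, true_and, Finset.mem_sigma, and_true] at hχ ⊢
    rw [← hχ]; rfl
  · rintro ⟨ψ, χ⟩ hx
    simp only [Finset.mem_filter, Finset.mem_univ, true_and, Finset.mem_sigma] at hx ⊢
    rw [← hx.1, ← hx.2]; rfl
  · intro χ _; rfl
  · rintro ⟨ψ, χ⟩ hx
    simp only [Finset.mem_filter, Finset.mem_univ, true_and, Finset.mem_sigma] at hx
    simp [hx.2]
  · intro χ _; rfl

end tower

end Fermat.Agent.CFT
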