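import Mathlib
import Fermat.Agent.CFT.Galois

/-!
# Gluing local data along Galois orbits
-/

set_option autoImplicit false

namespace Fermat.Agent.CFT

section glue

/-- gluing of partial equivariant functions -/
theorem exists_glue {Γ X Y M : Type*} [Group Γ] [MulAction Γ X] [MulAction Γ Y] [MulAction Γ M]
    (π : X → Y) (hπ : ∀ (τ : Γ) x, π (τ • x) = τ • π x) (g : Y → X → M)
    (hg : ∀ (y : Y) (τ : Γ), τ • y = y → ∀ x, π x = y → g y (τ • x) = τ • g y x) :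
    ∃ f : X → M, (∀ (τ : Γ) x, f (τ • x) = τ • f x) ∧
      ∀ y, ∃ (τ : Γ) (y₀ : Y), τ • y₀ = y ∧ ∀ x, π x = y₀ → f (τ • x) = τ • g y₀ x := by
  classical
  -- representatives
  let rep : Y → Y := fun y => Quotient.out (Quotient.mk (MulAction.orbitRel Γ Y) y)
  have hrep : ∀ y, ∃ τ : Γ, τ • rep y = y := by
    intro y
    have h1 : (MulAction.orbitRel Γ Y) (rep y) y := Quotient.exact (Quotient.out_eq _)
    have h2 : (MulAction.orbitRel Γ Y) y (rep y) := (MulAction.orbitRel Γ Y).symm h1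
    exact h2
  choose t ht using hrep
  have hrep' : ∀ (τ : Γ) y, rep (τ • y) = rep y := by
    intro τ y
    have : (Quotient.mk (MulAction.orbitRel Γ Y) (τ • y)) = Quotient.mk (MulAction.orbitRel Γ Y) y :=
      Quotient.sound ⟨τ, rfl⟩
    show Quotient.out (Quotient.mk (MulAction.orbitRel Γ Y) (τ • y)) = _
    rw [this]
  refine ⟨fun x => t (π x) • g (rep (π x)) ((t (π x))⁻¹ • x), ?_, ?_⟩
  · intro τ x
    simp only [hπ, hrep']
    set y := π x with hy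
    set ρ := (t (τ • y))⁻¹ * τ * t y with hρ
    have hρ1 : ρ • rep y = rep y := by
      have h1 := ht (τ • y)
      rw [hrep'] at h1
      rw [hρ, mul_smul, mul_smul, ht y, inv_smul_eq_iff, h1]
    have h2 := hg (rep y) ρ hρ1 ((t y)⁻¹ • x) (by rw [hπ, ← hy, inv_smul_eq_iff, ht y])
    have h3 : ρ • (t y)⁻¹ • x = (t (τ • y))⁻¹ • τ • x := by
      rw [hρ]; simp only [smul_smul]; congr 1; group
    rw [h3] at h2
    rw [h2, hρ]; simp only [smul_smul]; congr 1; group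
  · intro y
    refine ⟨t y, rep y, ht y, fun x hx => ?_⟩
    have h1 : π (t y • x) = y := by rw [hπ, hx, ht y]
    simp only [h1, inv_smul_smul]

end glue

section locnm

variable {K L : Type*} [Field K] [Field L] [NumberField L]

/-- the Galois group acts on units of `Cq q`. -/
noncomputable instance unitsMulAction (q : Nat.Primes) : MulAction (Gq q) (Cq q)ˣ where
  smul τ u := Units.map (τ : Cq q →* Cq q) u
  one_smul u := by ext; rfl
  mul_smul σ τ u := by ext; rfl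

@[simp] lemma smul_units_coe {q : Nat.Primes} (τ : Gq q) (u : (Cq q)ˣ) :
    ((τ • u : (Cq q)ˣ) : Cq q) = τ (u : Cq q) := rfl

open Classical in
/-- `u` is a local norm at the embedding `φ`. -/
def LocNm (g : K →+* L) (q : Nat.Primes) (φ : Emb K q) (u : (Cq q)ˣ) : Prop :=
  ∃ y : Emb L q → (Cq q)ˣ, (∀ τ : Gq q, τ • φ = φ → ∀ ψ : Emb L q, ψ.comp g = φ →
    (y (τ • ψ) : Cq q) = τ (y ψ : Cq q)) ∧ ∏ ψ : Emb L q with ψ.comp g = φ, y ψ = u

open Classical in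
/-- `u` is a norm of a local unit at the embedding `φ`. -/
def LocUNm (g : K →+* L) (q : Nat.Primes) (φ : Emb K q) (u : (Cq q)ˣ) : Prop :=
  ∃ y : Emb L q → (Cq q)ˣ, (∀ τ : Gq q, τ • φ = φ → ∀ ψ : Emb L q, ψ.comp g = φ →
    (y (τ • ψ) : Cq q) = τ (y ψ : Cq q)) ∧ (∀ ψ : Emb L q, ψ.comp g = φ → ‖(y ψ : Cq q)‖ = 1) ∧
    ∏ ψ : Emb L q with ψ.comp g = φ, y ψ = u

lemma LocUNm.locNm {g : K →+* L} {q : Nat.Primes} {φ : Emb K q} {u : (Cq q)ˣ}
    (h : LocUNm g q φ u) : LocNm g q φ u := by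
  obtain ⟨y, h1, _, h3⟩ := h
  exact ⟨y, h1, h3⟩

lemma LocNm.mul {g : K →+* L} {q : Nat.Primes} {φ : Emb K q} {u v : (Cq q)ˣ}
    (hu : LocNm g q φ u) (hv : LocNm g q φ v) : LocNm g q φ (u * v) := by
  classical
  obtain ⟨y, h1, h3⟩ := hu
  obtain ⟨z, k1, k3⟩ := hv
  refine ⟨y * z, fun τ hτ ψ hψ => ?_, ?_⟩
  · simp [h1 τ hτ ψ hψ, k1 τ hτ ψ hψ]
  · simp only [Pi.mul_apply, Finset.prod_mul_distrib, h3, k3]

lemma LocUNm.mul {g : K →+* L} {q : Nat.Primes} {φ : Emb K q} {u v : (Cq q)ˣ}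
    (hu : LocUNm g q φ u) (hv : LocUNm g q φ v) : LocUNm g q φ (u * v) := by
  classical
  obtain ⟨y, h1, h2, h3⟩ := hu
  obtain ⟨z, k1, k2, k3⟩ := hv
  refine ⟨y * z, fun τ hτ ψ hψ => ?_, fun ψ hψ => ?_, ?_⟩
  · simp [h1 τ hτ ψ hψ, k1 τ hτ ψ hψ]
  · simp [h2 ψ hψ, k2 ψ hψ]
  · simp only [Pi.mul_apply, Finset.prod_mul_distrib, h3, k3]

open Classical in
lemma smul_prod_fibre (g : K →+* L) (q : Nat.Primes) (τ : Gq q) (φ₀ : Emb K q)
    (y : Emb L q → (Cq q)ˣ) (f : Emb L q → (Cq q)ˣ)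
    (h : ∀ ψ : Emb L q, ψ.comp g = φ₀ → f (τ • ψ) = τ • y ψ) :
    ((∏ ψ : Emb L q with ψ.comp g = τ • φ₀, f ψ : (Cq q)ˣ) : Cq q) =
      τ ((∏ ψ : Emb L q with ψ.comp g = φ₀, y ψ : (Cq q)ˣ) : Cq q) := by
  simp only [Units.coe_prod, map_prod]
  symm
  refine Finset.prod_bij' (fun ψ _ => τ • ψ) (fun ψ _ => τ⁻¹ • ψ) ?_ ?_ ?_ ?_ ?_
  · intro ψ hψ
    simp only [Finset.mem_filter, Finset.mem_univ, true_and] at hψ ⊢
    rw [smul_emb_comp, hψ]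
  · intro ψ hψ
    simp only [Finset.mem_filter, Finset.mem_univ, true_and] at hψ ⊢
    rw [smul_emb_comp, hψ, inv_smul_smul]
  · intro ψ _; simp
  · intro ψ _; simp
  · intro ψ hψ
    simp only [Finset.mem_filter, Finset.mem_univ, true_and] at hψ
    rw [h ψ hψ]; rfl

/-- local norms glue to a semi-local norm. -/
theorem exists_nmq_eq {g : K →+* L} {q : Nat.Primes} {f : Emb K q → (Cq q)ˣ} (hf : f ∈ Jq K q)
    (h : ∀ φ, LocNm g q φ (f φ)) : ∃ y ∈ Jq L q, nmq g q y = f := by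
  classical
  choose y hy1 hy2 using h
  obtain ⟨F, hF1, hF2⟩ := exists_glue (Γ := Gq q) (M := (Cq q)ˣ) (fun ψ : Emb L q => ψ.comp g)
    (fun τ ψ => smul_emb_comp τ ψ g) y (fun φ τ hτ ψ hψ => Units.ext (hy1 φ τ hτ ψ hψ))
  refine ⟨F, fun τ ψ => by rw [hF1]; rfl, ?_⟩
  funext φ
  obtain ⟨τ, φ₀, rfl, h3⟩ := hF2 φ
  apply Units.ext
  rw [nmq_apply, smul_prod_fibre g q τ φ₀ (y φ₀) F h3, hy2 φ₀]
  exact (hf τ φ₀).symm

/-- local unit norms glue to a semi-local unit norm. -/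
theorem exists_nmq_eq_unit {g : K →+* L} {q : Nat.Primes} {f : Emb K q → (Cq q)ˣ} (hf : f ∈ Jq K q)
    (h : ∀ φ, LocUNm g q φ (f φ)) : ∃ y ∈ Uq L q, nmq g q y = f := by
  classical
  choose y hy1 hy2 hy3 using h
  obtain ⟨F, hF1, hF2⟩ := exists_glue (Γ := Gq q) (M := (Cq q)ˣ) (fun ψ : Emb L q => ψ.comp g)
    (fun τ ψ => smul_emb_comp τ ψ g) y (fun φ τ hτ ψ hψ => Units.ext (hy1 φ τ hτ ψ hψ))
  refine ⟨F, ⟨fun τ ψ => by rw [hF1]; rfl, fun ψ => ?_⟩, ?_⟩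
  · obtain ⟨τ, φ₀, h1, h3⟩ := hF2 (ψ.comp g)
    have h4 : (τ⁻¹ • ψ).comp g = φ₀ := by rw [smul_emb_comp, ← h1, inv_smul_smul]
    have h5 := h3 (τ⁻¹ • ψ) h4
    rw [smul_inv_smul] at h5
    rw [h5, smul_units_coe, norm_gq]
    exact hy2 φ₀ _ h4
  · funext φ
    obtain ⟨τ, φ₀, rfl, h3⟩ := hF2 φ
    apply Units.ext
    rw [nmq_apply, smul_prod_fibre g q τ φ₀ (y φ₀) F h3, hy3 φ₀]
    exact (hf τ φ₀).symm

/-- ideles which are locally norms (of units almost everywhere) are norms. -/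
theorem mem_range_nm {g : K →+* L} (f : Idele K)
    (h : ∀ (q : Nat.Primes) (φ : Emb K q),
      LocNm g q φ ((f : ∀ q : Nat.Primes, Emb K q → (Cq q)ˣ) q φ))
    (h' : ∃ S : Finset Nat.Primes, ∀ q ∉ S, ∀ φ : Emb K q,
      LocUNm g q φ ((f : ∀ q : Nat.Primes, Emb K q → (Cq q)ˣ) q φ)) :
    f ∈ (Idele.nm g).range := by
  classical
  obtain ⟨S, hS⟩ := h'
  choose y hy1 hy2 using fun q => exists_nmq_eq (f.2.1 q) (h q)
  have h3 : ∀ q, ∃ z ∈ Jq L q, nmq g q z = (f : ∀ q : Nat.Primes, Emb K q → (Cq q)ˣ) q ∧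
      (q ∉ S → ∀ ψ, ‖(z ψ : Cq q)‖ = 1) := by
    intro q
    by_cases hq : q ∈ S
    · exact ⟨y q, hy1 q, hy2 q, fun h => absurd hq h⟩
    · obtain ⟨z, hz1, hz2⟩ := exists_nmq_eq_unit (f.2.1 q) (hS q hq)
      exact ⟨z, hz1.1, hz2, fun _ => hz1.2⟩
  choose z hz1 hz2 hz3 using h3
  refine ⟨⟨z, hz1, ?_⟩, ?_⟩
  · refine S.finite_toSet.subset ?_
    rintro q ⟨ψ, hψ⟩
    by_contra hq
    exact hψ (hz3 q hq ψ)
  · apply Subtype.ext
    funext q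
    exact hz2 q

end locnm

/-- gluing for elements: if for all `φ` there is a `Stab φ`-invariant element with a Galois stable property,
then there is an equivariant function with this property. -/
theorem exists_Jq_of_local {K : Type*} [Field K] {q : Nat.Primes}
    (P : Emb K q → (Cq q)ˣ → Prop) (hP : ∀ (τ : Gq q) φ u, P φ u → P (τ • φ) (τ • u))
    (h : ∀ φ, ∃ u : (Cq q)ˣ, (∀ τ : Gq q, τ • φ = φ → τ (u : Cq q) = u) ∧ P φ u) :
    ∃ f ∈ Jq K q, ∀ φ, P φ (f φ) := by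
  choose u hu1 hu2 using h
  obtain ⟨F, hF1, hF2⟩ := exists_glue (Γ := Gq q) (M := (Cq q)ˣ) (fun φ : Emb K q => φ)
    (fun τ ψ => rfl) (fun φ _ => u φ) (fun φ τ hτ ψ _ => (Units.ext (hu1 φ τ hτ)).symm)
  refine ⟨F, fun τ ψ => by rw [hF1]; rfl, fun φ => ?_⟩
  obtain ⟨τ, φ₀, rfl, h3⟩ := hF2 φ
  rw [h3 φ₀ rfl]
  exact hP _ _ _ (hu2 φ₀)

end Fermat.Agent.CFT
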