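import Mathlib
import Fermat.Agent.CFT.SemiLocal

set_option autoImplicit false

open Polynomial

namespace Fermat.Agent.CFT

section close

variable {q : Nat.Primes} (p : ℕ) [hp : Fact p.Prime]

lemma norm_natCast_le_one (n : ℕ) : ‖(n : Cq q)‖ ≤ 1 := by
  have := IsUltrametricDist.norm_natCast_le_one (R := Cq q) n
  simpa using this

lemma norm_eq_one_of_close {w : Cq q} (hlt : ‖1 - w‖ < 1) : ‖w‖ = 1 := by
  have h2 : ‖w‖ = ‖(1 : Cq q) + -(1 - w)‖ := by congr 1; ring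
  have h3 : ‖-(1 - w)‖ = ‖1 - w‖ := norm_neg _
  have h4 : ‖(1 : Cq q)‖ = 1 := norm_one
  rw [h2, IsUltrametricDist.norm_add_eq_max_of_norm_ne_norm, h3, h4, max_eq_left hlt.le]
  rw [h3, h4]; exact hlt.ne'

lemma norm_p_pos : 0 < ‖(p : Cq q)‖ :=
  norm_pos_iff.2 (Nat.cast_ne_zero.2 hp.out.ne_zero)

lemma isPrimitiveRoot_of_pow_eq_one {F : Type*} [Field F] {ζ : F} (hζ : ζ ^ p = 1) (hne : ζ ≠ 1) :
    IsPrimitiveRoot ζ p := by
  have h := orderOf_eq_prime hζ hne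
  rw [← h]
  exact IsPrimitiveRoot.orderOf ζ

/-- a `p`-th root of unity close to `1` is `1`. -/
lemma eq_one_of_close {ζ : Cq q} (hζ : ζ ^ p = 1) (hc : ‖1 - ζ‖ ^ (p - 1) < ‖(p : Cq q)‖) : ζ = 1 := by
  by_contra hne
  have hprim : IsPrimitiveRoot ζ p := isPrimitiveRoot_of_pow_eq_one p hζ hne
  obtain ⟨n, hn⟩ : ∃ n, p = n + 1 := Nat.exists_eq_succ_of_ne_zero hp.out.ne_zero
  have h1 := IsPrimitiveRoot.prod_one_sub_pow_eq_order (hn ▸ hprim)
  have hnorm : ‖ζ‖ = 1 := by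
    have h2 : ‖ζ‖ ^ p = 1 := by rw [← norm_pow, hζ, norm_one]
    exact (pow_eq_one_iff_of_nonneg (norm_nonneg _) hp.out.ne_zero).1 h2
  have h3 : ∀ k : ℕ, ‖1 - ζ ^ (k + 1)‖ ≤ ‖1 - ζ‖ := by
    intro k
    have h4 : 1 - ζ ^ (k + 1) = (1 - ζ) * ∑ i ∈ Finset.range (k + 1), ζ ^ i := by
      rw [mul_comm, ← neg_sub ζ 1, ← neg_sub (ζ ^ (k + 1)) 1, mul_neg, geom_sum_mul]
    rw [h4, norm_mul]
    have h5 : ‖∑ i ∈ Finset.range (k + 1), ζ ^ i‖ ≤ 1 := by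
      refine IsUltrametricDist.norm_sum_le_of_forall_le_of_nonneg zero_le_one ?_
      intro i _
      rw [norm_pow, hnorm, one_pow]
    calc ‖1 - ζ‖ * ‖∑ i ∈ Finset.range (k + 1), ζ ^ i‖ ≤ ‖1 - ζ‖ * 1 := by gcongr
      _ = _ := mul_one _
  have h6 : ‖(p : Cq q)‖ ≤ ‖1 - ζ‖ ^ (p - 1) := by
    have h7 : (p : Cq q) = ∏ k ∈ Finset.range n, (1 - ζ ^ (k + 1)) := by
      rw [h1, hn]; push_cast; rfl
    rw [h7, norm_prod, hn, Nat.add_sub_cancel]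
    calc ∏ k ∈ Finset.range n, ‖1 - ζ ^ (k + 1)‖ ≤ ∏ k ∈ Finset.range n, ‖1 - ζ‖ :=
          Finset.prod_le_prod (fun _ _ => norm_nonneg _) (fun k _ => h3 k)
      _ = ‖1 - ζ‖ ^ n := by simp
  exact absurd hc (not_lt.2 h6)

/-- uniqueness of close roots. -/
lemma close_root_unique {w w' : Cq q} (h : w ^ p = w' ^ p) (hw : ‖1 - w‖ ^ (p - 1) < ‖(p : Cq q)‖)
    (hw' : ‖1 - w'‖ ^ (p - 1) < ‖(p : Cq q)‖) : w = w' := by
  have hp1 : p - 1 ≠ 0 := Nat.sub_ne_zero_of_lt hp.out.one_lt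
  have hlt : ∀ {v : Cq q}, ‖1 - v‖ ^ (p - 1) < ‖(p : Cq q)‖ → ‖1 - v‖ < 1 := by
    intro v hv
    by_contra h1
    push Not at h1
    have : (1 : ℝ) ≤ ‖1 - v‖ ^ (p - 1) := one_le_pow₀ h1
    exact absurd (lt_of_le_of_lt this hv) (not_lt.2 (norm_natCast_le_one p))
  have hw1 : ‖w'‖ = 1 := norm_eq_one_of_close (hlt hw')
  have hw0 : w' ≠ 0 := by
    intro h0; rw [h0, norm_zero] at hw1; exact zero_ne_one hw1
  have hζ : (w / w') ^ p = 1 := by rw [div_pow, h, div_self (pow_ne_zero _ hw0)]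
  have h3 : ‖1 - w / w'‖ ≤ max ‖1 - w‖ ‖1 - w'‖ := by
    have h4 : 1 - w / w' = ((1 - w) - (1 - w')) / w' := by field_simp; ring
    rw [h4, norm_div, hw1, div_one, sub_eq_add_neg]
    refine le_trans (IsUltrametricDist.norm_add_le_max _ _) (le_of_eq ?_)
    rw [norm_neg]
  have h5 : ‖1 - w / w'‖ ^ (p - 1) < ‖(p : Cq q)‖ := by
    refine lt_of_le_of_lt (pow_le_pow_left₀ (norm_nonneg _) h3 _) ?_
    rcases le_total ‖1 - w‖ ‖1 - w'‖ with hle | hle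
    · rw [max_eq_right hle]; exact hw'
    · rw [max_eq_left hle]; exact hw
  have h6 := eq_one_of_close p hζ h5
  rw [div_eq_one_iff_eq hw0] at h6
  exact h6

/-- existence of close roots. -/
lemma exists_close_root {z : Cq q} (hz : ‖1 - z‖ < ‖(p : Cq q)‖ ^ 2) :
    ∃ w : Cq q, w ^ p = z ∧ ‖1 - w‖ ^ (p - 1) < ‖(p : Cq q)‖ := by
  have hpos := norm_p_pos (q := q) p
  obtain ⟨α, hα⟩ := IsAlgClosed.exists_pow_nat_eq z hp.out.pos
  haveI : NeZero (p : Cq q) := ⟨Nat.cast_ne_zero.2 hp.out.ne_zero⟩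
  obtain ⟨ζ, hζ⟩ := HasEnoughRootsOfUnity.exists_primitiveRoot (Cq q) p
  have h1 := X_pow_sub_C_eq_prod hζ hp.out.pos hα
  have h2 : 1 - z = ∏ i ∈ Finset.range p, (1 - ζ ^ i * α) := by
    have := congrArg (Polynomial.eval 1) h1
    simpa [eval_prod] using this
  have hne : (Finset.range p).Nonempty := Finset.nonempty_range_iff.2 hp.out.ne_zero
  obtain ⟨i, hi, hmin⟩ := Finset.exists_min_image (Finset.range p) (fun i => ‖1 - ζ ^ i * α‖) hne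
  have h3 : ‖1 - ζ ^ i * α‖ ^ p ≤ ‖1 - z‖ := by
    rw [h2, norm_prod]
    calc ‖1 - ζ ^ i * α‖ ^ p = ∏ _j ∈ Finset.range p, ‖1 - ζ ^ i * α‖ := by simp
      _ ≤ _ := Finset.prod_le_prod (fun _ _ => norm_nonneg _) (fun j hj => hmin j hj)
  refine ⟨ζ ^ i * α, ?_, ?_⟩
  · rw [mul_pow, ← pow_mul, mul_comm i p, pow_mul, hζ.pow_eq_one, one_pow, one_mul, hα]
  · set t := ‖1 - ζ ^ i * α‖ with ht
    have ht0 : 0 ≤ t := norm_nonneg _
    have h4 : t ^ p < ‖(p : Cq q)‖ ^ 2 := lt_of_le_of_lt h3 hz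
    have hp1 : p - 1 ≠ 0 := Nat.sub_ne_zero_of_lt hp.out.one_lt
    have h5 : (t ^ (p - 1)) ^ p < ‖(p : Cq q)‖ ^ p := by
      calc (t ^ (p - 1)) ^ p = (t ^ p) ^ (p - 1) := by rw [← pow_mul, ← pow_mul, mul_comm]
        _ < (‖(p : Cq q)‖ ^ 2) ^ (p - 1) := pow_lt_pow_left₀ h4 (by positivity) hp1
        _ = ‖(p : Cq q)‖ ^ (2 * (p - 1)) := by rw [← pow_mul]
        _ ≤ ‖(p : Cq q)‖ ^ p := by
            refine pow_le_pow_of_le_one hpos.le (norm_natCast_le_one p) ?_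
            have := hp.out.two_le
            omega
    exact lt_of_pow_lt_pow_left₀ p hpos.le h5

end close

section ideles

variable {K : Type*} [Field K] {q : Nat.Primes} (p : ℕ) [hp : Fact p.Prime]

/-- equivariant functions close to `1` are `p`-th powers of units. -/
theorem exists_pow_of_close {f : Emb K q → (Cq q)ˣ} (hf : f ∈ Jq K q)
    (h : ∀ φ, ‖1 - (f φ : Cq q)‖ < ‖(p : Cq q)‖ ^ 2) : ∃ g ∈ Uq K q, g ^ p = f := by
  choose w hw1 hw2 using fun φ => exists_close_root p (h φ)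
  have hw0 : ∀ φ, w φ ≠ 0 := by
    intro φ h0
    have := hw1 φ
    rw [h0, zero_pow hp.out.ne_zero] at this
    exact (f φ).ne_zero this.symm
  have hnorm : ∀ φ, ‖w φ‖ = 1 := by
    intro φ
    have hlt : ‖1 - w φ‖ < 1 := by
      by_contra h1
      push Not at h1
      exact absurd (lt_of_le_of_lt (one_le_pow₀ h1) (hw2 φ)) (not_lt.2 (norm_natCast_le_one p))
    exact norm_eq_one_of_close hlt
  refine ⟨fun φ => Units.mk0 (w φ) (hw0 φ), ⟨?_, fun φ => hnorm φ⟩, ?_⟩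
  · intro τ φ
    show w (τ • φ) = τ (w φ)
    apply close_root_unique p
    · rw [hw1, ← map_pow, hw1]
      exact hf τ φ
    · exact hw2 _
    · have : 1 - τ (w φ) = τ (1 - w φ) := by simp
      rw [this, norm_gq]
      exact hw2 φ
  · funext φ
    apply Units.ext
    simp [hw1 φ]

/-- every equivariant function is a global element times a `p`-th power of a unit, simultaneously for finitely
many `q`. -/
theorem exists_princ_mul_pow {K : Type*} [Field K] [NumberField K] (S : Finset Nat.Primes)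
    (f : ∀ q : Nat.Primes, Emb K q → (Cq q)ˣ) (hf : ∀ q ∈ S, f q ∈ Jq K q) :
    ∃ x : Kˣ, ∀ q ∈ S, ∃ g ∈ Uq K q, ∀ φ : Emb K q, (f q φ : Cq q) = φ (x : K) * (g φ : Cq q) ^ p := by
  classical
  rcases S.eq_empty_or_nonempty with rfl | hS
  · exact ⟨1, by simp⟩
  -- choose `ε`
  obtain ⟨ε, hε0, hε⟩ : ∃ ε : ℝ, 0 < ε ∧ ∀ q ∈ S, ∀ φ : Emb K q,
      ε ≤ ‖(f q φ : Cq q)‖ * ‖(p : Cq q)‖ ^ 2 := by
    let T : Finset (Σ q : Nat.Primes, Emb K q) := S.sigma fun q => Finset.univ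
    by_cases hT : T.Nonempty
    · obtain ⟨t, ht, hmin⟩ := T.exists_min_image
        (fun t => ‖(f t.1 t.2 : Cq t.1)‖ * ‖(p : Cq t.1)‖ ^ 2) hT
      refine ⟨‖(f t.1 t.2 : Cq t.1)‖ * ‖(p : Cq t.1)‖ ^ 2, ?_, fun q hq φ => ?_⟩
      · have h1 : 0 < ‖(f t.1 t.2 : Cq t.1)‖ := norm_pos_iff.2 (f t.1 t.2).ne_zero
        have h2 := norm_p_pos (q := t.1) p
        positivity
      · exact hmin ⟨q, φ⟩ (by simp [T, hq])
    · refine ⟨1, one_pos, fun q hq φ => ?_⟩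
      exfalso
      exact hT ⟨⟨q, φ⟩, by simp [T, hq]⟩
  obtain ⟨x, hx⟩ := dense_semilocal S (fun q φ => (f q φ : Cq q)) (fun q hq τ φ => hf q hq τ φ) hε0
  -- `x ≠ 0`
  have hx1 : ∀ q ∈ S, ∀ φ : Emb K q, ‖φ x‖ = ‖(f q φ : Cq q)‖ := by
    intro q hq φ
    have h1 : ‖φ x - f q φ‖ < ‖(f q φ : Cq q)‖ := by
      refine lt_of_lt_of_le (hx q hq φ) (le_trans (hε q hq φ) ?_)
      have h2 : ‖(p : Cq q)‖ ^ 2 ≤ 1 := pow_le_one₀ (norm_nonneg _) (norm_natCast_le_one p)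
      exact mul_le_of_le_one_right (norm_nonneg _) h2
    have h3 : φ x = (φ x - f q φ) + f q φ := by ring
    rw [h3, IsUltrametricDist.norm_add_eq_max_of_norm_ne_norm h1.ne, max_eq_right h1.le]
  have hx0 : x ≠ 0 := by
    obtain ⟨q, hq⟩ := hS
    obtain ⟨φ⟩ : Nonempty (Emb K q) := ⟨(IsAlgClosed.lift : K →ₐ[ℚ] Cq q).toRingHom⟩
    intro h0
    have h1 := hx1 q hq φ
    rw [h0, map_zero, norm_zero] at h1
    exact (norm_pos_iff.2 (f q φ).ne_zero).ne h1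
  refine ⟨Units.mk0 x hx0, fun q hq => ?_⟩
  -- `f / x` is close to `1`
  let h : Emb K q → (Cq q)ˣ := fun φ => f q φ / Units.map (φ : K →* Cq q) (Units.mk0 x hx0)
  have hh : h ∈ Jq K q := by
    refine div_mem (hf q hq) ?_
    intro τ φ; rfl
  have hclose : ∀ φ, ‖1 - (h φ : Cq q)‖ < ‖(p : Cq q)‖ ^ 2 := by
    intro φ
    have hφx : φ x ≠ 0 := (map_ne_zero φ).2 hx0
    have h1 : 1 - (h φ : Cq q) = (φ x - f q φ) / φ x := by
      simp only [h, Units.val_div_eq_div_val, Units.coe_map, Units.val_mk0, MonoidHom.coe_coe]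
      field_simp
    rw [h1, norm_div, div_lt_iff₀ (norm_pos_iff.2 hφx), hx1 q hq φ, mul_comm]
    exact lt_of_lt_of_le (hx q hq φ) (hε q hq φ)
  obtain ⟨g, hg, hgp⟩ := exists_pow_of_close p hh hclose
  refine ⟨g, hg, fun φ => ?_⟩
  have h1 := congrArg (fun u : (Cq q)ˣ => (u : Cq q)) (congrFun hgp φ)
  simp only [Pi.pow_apply, Units.val_pow_eq_pow_val, h, Units.val_div_eq_div_val, Units.coe_map,
    Units.val_mk0, MonoidHom.coe_coe] at h1
  rw [h1]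
  have hφx : φ x ≠ 0 := (map_ne_zero φ).2 hx0
  simp only [Units.val_mk0]
  field_simp

end ideles

end Fermat.Agent.CFT
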