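import Mathlib
import Fermat.Agent.CFT.Galois
import Fermat.Agent.CFT.PowClose

/-!
# The `S`-idele class group
-/

set_option autoImplicit false

namespace Fermat.Agent.CFT

variable (K : Type*) [Field K]

/-- ideles which are trivial at `S` and units outside `S`. -/
def US (S : Finset Nat.Primes) : Subgroup (Idele K) where
  carrier := {f | (∀ q ∈ S, (f : ∀ q : Nat.Primes, Emb K q → (Cq q)ˣ) q = 1) ∧
    ∀ q ∉ S, (f : ∀ q : Nat.Primes, Emb K q → (Cq q)ˣ) q ∈ Uq K q}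
  mul_mem' := by
    rintro a b ⟨ha, ha'⟩ ⟨hb, hb'⟩
    refine ⟨fun q hq => ?_, fun q hq => mul_mem (ha' q hq) (hb' q hq)⟩
    show (a : ∀ q : Nat.Primes, Emb K q → (Cq q)ˣ) q * (b : ∀ q : Nat.Primes, Emb K q → (Cq q)ˣ) q = 1
    rw [ha q hq, hb q hq, one_mul]
  one_mem' := ⟨fun q _ => rfl, fun q _ => one_mem _⟩
  inv_mem' := by
    rintro a ⟨ha, ha'⟩
    refine ⟨fun q hq => ?_, fun q hq => inv_mem (ha' q hq)⟩
    show ((a : ∀ q : Nat.Primes, Emb K q → (Cq q)ˣ) q)⁻¹ = 1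
    rw [ha q hq, inv_one]

lemma mem_US_iff {K : Type*} [Field K] {S : Finset Nat.Primes} {f : Idele K} :
    f ∈ US K S ↔ (∀ q ∈ S, (f : ∀ q : Nat.Primes, Emb K q → (Cq q)ˣ) q = 1) ∧
      ∀ q ∉ S, (f : ∀ q : Nat.Primes, Emb K q → (Cq q)ˣ) q ∈ Uq K q := Iff.rfl

/-- kernel of the map to the `S`-idele class group. -/
noncomputable def CSker [NumberField K] (S : Finset Nat.Primes) : Subgroup (Idele K) :=
  (princ K).range ⊔ US K S

/-- the `S`-idele class group -/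
abbrev CS [NumberField K] (S : Finset Nat.Primes) : Type _ := Idele K ⧸ CSker K S

end Fermat.Agent.CFT
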