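import Mathlib
import Fermat.Agent.CFT.Glue
import Fermat.Agent.CFT.PowClose

/-!
# Kummer extensions of prime degree: semi-local computations
-/

set_option autoImplicit false
set_option linter.style.haveILetI false
set_option linter.unusedSectionVars false

open Polynomial

namespace Fermat.Agent.CFT

universe u v

/-- Kummer data -/
structure Kum (p : ℕ) (K : Type u) (L : Type v) [Field K] [Field L] [Algebra K L] where
  ζ : K
  hζ : IsPrimitiveRoot ζ p
  a : Kˣ
  α : Lˣ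
  hα : (α : L) ^ p = algebraMap K L (a : K)
  σ : L ≃ₐ[K] L
  hσ : σ (α : L) = algebraMap K L ζ * α
  hfin : Module.finrank K L = p

section construct

variable {p : ℕ} [hp : Fact p.Prime] {K : Type u} [Field K]

lemma Kum.of_splitting {ζ : K} (hζ : IsPrimitiveRoot ζ p) (a : Kˣ) (ha : ∀ c : K, c ^ p ≠ a)
    (L : Type v) [Field L] [Algebra K L] [IsSplittingField K L (X ^ p - C (a : K))] (α : Lˣ)
    (hα : (α : L) ^ p = algebraMap K L (a : K)) :
    IsGalois K L ∧ ∃ k : Kum p K L, k.ζ = ζ ∧ k.a = a ∧ k.α = α := by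
  have H : Irreducible (X ^ p - C (a : K)) := X_pow_sub_C_irreducible_of_prime hp.out ha
  haveI : NeZero p := ⟨hp.out.ne_zero⟩
  have hne : (primitiveRoots p K).Nonempty := ⟨ζ, (mem_primitiveRoots hp.out.pos).2 hζ⟩
  refine ⟨isGalois_of_isSplittingField_X_pow_sub_C hne H L, ?_⟩
  refine ⟨⟨ζ, hζ, a, α, hα, (autEquivZmod H L hζ).symm (Multiplicative.ofAdd ((1 : ℕ) : ZMod p)), ?_,
    finrank_of_isSplittingField_X_pow_sub_C hne H L⟩, rfl, rfl, rfl⟩
  have h1 := autEquivZmod_symm_apply_natCast H L hα hζ 1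
  rw [h1, pow_one, Algebra.smul_def]

lemma Kum.of_finrank {ζ : K} (hζ : IsPrimitiveRoot ζ p) (a : Kˣ) (ha : ∀ c : K, c ^ p ≠ a)
    (L : Type v) [Field L] [Algebra K L] (hfin : Module.finrank K L = p) (α : Lˣ)
    (hα : (α : L) ^ p = algebraMap K L (a : K)) :
    IsGalois K L ∧ ∃ k : Kum p K L, k.ζ = ζ ∧ k.a = a ∧ k.α = α := by
  have H : Irreducible (X ^ p - C (a : K)) := X_pow_sub_C_irreducible_of_prime hp.out ha
  haveI : FiniteDimensional K L := Module.finite_of_finrank_pos (by rw [hfin]; exact hp.out.pos)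
  have hne : (primitiveRoots (Module.finrank K L) K).Nonempty :=
    ⟨ζ, (mem_primitiveRoots (hfin ▸ hp.out.pos)).2 (hfin ▸ hζ)⟩
  have htop : IntermediateField.adjoin K {(α : L)} = ⊤ := by
    apply IntermediateField.eq_of_le_of_finrank_eq le_top
    have hmin : minpoly K (α : L) = X ^ p - C (a : K) := by
      symm
      refine minpoly.eq_of_irreducible_of_monic H ?_ (monic_X_pow_sub_C _ hp.out.ne_zero)
      simp [hα]
    rw [IntermediateField.adjoin.finrank (IsIntegral.of_finite K (α : L)), hmin,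
      natDegree_X_pow_sub_C, IntermediateField.finrank_top', hfin]
  haveI : IsSplittingField K L (X ^ p - C (a : K)) := by
    have h2 := isSplittingField_X_pow_sub_C_of_root_adjoin_eq_top hne (a := (a : K)) (α := (α : L))
      (by rw [hfin]; exact hα) htop
    rwa [hfin] at h2
  exact Kum.of_splitting hζ a ha L α hα

lemma exists_kum [NumberField K] {ζ : K} (hζ : IsPrimitiveRoot ζ p) (a : Kˣ) (ha : ∀ c : K, c ^ p ≠ a) :
    ∃ (L : Type u) (_ : Field L) (_ : NumberField L) (_ : Algebra K L) (_ : IsGalois K L)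
      (k : Kum p K L), k.ζ = ζ ∧ k.a = a := by
  have H : Irreducible (X ^ p - C (a : K)) := X_pow_sub_C_irreducible_of_prime hp.out ha
  haveI : NeZero p := ⟨hp.out.ne_zero⟩
  let L := SplittingField (X ^ p - C (a : K))
  haveI : FiniteDimensional K L := Polynomial.IsSplittingField.finiteDimensional L (X ^ p - C (a : K))
  haveI : CharZero L := algebraRat.charZero L
  haveI : NumberField L := NumberField.of_module_finite K L
  let α := rootOfSplitsXPowSubC (NeZero.pos p) (a : K) L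
  have hα : α ^ p = algebraMap K L (a : K) := rootOfSplitsXPowSubC_pow (a : K) L
  have hα0 : α ≠ 0 := by
    intro h0
    rw [h0, zero_pow hp.out.ne_zero] at hα
    exact a.ne_zero ((map_eq_zero _).1 hα.symm)
  obtain ⟨h1, k, h2, h3, h4⟩ := Kum.of_splitting hζ a ha L (Units.mk0 α hα0) hα
  exact ⟨L, inferInstance, inferInstance, inferInstance, h1, k, h2, h3⟩

/-- Galois extensions of degree `p` are Kummer extensions. -/
lemma exists_kum_of_isGalois {ζ : K} (hζ : IsPrimitiveRoot ζ p) (L : Type v) [Field L] [Algebra K L]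
    [IsGalois K L] (hfin : Module.finrank K L = p) : ∃ k : Kum p K L, k.ζ = ζ := by
  haveI : FiniteDimensional K L := Module.finite_of_finrank_pos (by rw [hfin]; exact hp.out.pos)
  have hne : (primitiveRoots (Module.finrank K L) K).Nonempty :=
    ⟨ζ, (mem_primitiveRoots (hfin ▸ hp.out.pos)).2 (hfin ▸ hζ)⟩
  haveI : IsCyclic Gal(L/K) := isCyclic_of_prime_card (p := p)
    (by rw [IsGalois.card_aut_eq_finrank, hfin])
  obtain ⟨α, ⟨a, ha⟩, htop⟩ := exists_root_adjoin_eq_top_of_isCyclic K L hne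
  have hirr := irreducible_X_pow_sub_C_of_root_adjoin_eq_top ha.symm htop
  rw [hfin] at hirr ha
  have hα0 : α ≠ 0 := by
    rintro rfl
    have h1 : IntermediateField.adjoin K {(0 : L)} = ⊥ := by simp
    rw [h1] at htop
    have h2 := IntermediateField.finrank_bot (F := K) (E := L)
    rw [htop, IntermediateField.finrank_top', hfin] at h2
    exact hp.out.one_lt.ne' h2
  have ha0 : a ≠ 0 := by
    rintro rfl
    rw [map_zero] at ha
    exact hα0 (pow_eq_zero_iff hp.out.ne_zero |>.1 ha.symm)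
  have hpow : ∀ c : K, c ^ p ≠ a := pow_ne_of_irreducible_X_pow_sub_C hirr dvd_rfl hp.out.ne_one
  obtain ⟨_, k, hk, _⟩ := Kum.of_finrank hζ (Units.mk0 a ha0) hpow L hfin (Units.mk0 α hα0) ha.symm
  exact ⟨k, hk⟩

end construct

section basic

variable {p : ℕ} [hp : Fact p.Prime] {K : Type u} {L : Type v} [Field K] [Field L] [Algebra K L]
  (k : Kum p K L)

include k

lemma Kum.finite : FiniteDimensional K L :=
  Module.finite_of_finrank_pos (by rw [k.hfin]; exact hp.out.pos)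

lemma Kum.pow_σ_α (i : ℕ) : (k.σ ^ i) (k.α : L) = algebraMap K L k.ζ ^ i * k.α := by
  induction i with
  | zero => simp
  | succ n ih =>
    rw [pow_succ', AlgEquiv.mul_apply, ih, map_mul, map_pow, AlgEquiv.commutes, k.hσ, pow_succ]
    ring

lemma Kum.hζL : IsPrimitiveRoot (algebraMap K L k.ζ) p :=
  k.hζ.map_of_injective (algebraMap K L).injective

lemma Kum.pow_eq_one_iff [IsGalois K L] (i : ℕ) : k.σ ^ i = 1 ↔ p ∣ i := by
  have := k.finite
  constructor
  · intro h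
    have h1 := k.pow_σ_α i
    rw [h, AlgEquiv.one_apply] at h1
    have h2 : algebraMap K L k.ζ ^ i = 1 := by
      have h3 : (k.α : L) ≠ 0 := k.α.ne_zero
      exact (mul_eq_right₀ h3).1 h1.symm
    exact k.hζL.dvd_of_pow_eq_one i h2
  · rintro ⟨m, rfl⟩
    have h1 : k.σ ^ p = 1 := by
      have h2 := pow_card_eq_one' (x := k.σ)
      rwa [IsGalois.card_aut_eq_finrank, k.hfin] at h2
    rw [pow_mul, h1, one_pow]

lemma Kum.σ_pow_p [IsGalois K L] : k.σ ^ p = 1 := (k.pow_eq_one_iff p).2 dvd_rfl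

lemma Kum.orderOf_σ [IsGalois K L] : orderOf k.σ = p := by
  apply orderOf_eq_prime k.σ_pow_p
  intro h
  have := (k.pow_eq_one_iff 1).1 (by rw [pow_one]; exact h)
  exact hp.out.one_lt.ne' (Nat.dvd_one.1 this)

lemma Kum.exists_pow [IsGalois K L] (τ : L ≃ₐ[K] L) : ∃ i < p, k.σ ^ i = τ := by
  classical
  have := k.finite
  have h1 : Nat.card (L ≃ₐ[K] L) = p := by rw [IsGalois.card_aut_eq_finrank, k.hfin]
  have h2 : τ ∈ Subgroup.zpowers k.σ := by
    have h3 : Subgroup.zpowers k.σ = ⊤ := by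
      apply Subgroup.eq_top_of_card_eq
      rw [Nat.card_zpowers, k.orderOf_σ, h1]
    rw [h3]
    exact Subgroup.mem_top τ
  obtain ⟨i, hi, h⟩ := (IsOfFinOrder.mem_zpowers_iff_mem_range_orderOf
    (isOfFinOrder_of_finite k.σ)).1 h2 |> Finset.mem_image.1
  rw [k.orderOf_σ, Finset.mem_range] at hi
  exact ⟨i, hi, h⟩

lemma Kum.prod_eq [IsGalois K L] [Fintype (L ≃ₐ[K] L)] {M : Type*} [CommMonoid M]
    (f : (L ≃ₐ[K] L) → M) : ∏ τ, f τ = ∏ i ∈ Finset.range p, f (k.σ ^ i) := by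
  symm
  refine Finset.prod_bij (fun i _ => k.σ ^ i) (fun _ _ => Finset.mem_univ _) ?_ ?_ (fun _ _ => rfl)
  · intro i hi j hj h
    rw [Finset.mem_range] at hi hj
    have h1 := pow_inj_mod.1 h
    rwa [k.orderOf_σ, Nat.mod_eq_of_lt hi, Nat.mod_eq_of_lt hj] at h1
  · intro τ _
    obtain ⟨i, hi, h⟩ := k.exists_pow τ
    exact ⟨i, Finset.mem_range.2 hi, h⟩

end basic

section shift

variable {p : ℕ} [hp : Fact p.Prime] {K : Type u} {L : Type v} [Field K] [Field L] [Algebra K L]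
  (k : Kum p K L) {q : Nat.Primes}

/-- shift of embeddings -/
noncomputable def Kum.sh (i : ℕ) (ψ : Emb L q) : Emb L q := ψ.comp ((k.σ ^ i : L ≃ₐ[K] L) : L →+* L)

@[simp] lemma Kum.sh_apply (i : ℕ) (ψ : Emb L q) (x : L) : k.sh i ψ x = ψ ((k.σ ^ i) x) := rfl

@[simp] lemma Kum.sh_zero (ψ : Emb L q) : k.sh 0 ψ = ψ := by ext x; simp

lemma Kum.sh_add (i j : ℕ) (ψ : Emb L q) : k.sh (i + j) ψ = k.sh j (k.sh i ψ) := by
  ext x; simp [pow_add, AlgEquiv.mul_apply]

lemma Kum.sh_p [IsGalois K L] (ψ : Emb L q) : k.sh p ψ = ψ := by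
  ext x; rw [k.sh_apply, k.σ_pow_p]; simp

lemma Kum.smul_sh (τ : Gq q) (i : ℕ) (ψ : Emb L q) : τ • k.sh i ψ = k.sh i (τ • ψ) := rfl

lemma Kum.sh_comp (i : ℕ) (ψ : Emb L q) :
    (k.sh i ψ).comp (algebraMap K L) = ψ.comp (algebraMap K L) :=
  comp_comp_algebraMap ψ _

lemma Kum.sh_α (i : ℕ) (ψ : Emb L q) :
    k.sh i ψ (k.α : L) = ψ (algebraMap K L k.ζ) ^ i * ψ (k.α : L) := by
  rw [k.sh_apply, k.pow_σ_α, map_mul, map_pow]

lemma Kum.sh_ζ (i : ℕ) (ψ : Emb L q) :
    k.sh i ψ (algebraMap K L k.ζ) = ψ (algebraMap K L k.ζ) := by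
  rw [k.sh_apply, AlgEquiv.commutes]

lemma Kum.exists_sh [IsGalois K L] {ψ ψ' : Emb L q}
    (h : ψ'.comp (algebraMap K L) = ψ.comp (algebraMap K L)) : ∃ i < p, ψ' = k.sh i ψ := by
  obtain ⟨τ, rfl⟩ := exists_comp_eq h
  obtain ⟨i, hi, rfl⟩ := k.exists_pow τ
  exact ⟨i, hi, rfl⟩

/-- a function invariant under the shift by one is invariant under all shifts -/
lemma Kum.inv_sh {M : Type*} {f : Emb L q → M} (h : ∀ ψ, f (k.sh 1 ψ) = f ψ) (i : ℕ) (ψ : Emb L q) :
    f (k.sh i ψ) = f ψ := by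
  induction i with
  | zero => rw [k.sh_zero]
  | succ n ih => rw [k.sh_add, h, ih]

lemma Kum.inv_fibre [IsGalois K L] {M : Type*} {f : Emb L q → M} (h : ∀ ψ, f (k.sh 1 ψ) = f ψ)
    {ψ ψ' : Emb L q} (hψ : ψ'.comp (algebraMap K L) = ψ.comp (algebraMap K L)) : f ψ' = f ψ := by
  obtain ⟨i, _, rfl⟩ := k.exists_sh hψ
  exact k.inv_sh h i ψ

open Classical in
lemma Kum.prod_fibre [NumberField L] [IsGalois K L] {M : Type*} [CommMonoid M] (f : Emb L q → M) (ψ : Emb L q) :
    ∏ ψ' : Emb L q with ψ'.comp (algebraMap K L) = ψ.comp (algebraMap K L), f ψ' =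
      ∏ i ∈ Finset.range p, f (k.sh i ψ) := by
  haveI := k.finite
  rw [prod_fibre_eq, k.prod_eq]
  rfl

lemma Kum.nmq_eq [NumberField L] [IsGalois K L] (f : Emb L q → (Cq q)ˣ) (ψ : Emb L q) :
    nmq (algebraMap K L) q f (ψ.comp (algebraMap K L)) = ∏ i ∈ Finset.range p, f (k.sh i ψ) := by
  classical
  rw [nmq_apply, k.prod_fibre]

/-- descent for semi-local functions. -/
lemma Kum.descend [IsGalois K L] {M : Type*} {f : Emb L q → M} (h : ∀ ψ, f (k.sh 1 ψ) = f ψ) :
    ∃ g : Emb K q → M, ∀ ψ : Emb L q, g (ψ.comp (algebraMap K L)) = f ψ := by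
  haveI := k.finite
  choose e he using fun (φ : Emb K q) => exists_ext (L := L) φ
  exact ⟨fun φ => f (e φ), fun ψ => k.inv_fibre h (he _)⟩

lemma Kum.descend_Jq [IsGalois K L] {f : Emb L q → (Cq q)ˣ} (hf : f ∈ Jq L q)
    (h : ∀ ψ, f (k.sh 1 ψ) = f ψ) :
    ∃ g ∈ Jq K q, ∀ ψ : Emb L q, g (ψ.comp (algebraMap K L)) = f ψ := by
  haveI := k.finite
  obtain ⟨g, hg⟩ := k.descend h
  refine ⟨g, ?_, hg⟩
  intro τ φ
  obtain ⟨ψ, rfl⟩ := exists_ext (L := L) φ
  rw [← smul_emb_comp, hg, hg]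
  exact hf τ ψ

end shift

end Fermat.Agent.CFT
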