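import Mathlib
import Fermat.Agent.CFT.Kummer

/-!
# Hilbert 90 for semi-local Kummer extensions
-/

set_option autoImplicit false
set_option linter.style.haveILetI false
set_option linter.unusedSectionVars false

open Finset

namespace Fermat.Agent.CFT

universe u v

lemma sum_root_pow {p : ℕ} [hp : Fact p.Prime] {F : Type*} [Field F] {ω : F} (hω : IsPrimitiveRoot ω p)
    {i : ℕ} (hi : i ∈ range p) : ∑ j ∈ range p, ω ^ (i * j) = if i = 0 then (p : F) else 0 := by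
  split_ifs with h
  · simp [h]
  · have h1 : IsPrimitiveRoot (ω ^ i) p :=
      hω.pow_of_coprime i (Nat.coprime_of_lt_prime h (mem_range.1 hi) hp.out).symm
    have h2 := h1.geom_sum_eq_zero hp.out.one_lt
    simpa [pow_mul] using h2

variable {p : ℕ} [hp : Fact p.Prime] {K : Type u} {L : Type v} [Field K] [Field L] [Algebra K L]
  (k : Kum p K L) {q : Nat.Primes} [NumberField K] [NumberField L] [IsGalois K L]

section h90

/-- partial products -/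
noncomputable def pp (y : Emb L q → (Cq q)ˣ) (i : ℕ) (ψ : Emb L q) : Cq q :=
  ∏ j ∈ range i, (y (k.sh j ψ) : Cq q)

lemma pp_succ (y : Emb L q → (Cq q)ˣ) (i : ℕ) (ψ : Emb L q) :
    pp k y (i + 1) ψ = y ψ * pp k y i (k.sh 1 ψ) := by
  unfold pp
  rw [prod_range_succ', k.sh_zero, mul_comm]
  congr 1
  refine prod_congr rfl fun j _ => ?_
  rw [add_comm j 1, k.sh_add]

/-- resolvents -/
noncomputable def Rs (y : Emb L q → (Cq q)ˣ) (j : ℕ) (ψ : Emb L q) : Cq q :=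
  ∑ i ∈ range p, pp k y i ψ * (k.sh i ψ (k.α : L)) ^ j

lemma mul_Rs (y : Emb L q → (Cq q)ˣ) (hy : ∀ ψ, pp k y p ψ = 1) (j : ℕ) (ψ : Emb L q) :
    y ψ * Rs k y j (k.sh 1 ψ) = Rs k y j ψ := by
  unfold Rs
  rw [mul_sum]
  have h1 : ∀ i ∈ range p, (y ψ : Cq q) * (pp k y i (k.sh 1 ψ) * (k.sh i (k.sh 1 ψ) (k.α : L)) ^ j) =
      pp k y (i + 1) ψ * (k.sh (i + 1) ψ (k.α : L)) ^ j := by
    intro i _
    rw [pp_succ, ← k.sh_add, add_comm 1 i, mul_assoc]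
  rw [sum_congr rfl h1]
  have h2 := sum_range_succ' (fun i => pp k y i ψ * (k.sh i ψ (k.α : L)) ^ j) p
  have h3 := sum_range_succ (fun i => pp k y i ψ * (k.sh i ψ (k.α : L)) ^ j) p
  rw [h3] at h2
  have h4 : pp k y p ψ * (k.sh p ψ (k.α : L)) ^ j = pp k y 0 ψ * (k.sh 0 ψ (k.α : L)) ^ j := by
    rw [hy, k.sh_p, k.sh_zero]
    simp [pp]
  rw [h4] at h2
  exact (add_right_cancel h2).symm

lemma exists_Rs_ne_zero (y : Emb L q → (Cq q)ˣ) (ψ : Emb L q) : ∃ j, Rs k y j ψ ≠ 0 := by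
  by_contra hcon
  push Not at hcon
  have hω : IsPrimitiveRoot (ψ (algebraMap K L k.ζ)) p := k.hζL.map_of_injective ψ.injective
  set ω := ψ (algebraMap K L k.ζ) with hωdef
  have h1 : ∀ j, ∑ i ∈ range p, pp k y i ψ * ω ^ (i * j) = 0 := by
    intro j
    have h2 := hcon j
    unfold Rs at h2
    have h3 : ∀ i ∈ range p, pp k y i ψ * (k.sh i ψ (k.α : L)) ^ j =
        (pp k y i ψ * ω ^ (i * j)) * (ψ (k.α : L)) ^ j := by
      intro i _
      rw [k.sh_α, mul_pow, ← pow_mul]; ring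
    rw [sum_congr rfl h3, ← sum_mul] at h2
    have h4 : (ψ (k.α : L)) ^ j ≠ 0 := pow_ne_zero _ ((map_ne_zero ψ).2 k.α.ne_zero)
    exact (mul_eq_zero.1 h2).resolve_right h4
  have h5 : ∑ j ∈ range p, ∑ i ∈ range p, pp k y i ψ * ω ^ (i * j) = 0 :=
    sum_eq_zero fun j _ => h1 j
  rw [sum_comm] at h5
  have h6 : ∀ i ∈ range p, ∑ j ∈ range p, pp k y i ψ * ω ^ (i * j) =
      if i = 0 then (p : Cq q) * pp k y i ψ else 0 := by
    intro i hi
    rw [← mul_sum, sum_root_pow hω hi]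
    split_ifs <;> ring
  rw [sum_congr rfl h6, sum_ite_eq' (range p) 0 (fun i => (p : Cq q) * pp k y i ψ)] at h5
  rw [if_pos (mem_range.2 hp.out.pos)] at h5
  simp only [pp, range_zero, prod_empty, mul_one] at h5
  exact Nat.cast_ne_zero.2 hp.out.ne_zero h5

/-- semi-local Hilbert 90 -/
theorem exists_h90 {y : Emb L q → (Cq q)ˣ} (hy : y ∈ Jq L q)
    (hN : ∀ ψ, ∏ i ∈ range p, y (k.sh i ψ) = 1) :
    ∃ z ∈ Jq L q, ∀ ψ, y ψ * z ψ = z (k.sh 1 ψ) := by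
  classical
  have hy1 : ∀ ψ, pp k y p ψ = 1 := by
    intro ψ
    have := congrArg (fun u : (Cq q)ˣ => (u : Cq q)) (hN ψ)
    simpa [pp] using this
  have hpp : ∀ (τ : Gq q) i ψ, pp k y i (τ • ψ) = τ (pp k y i ψ) := by
    intro τ i ψ
    unfold pp
    rw [map_prod]
    refine prod_congr rfl fun j _ => ?_
    rw [← k.smul_sh]; exact hy τ _
  have hR : ∀ (τ : Gq q) j ψ, Rs k y j (τ • ψ) = τ (Rs k y j ψ) := by
    intro τ j ψ
    unfold Rs
    rw [map_sum]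
    refine sum_congr rfl fun i _ => ?_
    rw [map_mul, map_pow, hpp, ← k.smul_sh]; rfl
  let J : Emb L q → ℕ := fun ψ => Nat.find (exists_Rs_ne_zero k y ψ)
  have hJ : ∀ ψ, Rs k y (J ψ) ψ ≠ 0 := fun ψ => Nat.find_spec (exists_Rs_ne_zero k y ψ)
  have hJ1 : ∀ (τ : Gq q) ψ, J (τ • ψ) = J ψ := by
    intro τ ψ
    apply Nat.find_congr'
    intro j
    rw [hR]
    simp
  have hJ2 : ∀ ψ, J (k.sh 1 ψ) = J ψ := by
    intro ψ
    apply Nat.find_congr'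
    intro j
    rw [← mul_Rs k y hy1 j ψ]
    simp
  refine ⟨fun ψ => (Units.mk0 _ (hJ ψ))⁻¹, ?_, ?_⟩
  · intro τ ψ
    simp only [Units.val_inv_eq_inv_val, Units.val_mk0, map_inv₀]
    rw [hJ1, hR]
  · intro ψ
    apply Units.ext
    simp only [Units.val_mul, Units.val_inv_eq_inv_val, Units.val_mk0]
    rw [hJ2, ← mul_Rs k y hy1 (J ψ) ψ]
    have h1 := hJ (k.sh 1 ψ)
    rw [hJ2] at h1
    have h2 : (y ψ : Cq q) ≠ 0 := (y ψ).ne_zero
    field_simp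

end h90

section value

/-- coefficients with respect to powers of `α`. -/
noncomputable def cf (z : Emb L q → (Cq q)ˣ) (i : ℕ) (ψ : Emb L q) : Cq q :=
  (p : Cq q)⁻¹ * ∑ j ∈ range p, (ψ (algebraMap K L k.ζ) ^ (i * j))⁻¹ * z (k.sh j ψ) / (ψ (k.α : L)) ^ i

lemma cf_sum (z : Emb L q → (Cq q)ˣ) (ψ : Emb L q) :
    ∑ i ∈ range p, cf k z i ψ * (ψ (k.α : L)) ^ i = z ψ := by
  have hω : IsPrimitiveRoot (ψ (algebraMap K L k.ζ)) p := k.hζL.map_of_injective ψ.injective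
  set ω := ψ (algebraMap K L k.ζ) with hωdef
  have hp0 : (p : Cq q) ≠ 0 := Nat.cast_ne_zero.2 hp.out.ne_zero
  have hα0 : ψ (k.α : L) ≠ 0 := (map_ne_zero ψ).2 k.α.ne_zero
  have h1 : ∀ i ∈ range p, cf k z i ψ * (ψ (k.α : L)) ^ i =
      ∑ j ∈ range p, (p : Cq q)⁻¹ * (z (k.sh j ψ) : Cq q) * ω⁻¹ ^ (j * i) := by
    intro i _
    unfold cf
    rw [mul_sum, sum_mul]
    refine sum_congr rfl fun j _ => ?_
    rw [inv_pow, ← hωdef, mul_comm j i]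
    field_simp
  rw [sum_congr rfl h1, sum_comm]
  have h2 : ∀ j ∈ range p, ∑ i ∈ range p, (p : Cq q)⁻¹ * (z (k.sh j ψ) : Cq q) * ω⁻¹ ^ (j * i) =
      if j = 0 then (z (k.sh j ψ) : Cq q) else 0 := by
    intro j hj
    rw [← mul_sum, sum_root_pow hω.inv hj]
    split_ifs
    · field_simp
    · ring
  rw [sum_congr rfl h2, sum_ite_eq' (range p) 0 (fun j => (z (k.sh j ψ) : Cq q)),
    if_pos (mem_range.2 hp.out.pos), k.sh_zero]

lemma cf_sh (z : Emb L q → (Cq q)ˣ) (i : ℕ) (ψ : Emb L q) : cf k z i (k.sh 1 ψ) = cf k z i ψ := by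
  have hω : IsPrimitiveRoot (ψ (algebraMap K L k.ζ)) p := k.hζL.map_of_injective ψ.injective
  unfold cf
  rw [k.sh_ζ, k.sh_α, pow_one]
  set ω := ψ (algebraMap K L k.ζ) with hωdef
  have hω0 : ω ≠ 0 := hω.ne_zero hp.out.ne_zero
  have hα0 : ψ (k.α : L) ≠ 0 := (map_ne_zero ψ).2 k.α.ne_zero
  congr 1
  have h1 : ∀ j ∈ range p, (ω ^ (i * j))⁻¹ * (z (k.sh j (k.sh 1 ψ)) : Cq q) / (ω * ψ (k.α : L)) ^ i =
      (ω ^ (i * (j + 1)))⁻¹ * (z (k.sh (j + 1) ψ) : Cq q) / (ψ (k.α : L)) ^ i := by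
    intro j _
    rw [← k.sh_add, add_comm 1 j, mul_pow, mul_add, pow_add, mul_one]
    field_simp
  rw [sum_congr rfl h1]
  have h2 := sum_range_succ' (fun j => (ω ^ (i * j))⁻¹ * (z (k.sh j ψ) : Cq q) / (ψ (k.α : L)) ^ i) p
  have h3 := sum_range_succ (fun j => (ω ^ (i * j))⁻¹ * (z (k.sh j ψ) : Cq q) / (ψ (k.α : L)) ^ i) p
  rw [h3] at h2
  have h4 : (ω ^ (i * p))⁻¹ * (z (k.sh p ψ) : Cq q) / (ψ (k.α : L)) ^ i =
      (ω ^ (i * 0))⁻¹ * (z (k.sh 0 ψ) : Cq q) / (ψ (k.α : L)) ^ i := by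
    rw [k.sh_p, k.sh_zero, mul_comm i p, pow_mul, hω.pow_eq_one]; simp
  rw [h4] at h2
  exact (add_right_cancel h2).symm

lemma norm_p_eq_one {q : Nat.Primes} (hq : (q : ℕ) ≠ p) : ‖(p : Cq q)‖ = 1 := by
  have h1 := PadicAlgCl.norm_extends (q : ℕ) (p : ℚ_[(q : ℕ)])
  have h2 : ‖(p : ℚ_[(q : ℕ)])‖ = 1 := by
    have h3 : ‖((p : ℤ) : ℚ_[(q : ℕ)])‖ = 1 := by
      refine le_antisymm (Padic.norm_int_le_one _) (not_lt.1 fun h => ?_)
      have h4 : (q : ℕ) ∣ p := by exact_mod_cast Padic.norm_intCast_lt_one_iff.1 h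
      exact hq ((Nat.prime_dvd_prime_iff_eq q.2 hp.out).1 h4)
    simpa using h3
  rw [h2] at h1
  simpa using h1

lemma norm_root_of_unity {ω : Cq q} (hω : IsPrimitiveRoot ω p) : ‖ω‖ = 1 := by
  have h2 : ‖ω‖ ^ p = 1 := by rw [← norm_pow, hω.pow_eq_one, norm_one]
  exact (pow_eq_one_iff_of_nonneg (norm_nonneg _) hp.out.ne_zero).1 h2

/-- the value group does not change in an unramified Kummer extension: a function with Galois invariant
norm has the norm of a function from the base. -/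
theorem exists_norm_descend (hq : (q : ℕ) ≠ p) (hα : ∀ ψ : Emb L q, ‖ψ (k.α : L)‖ = 1)
    {z : Emb L q → (Cq q)ˣ} (hz : z ∈ Jq L q) (hz1 : ∀ ψ, ‖(z (k.sh 1 ψ) : Cq q)‖ = ‖(z ψ : Cq q)‖) :
    ∃ e ∈ Jq K q, ∀ ψ : Emb L q, ‖(e (ψ.comp (algebraMap K L)) : Cq q)‖ = ‖(z ψ : Cq q)‖ := by
  classical
  have hp1 : ‖(p : Cq q)‖ = 1 := norm_p_eq_one hq
  have hcf_le : ∀ i ψ, ‖cf k z i ψ‖ ≤ ‖(z ψ : Cq q)‖ := by
    intro i ψ
    have hω : IsPrimitiveRoot (ψ (algebraMap K L k.ζ)) p := k.hζL.map_of_injective ψ.injective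
    unfold cf
    rw [norm_mul, norm_inv, hp1, inv_one, one_mul]
    refine IsUltrametricDist.norm_sum_le_of_forall_le_of_nonneg (norm_nonneg _) ?_
    intro j _
    rw [norm_div, norm_mul, norm_inv, norm_pow, norm_pow, norm_root_of_unity hω, hα ψ, one_pow, one_pow,
      inv_one, one_mul, div_one]
    exact (k.inv_sh (f := fun ψ => ‖(z ψ : Cq q)‖) hz1 j ψ).le
  have hex : ∀ ψ, ∃ i, ‖cf k z i ψ‖ = ‖(z ψ : Cq q)‖ := by
    intro ψ
    have hne : (range p).Nonempty := nonempty_range_iff.2 hp.out.ne_zero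
    obtain ⟨i, _, hi⟩ := IsUltrametricDist.exists_norm_finsetSum_le_of_nonempty hne
      (fun i => cf k z i ψ * (ψ (k.α : L)) ^ i)
    rw [cf_sum, norm_mul, norm_pow, hα ψ, one_pow, mul_one] at hi
    exact ⟨i, le_antisymm (hcf_le i ψ) hi⟩
  have hcfτ : ∀ (τ : Gq q) i ψ, cf k z i (τ • ψ) = τ (cf k z i ψ) := by
    intro τ i ψ
    unfold cf
    rw [map_mul, map_inv₀, map_natCast, map_sum]
    congr 1
    refine sum_congr rfl fun j _ => ?_
    rw [map_div₀, map_mul, map_inv₀, map_pow, map_pow, ← k.smul_sh, hz τ]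
    rfl
  let I : Emb L q → ℕ := fun ψ => Nat.find (hex ψ)
  have hI : ∀ ψ, ‖cf k z (I ψ) ψ‖ = ‖(z ψ : Cq q)‖ := fun ψ => Nat.find_spec (hex ψ)
  have hI1 : ∀ (τ : Gq q) ψ, I (τ • ψ) = I ψ := by
    intro τ ψ
    apply Nat.find_congr'
    intro j
    rw [hcfτ, norm_gq, hz τ, norm_gq]
  have hI2 : ∀ ψ, I (k.sh 1 ψ) = I ψ := by
    intro ψ
    apply Nat.find_congr'
    intro j
    rw [cf_sh, hz1]
  have hI0 : ∀ ψ, cf k z (I ψ) ψ ≠ 0 := by
    intro ψ h0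
    have := hI ψ
    rw [h0, norm_zero] at this
    exact (z ψ).ne_zero (norm_eq_zero.1 this.symm)
  obtain ⟨e, he1, he2⟩ := k.descend_Jq (f := fun ψ => Units.mk0 _ (hI0 ψ)) (by
    intro τ ψ
    simp only [Units.val_mk0]
    rw [hI1, hcfτ]) (by
    intro ψ
    apply Units.ext
    simp only [Units.val_mk0]
    rw [hI2, cf_sh])
  refine ⟨e, he1, fun ψ => ?_⟩
  rw [he2, Units.val_mk0]
  exact hI ψ

/-- Hilbert 90 for semi-local units in the unramified case. -/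
theorem exists_h90_unit (hq : (q : ℕ) ≠ p) (hα : ∀ ψ : Emb L q, ‖ψ (k.α : L)‖ = 1)
    {y : Emb L q → (Cq q)ˣ} (hy : y ∈ Uq L q) (hN : ∀ ψ, ∏ i ∈ range p, y (k.sh i ψ) = 1) :
    ∃ z ∈ Uq L q, ∀ ψ, y ψ * z ψ = z (k.sh 1 ψ) := by
  obtain ⟨z, hz1, hz2⟩ := exists_h90 k hy.1 hN
  have hz3 : ∀ ψ, ‖(z (k.sh 1 ψ) : Cq q)‖ = ‖(z ψ : Cq q)‖ := by
    intro ψ
    rw [← hz2 ψ, Units.val_mul, norm_mul, hy.2, one_mul]
  obtain ⟨e, he1, he2⟩ := exists_norm_descend k hq hα hz1 hz3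
  refine ⟨fun ψ => z ψ / e (ψ.comp (algebraMap K L)), ⟨?_, ?_⟩, ?_⟩
  · intro τ ψ
    simp only [Units.val_div_eq_div_val, map_div₀]
    rw [hz1, smul_emb_comp, he1]
  · intro ψ
    rw [Units.val_div_eq_div_val, norm_div, he2, div_self]
    exact (norm_pos_iff.2 (z ψ).ne_zero).ne'
  · intro ψ
    simp only []
    rw [k.sh_comp, ← hz2 ψ, mul_div_assoc]

end value

end Fermat.Agent.CFT
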