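import Mathlib
import Fermat.Agent.CFT.KumH90

/-!
# Hilbert 90 for Kummer extensions (global)
-/

set_option autoImplicit false
set_option linter.style.haveILetI false
set_option linter.unusedSectionVars false

open Finset

namespace Fermat.Agent.CFT

universe u v

variable {p : ℕ} [hp : Fact p.Prime] {K : Type u} {L : Type v} [Field K] [Field L] [Algebra K L]
  (k : Kum p K L) [CharZero L] [IsGalois K L]

/-- partial products -/
noncomputable def gpp (y : L) (i : ℕ) : L := ∏ j ∈ range i, (k.σ ^ j) y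

lemma gpp_succ (y : L) (i : ℕ) : gpp k y (i + 1) = y * k.σ (gpp k y i) := by
  unfold gpp
  rw [prod_range_succ', pow_zero, mul_comm, map_prod]
  congr 1
  refine prod_congr rfl fun j _ => ?_
  rw [pow_succ', AlgEquiv.mul_apply]

/-- global resolvents -/
noncomputable def gRs (y : L) (j : ℕ) : L :=
  ∑ i ∈ range p, gpp k y i * ((k.σ ^ i) (k.α : L)) ^ j

lemma mul_gRs {y : L} (hy : gpp k y p = 1) (j : ℕ) : y * k.σ (gRs k y j) = gRs k y j := by
  unfold gRs
  rw [map_sum, mul_sum]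
  have h1 : ∀ i ∈ range p, y * k.σ (gpp k y i * ((k.σ ^ i) (k.α : L)) ^ j) =
      gpp k y (i + 1) * ((k.σ ^ (i + 1)) (k.α : L)) ^ j := by
    intro i _
    rw [gpp_succ, map_mul, map_pow, pow_succ' k.σ i, AlgEquiv.mul_apply, mul_assoc]
  rw [sum_congr rfl h1]
  have h2 := sum_range_succ' (fun i => gpp k y i * ((k.σ ^ i) (k.α : L)) ^ j) p
  have h3 := sum_range_succ (fun i => gpp k y i * ((k.σ ^ i) (k.α : L)) ^ j) p
  rw [h3] at h2
  have h4 : gpp k y p * ((k.σ ^ p) (k.α : L)) ^ j = gpp k y 0 * ((k.σ ^ 0) (k.α : L)) ^ j := by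
    rw [hy, k.σ_pow_p, pow_zero]
    simp [gpp]
  rw [h4] at h2
  exact (add_right_cancel h2).symm

lemma exists_gRs_ne_zero (y : L) : ∃ j, gRs k y j ≠ 0 := by
  by_contra hcon
  push Not at hcon
  have hω : IsPrimitiveRoot (algebraMap K L k.ζ) p := k.hζL
  set ω := algebraMap K L k.ζ with hωdef
  have h1 : ∀ j, ∑ i ∈ range p, gpp k y i * ω ^ (i * j) = 0 := by
    intro j
    have h2 := hcon j
    unfold gRs at h2
    have h3 : ∀ i ∈ range p, gpp k y i * ((k.σ ^ i) (k.α : L)) ^ j =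
        (gpp k y i * ω ^ (i * j)) * (k.α : L) ^ j := by
      intro i _
      rw [k.pow_σ_α, mul_pow, ← pow_mul]; ring
    rw [sum_congr rfl h3, ← sum_mul] at h2
    exact (mul_eq_zero.1 h2).resolve_right (pow_ne_zero _ k.α.ne_zero)
  have h5 : ∑ j ∈ range p, ∑ i ∈ range p, gpp k y i * ω ^ (i * j) = 0 :=
    sum_eq_zero fun j _ => h1 j
  rw [sum_comm] at h5
  have h6 : ∀ i ∈ range p, ∑ j ∈ range p, gpp k y i * ω ^ (i * j) =
      if i = 0 then (p : L) * gpp k y i else 0 := by
    intro i hi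
    rw [← mul_sum, sum_root_pow hω hi]
    split_ifs <;> ring
  rw [sum_congr rfl h6, sum_ite_eq' (range p) 0 (fun i => (p : L) * gpp k y i)] at h5
  rw [if_pos (mem_range.2 hp.out.pos)] at h5
  simp only [gpp, range_zero, prod_empty, mul_one] at h5
  exact Nat.cast_ne_zero.2 hp.out.ne_zero h5

/-- Hilbert 90 -/
theorem Kum.exists_h90 {y : Lˣ} (hN : ∏ i ∈ range p, (k.σ ^ i) (y : L) = 1) :
    ∃ z : Lˣ, y * Units.map (k.σ : L →* L) z = z := by
  obtain ⟨j, hj⟩ := exists_gRs_ne_zero k (y : L)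
  refine ⟨Units.mk0 _ hj, Units.ext ?_⟩
  exact mul_gRs k (y := (y : L)) hN j

lemma Kum.norm_eq (y : L) : algebraMap K L (Algebra.norm K y) = ∏ i ∈ range p, (k.σ ^ i) y := by
  haveI := k.finite
  rw [Algebra.norm_eq_prod_automorphisms, k.prod_eq]

/-- fixed elements are in the base. -/
lemma Kum.exists_algebraMap_eq {y : L} (hy : k.σ y = y) : ∃ x : K, algebraMap K L x = y := by
  haveI := k.finite
  have h1 : ∀ τ : L ≃ₐ[K] L, τ y = y := by
    intro τ
    obtain ⟨i, _, rfl⟩ := k.exists_pow τ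
    clear * - hy
    induction i with
    | zero => simp
    | succ n ih => rw [pow_succ, AlgEquiv.mul_apply, hy, ih]
  have h2 : y ∈ (⊥ : IntermediateField K L) := by
    rw [← IsGalois.fixedField_top, IntermediateField.mem_fixedField_iff]
    intro τ _
    exact h1 τ
  exact IntermediateField.mem_bot.1 h2

end Fermat.Agent.CFT
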