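import Mathlib
import Fermat.Agent.CFT.KumH90
import Fermat.Agent.CFT6.SUnits

/-!
# Local norms in Kummer extensions
-/

set_option autoImplicit false
set_option linter.style.haveILetI false
set_option linter.unusedSectionVars false

open Finset NumberField IsDedekindDomain

namespace Fermat.Agent.CFT

universe u v

/-- `u` is fixed by the stabiliser of `φ`, i.e. `u` lies in the closure of `φ(K)`. -/
def Fx {K : Type*} [Field K] {q : Nat.Primes} (φ : Emb K q) (u : (Cq q)ˣ) : Prop :=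
  ∀ τ : Gq q, τ • φ = φ → τ (u : Cq q) = u

section Fx

variable {K : Type*} [Field K] {q : Nat.Primes} {φ : Emb K q}

lemma Fx.mul {u w : (Cq q)ˣ} (hu : Fx φ u) (hw : Fx φ w) : Fx φ (u * w) := by
  intro τ hτ
  rw [Units.val_mul, map_mul, hu τ hτ, hw τ hτ]

lemma Fx.inv {u : (Cq q)ˣ} (hu : Fx φ u) : Fx φ u⁻¹ := by
  intro τ hτ
  rw [Units.val_inv_eq_inv_val, map_inv₀, hu τ hτ]

lemma Fx.div {u w : (Cq q)ˣ} (hu : Fx φ u) (hw : Fx φ w) : Fx φ (u / w) := by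
  rw [div_eq_mul_inv]; exact hu.mul hw.inv

lemma Fx.pow {u : (Cq q)ˣ} (hu : Fx φ u) (n : ℕ) : Fx φ (u ^ n) := by
  intro τ hτ
  rw [Units.val_pow_eq_pow_val, map_pow, hu τ hτ]

lemma Fx_emb (x : Kˣ) : Fx φ (Units.map (φ : K →* Cq q) x) := by
  intro τ hτ
  exact congrFun (congrArg DFunLike.coe hτ) (x : K)

lemma Fx_of_mem {f : Emb K q → (Cq q)ˣ} (hf : f ∈ Jq K q) (φ : Emb K q) : Fx φ (f φ) := by
  intro τ hτ
  rw [← hf τ φ, hτ]

end Fx

section close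

variable {p : ℕ} [hp : Fact p.Prime] {q : Nat.Primes}

/-- principal units are `p`-th powers for `q ≠ p`. -/
lemma exists_pow_of_close_Fx {K : Type*} [Field K] (hq : (q : ℕ) ≠ p) {φ : Emb K q} {z : (Cq q)ˣ}
    (hz : Fx φ z) (h : ‖1 - (z : Cq q)‖ < 1) :
    ∃ w : (Cq q)ˣ, Fx φ w ∧ ‖(w : Cq q)‖ = 1 ∧ w ^ p = z := by
  have hp1 : ‖(p : Cq q)‖ = 1 := norm_p_eq_one hq
  obtain ⟨w, hw1, hw2⟩ := exists_close_root (q := q) p (z := z) (by rw [hp1, one_pow]; exact h)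
  have hw0 : w ≠ 0 := by
    rintro rfl
    rw [zero_pow hp.out.ne_zero] at hw1
    exact z.ne_zero hw1.symm
  have hlt : ‖1 - w‖ < 1 := by
    by_contra h1
    push Not at h1
    exact absurd (lt_of_le_of_lt (one_le_pow₀ h1) hw2) (by rw [hp1]; exact lt_irrefl _)
  refine ⟨Units.mk0 w hw0, ?_, norm_eq_one_of_close hlt, ?_⟩
  · intro τ hτ
    show τ w = w
    apply close_root_unique p
    · rw [← map_pow, hw1]; exact hz τ hτ
    · have : 1 - τ w = τ (1 - w) := by simp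
      rw [this, norm_gq]
      exact hw2
    · exact hw2
  · apply Units.ext; simp [hw1]

end close

section residue

variable {K : Type*} [Field K] [NumberField K] {q : Nat.Primes}

lemma exists_int_close {φ : Emb K q} {u : (Cq q)ˣ} (hu : Fx φ u) (h1 : ‖(u : Cq q)‖ ≤ 1) :
    ∃ x : 𝓞 K, ‖(u : Cq q) - φ x‖ < 1 := by
  obtain ⟨x, hx⟩ := CFT6.exists_norm_sub_lt (q := (q : ℕ)) φ (y := (u : Cq q))
    (fun τ hτ => hu τ (RingHom.ext hτ)) one_pos
  have hx1 : ‖φ x‖ ≤ 1 := by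
    have h2 : φ x = (u : Cq q) + -((u : Cq q) - φ x) := by ring
    rw [h2]
    refine le_trans (IsUltrametricDist.norm_add_le_max _ _) (max_le h1 ?_)
    rw [norm_neg]; exact hx.le
  have hv : (CFT6.place φ).valuation K x ≤ 1 := by
    by_contra hlt
    push Not at hlt
    have h3 : (CFT6.place φ).valuation K x⁻¹ < 1 := by
      rw [map_inv₀]; exact inv_lt_one_of_one_lt₀ hlt
    have h4 := CFT6.valuation_lt_one_norm h3
    rw [map_inv₀, norm_inv] at h4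
    have hx0 : x ≠ 0 := by rintro rfl; simp at hlt
    have h5 : 0 < ‖φ x‖ := norm_pos_iff.2 ((map_ne_zero φ).2 hx0)
    rw [inv_lt_one₀ h5] at h4
    exact absurd hx1 (not_le.2 h4)
  obtain ⟨n, d, hnd⟩ := (CFT6.place φ).exists_primeCompl_mul_eq_of_integer x hv
  have hd : ‖φ (d : 𝓞 K)‖ = 1 := CFT6.notMem_primeIdeal.1 d.2
  -- inverse of `d` modulo the prime
  have hmax : (CFT6.place φ).asIdeal.IsMaximal := (CFT6.place φ).isMaximal
  obtain ⟨e, i, hi, hei⟩ := hmax.exists_inv d.2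
  have hi' : ‖φ (i : 𝓞 K)‖ < 1 := CFT6.mem_primeIdeal.1 hi
  refine ⟨n * e, ?_⟩
  have h6 : φ x = φ ((n : 𝓞 K) : K) / φ ((d : 𝓞 K) : K) := by
    have h7 : φ ((d : 𝓞 K) : K) ≠ 0 := by
      intro h0; rw [h0, norm_zero] at hd; exact zero_ne_one hd
    rw [eq_div_iff h7, ← map_mul]
    exact congrArg φ hnd
  have h8 : (u : Cq q) - φ ((n * e : 𝓞 K) : K) =
      ((u : Cq q) - φ x) + φ x * (1 - φ ((e : 𝓞 K) : K) * φ ((d : 𝓞 K) : K)) := by
    have h7 : φ ((d : 𝓞 K) : K) ≠ 0 := by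
      intro h0; rw [h0, norm_zero] at hd; exact zero_ne_one hd
    rw [h6]
    push_cast
    rw [map_mul]
    field_simp
    ring
  have h9 : (1 : Cq q) - φ ((e : 𝓞 K) : K) * φ ((d : 𝓞 K) : K) = φ ((i : 𝓞 K) : K) := by
    have := congrArg (fun z : 𝓞 K => φ (z : K)) hei
    push_cast at this
    rw [map_add, map_mul, map_one] at this
    rw [← this]; ring
  rw [h8, h9]
  refine lt_of_le_of_lt (IsUltrametricDist.norm_add_le_max _ _) (max_lt hx ?_)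
  rw [norm_mul]
  exact mul_lt_one_of_nonneg_of_lt_one_right hx1 (norm_nonneg _) hi'

omit [NumberField K] in
lemma norm_pow_sub_pow_lt {b c : Cq q} (hb : ‖b‖ ≤ 1) (hc : ‖c‖ ≤ 1) (h : ‖b - c‖ < 1) (i : ℕ) :
    ‖b ^ i - c ^ i‖ < 1 := by
  induction i with
  | zero => simp
  | succ n ih =>
    have h1 : b ^ (n + 1) - c ^ (n + 1) = b ^ n * (b - c) + (b ^ n - c ^ n) * c := by ring
    rw [h1]
    refine lt_of_le_of_lt (IsUltrametricDist.norm_add_le_max _ _) (max_lt ?_ ?_)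
    · rw [norm_mul, norm_pow]
      exact mul_lt_one_of_nonneg_of_lt_one_right (pow_le_one₀ (norm_nonneg _) hb) (norm_nonneg _) h
    · rw [norm_mul]
      exact mul_lt_one_of_nonneg_of_lt_one_left (norm_nonneg _) ih hc

/-- in a finite cyclic group, a non-`p`-th power generates modulo `p`-th powers. -/
lemma exists_pow_mul_of_isCyclic {G : Type*} [CommGroup G] [IsCyclic G] {p : ℕ} [hp : Fact p.Prime]
    {b : G} (hb : ∀ c : G, c ^ p ≠ b) (u : G) : ∃ (i : ℕ) (w : G), u = b ^ i * w ^ p := by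
  obtain ⟨g, hg⟩ := IsCyclic.exists_generator (α := G)
  obtain ⟨m, rfl⟩ := Subgroup.mem_zpowers_iff.1 (hg b)
  obtain ⟨n, rfl⟩ := Subgroup.mem_zpowers_iff.1 (hg u)
  have hpm : ¬ (p : ℤ) ∣ m := by
    rintro ⟨c, rfl⟩
    exact hb (g ^ c) (by rw [← zpow_natCast, ← zpow_mul, mul_comm])
  have hcop : IsCoprime (p : ℤ) m := (Nat.prime_iff_prime_int.1 hp.out).coprime_iff_not_dvd.2 hpm
  obtain ⟨s, t, hst⟩ := hcop
  -- `i = n * t mod p`
  have hp0 : (p : ℤ) ≠ 0 := by exact_mod_cast hp.out.ne_zero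
  have hnn : 0 ≤ (n * t) % p := Int.emod_nonneg _ hp0
  obtain ⟨i, hi⟩ := Int.eq_ofNat_of_zero_le hnn
  have hdiv : (p : ℤ) ∣ n - m * i := by
    have h1 : (p : ℤ) ∣ n * t - i := by
      rw [← hi]; exact Int.dvd_self_sub_emod
    have h2 : n - m * i = p * (n * s) + m * (n * t - i) := by
      linear_combination (-n) * hst
    rw [h2]
    exact dvd_add (dvd_mul_right _ _) (Dvd.dvd.mul_left h1 _)
  obtain ⟨c, hc⟩ := hdiv
  refine ⟨i, g ^ c, ?_⟩
  rw [← zpow_natCast, ← zpow_natCast, ← zpow_mul, ← zpow_mul, ← zpow_add]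
  congr 1
  linear_combination hc

/-- the group of local units modulo `p`-th powers is cyclic for `q ≠ p`. -/
theorem exists_pow_mul_of_unit {p : ℕ} [hp : Fact p.Prime] (hq : (q : ℕ) ≠ p) {φ : Emb K q} {b u : (Cq q)ˣ}
    (hb : Fx φ b) (hu : Fx φ u) (hb1 : ‖(b : Cq q)‖ = 1) (hu1 : ‖(u : Cq q)‖ = 1) :
    (∃ w : (Cq q)ˣ, Fx φ w ∧ ‖(w : Cq q)‖ = 1 ∧ w ^ p = b) ∨
      ∃ (i : ℕ) (w : (Cq q)ˣ), Fx φ w ∧ ‖(w : Cq q)‖ = 1 ∧ u = b ^ i * w ^ p := by
  classical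
  obtain ⟨x, hx⟩ := exists_int_close hu hu1.le
  obtain ⟨y, hy⟩ := exists_int_close hb hb1.le
  set P := (CFT6.place φ).asIdeal with hP
  have hmax : P.IsMaximal := (CFT6.place φ).isMaximal
  letI : Field (𝓞 K ⧸ P) := Ideal.Quotient.field P
  haveI : Finite (𝓞 K ⧸ P) := Ideal.finiteQuotientOfFreeOfNeBot P (CFT6.place φ).ne_bot
  -- norm of lifts
  have hmem : ∀ z : 𝓞 K, Ideal.Quotient.mk P z = 0 ↔ ‖φ z‖ < 1 := by
    intro z
    rw [Ideal.Quotient.eq_zero_iff_mem]; exact CFT6.mem_primeIdeal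
  have hnorm : ∀ z : 𝓞 K, Ideal.Quotient.mk P z ≠ 0 ↔ ‖φ z‖ = 1 := by
    intro z
    rw [Ne, Ideal.Quotient.eq_zero_iff_mem]; exact CFT6.notMem_primeIdeal
  have hx1 : ‖φ x‖ = 1 := by
    have h1 : φ x = (u : Cq q) + -((u : Cq q) - φ x) := by ring
    have h2 : ‖-((u : Cq q) - φ x)‖ < 1 := by rw [norm_neg]; exact hx
    rw [h1, IsUltrametricDist.norm_add_eq_max_of_norm_ne_norm (by rw [hu1]; exact h2.ne'), hu1,
      max_eq_left h2.le]
  have hy1 : ‖φ y‖ = 1 := by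
    have h1 : φ y = (b : Cq q) + -((b : Cq q) - φ y) := by ring
    have h2 : ‖-((b : Cq q) - φ y)‖ < 1 := by rw [norm_neg]; exact hy
    rw [h1, IsUltrametricDist.norm_add_eq_max_of_norm_ne_norm (by rw [hb1]; exact h2.ne'), hb1,
      max_eq_left h2.le]
  -- residue classes
  let X : (𝓞 K ⧸ P)ˣ := Units.mk0 (Ideal.Quotient.mk P x) ((hnorm x).2 hx1)
  let Y : (𝓞 K ⧸ P)ˣ := Units.mk0 (Ideal.Quotient.mk P y) ((hnorm y).2 hy1)
  -- key: lifting an equation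
  have key : ∀ (v : (Cq q)ˣ) (z : 𝓞 K), Fx φ v → ‖(v : Cq q)‖ = 1 → ‖(v : Cq q) - φ z‖ < 1 →
      ∀ (W : (𝓞 K ⧸ P)ˣ) (c : (Cq q)ˣ) (s : 𝓞 K), Fx φ c → ‖(c : Cq q)‖ = 1 → ‖(c : Cq q) - φ s‖ < 1 →
      Ideal.Quotient.mk P z = Ideal.Quotient.mk P s * (W : 𝓞 K ⧸ P) ^ p →
      ∃ w : (Cq q)ˣ, Fx φ w ∧ ‖(w : Cq q)‖ = 1 ∧ v = c * w ^ p := by
    intro v z hv hv1 hvz W c s hc hc1 hcs hW
    obtain ⟨w₀, hw₀⟩ := Ideal.Quotient.mk_surjective (W : 𝓞 K ⧸ P)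
    have hw1 : ‖φ w₀‖ = 1 := by rw [← hnorm, hw₀]; exact W.ne_zero
    have hw00 : φ w₀ ≠ 0 := by intro h0; rw [h0, norm_zero] at hw1; exact zero_ne_one hw1
    have hw0' : (w₀ : K) ≠ 0 := by intro h0; rw [h0, map_zero] at hw00; exact hw00 rfl
    let w₁ : (Cq q)ˣ := Units.map (φ : K →* Cq q) (Units.mk0 (w₀ : K) hw0')
    have hw₁ : Fx φ w₁ := Fx_emb _
    have hw₁c : (w₁ : Cq q) = φ w₀ := rfl
    -- `v / (c w₁^p)` is close to one
    have h1 : ‖φ ((z - s * w₀ ^ p : 𝓞 K) : K)‖ < 1 := by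
      rw [← hmem, map_sub, map_mul, map_pow, hw₀, hW, sub_self]
    have h2 : ‖1 - ((v / (c * w₁ ^ p) : (Cq q)ˣ) : Cq q)‖ < 1 := by
      have hden : ‖(c : Cq q) * (φ w₀) ^ p‖ = 1 := by rw [norm_mul, norm_pow, hw1, hc1]; simp
      have hden0 : (c : Cq q) * (φ w₀) ^ p ≠ 0 := by
        intro h0; rw [h0, norm_zero] at hden; exact zero_ne_one hden
      have h3 : 1 - ((v / (c * w₁ ^ p) : (Cq q)ˣ) : Cq q) =
          -((((v : Cq q) - φ z) + φ ((z - s * w₀ ^ p : 𝓞 K) : K)) + -(((c : Cq q) - φ s) * (φ w₀) ^ p)) /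
            ((c : Cq q) * (φ w₀) ^ p) := by
        rw [Units.val_div_eq_div_val, Units.val_mul, Units.val_pow_eq_pow_val, hw₁c,
          eq_div_iff hden0, sub_mul, one_mul, div_mul_cancel₀ _ hden0]
        push_cast
        rw [map_sub, map_mul, map_pow]
        ring
      rw [h3, norm_div, hden, div_one, norm_neg]
      refine lt_of_le_of_lt (IsUltrametricDist.norm_add_le_max _ _) (max_lt ?_ ?_)
      · exact lt_of_le_of_lt (IsUltrametricDist.norm_add_le_max _ _) (max_lt hvz h1)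
      · rw [norm_neg, norm_mul, norm_pow, hw1, one_pow, mul_one]; exact hcs
    obtain ⟨w₂, hw₂, hw₂1, hw₂p⟩ := exists_pow_of_close_Fx (p := p) hq
      (z := v / (c * w₁ ^ p)) (hv.div (hc.mul (hw₁.pow p))) h2
    refine ⟨w₁ * w₂, hw₁.mul hw₂, ?_, ?_⟩
    · rw [Units.val_mul, norm_mul, hw₂1, hw₁c, hw1, mul_one]
    · rw [mul_pow, hw₂p, ← mul_assoc, mul_div_cancel]
  by_cases hYp : ∃ W : (𝓞 K ⧸ P)ˣ, W ^ p = Y
  · left
    obtain ⟨W, hW⟩ := hYp
    obtain ⟨w, hw1, hw2, hw3⟩ := key b y hb hb1 hy W 1 1 (fun τ _ => by simp) (by simp) (by simp) (by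
      have h1 := congrArg (fun z : (𝓞 K ⧸ P)ˣ => (z : 𝓞 K ⧸ P)) hW
      simp only [Units.val_pow_eq_pow_val, Y, Units.val_mk0] at h1
      rw [h1, map_one, one_mul])
    exact ⟨w, hw1, hw2, by rw [hw3, one_mul]⟩
  · right
    push Not at hYp
    obtain ⟨i, W, hW⟩ := exists_pow_mul_of_isCyclic hYp X
    obtain ⟨w, hw1, hw2, hw3⟩ := key u x hu hu1 hx W (b ^ i) (y ^ i) (hb.pow i)
      (by rw [Units.val_pow_eq_pow_val, norm_pow, hb1, one_pow]) (by
        have h1 : φ ((y ^ i : 𝓞 K) : K) = (φ y) ^ i := by push_cast; rw [map_pow]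
        rw [h1, Units.val_pow_eq_pow_val]
        exact norm_pow_sub_pow_lt hb1.le hy1.le hy i) (by
      have h1 := congrArg (fun z : (𝓞 K ⧸ P)ˣ => (z : 𝓞 K ⧸ P)) hW
      simp only [Units.val_pow_eq_pow_val, Y, X, Units.val_mk0, Units.val_mul] at h1
      rw [h1, map_pow])
    exact ⟨i, w, hw1, hw2, hw3⟩

/-- lifting an equation modulo `p`-th powers -/
lemma lift_close {p : ℕ} [hp : Fact p.Prime] (hq : (q : ℕ) ≠ p) {φ : Emb K q}
    {v c w₁ : (Cq q)ˣ} (hv : Fx φ v) (hc : Fx φ c) (hw : Fx φ w₁) (hc1 : ‖(c : Cq q)‖ = 1)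
    (hw1 : ‖(w₁ : Cq q)‖ = 1) (h : ‖(v : Cq q) - c * (w₁ : Cq q) ^ p‖ < 1) :
    ∃ w : (Cq q)ˣ, Fx φ w ∧ ‖(w : Cq q)‖ = 1 ∧ v = c * w ^ p := by
  have h2 : ‖1 - ((v / (c * w₁ ^ p) : (Cq q)ˣ) : Cq q)‖ < 1 := by
    have hden : ‖(c : Cq q) * (w₁ : Cq q) ^ p‖ = 1 := by
      rw [norm_mul, norm_pow, hw1, hc1, one_pow, mul_one]
    have hden0 : (c : Cq q) * (w₁ : Cq q) ^ p ≠ 0 := by
      intro h0; rw [h0, norm_zero] at hden; exact zero_ne_one hden
    have h3 : 1 - ((v / (c * w₁ ^ p) : (Cq q)ˣ) : Cq q) =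
        -((v : Cq q) - c * (w₁ : Cq q) ^ p) / ((c : Cq q) * (w₁ : Cq q) ^ p) := by
      rw [Units.val_div_eq_div_val, Units.val_mul, Units.val_pow_eq_pow_val,
        eq_div_iff hden0, sub_mul, one_mul, div_mul_cancel₀ _ hden0]
      ring
    rw [h3, norm_div, hden, div_one, norm_neg]
    exact h
  obtain ⟨w₂, hw₂, hw₂1, hw₂p⟩ := exists_pow_of_close_Fx (p := p) hq
    (z := v / (c * w₁ ^ p)) (hv.div (hc.mul (hw.pow p))) h2
  refine ⟨w₁ * w₂, hw.mul hw₂, ?_, ?_⟩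
  · rw [Units.val_mul, norm_mul, hw₂1, hw1, mul_one]
  · rw [mul_pow, hw₂p, ← mul_assoc, mul_div_cancel]

/-- `x² - b` represents `b w²` for `q ≠ 2` -/
theorem exists_sq_sub (hq : (q : ℕ) ≠ 2) {φ : Emb K q} {b : (Cq q)ˣ}
    (hb : Fx φ b) (hb1 : ‖(b : Cq q)‖ = 1) :
    (∃ w : (Cq q)ˣ, Fx φ w ∧ ‖(w : Cq q)‖ = 1 ∧ w ^ 2 = b) ∨
      ∃ (x : 𝓞 K) (w : (Cq q)ˣ), Fx φ w ∧ ‖(w : Cq q)‖ = 1 ∧
        (φ x) ^ 2 - (b : Cq q) = b * (w : Cq q) ^ 2 := by
  classical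
  have : Fact (Nat.Prime 2) := ⟨Nat.prime_two⟩
  obtain ⟨y, hy⟩ := exists_int_close hb hb1.le
  set P := (CFT6.place φ).asIdeal with hP
  have hmax : P.IsMaximal := (CFT6.place φ).isMaximal
  letI : Field (𝓞 K ⧸ P) := Ideal.Quotient.field P
  haveI : Finite (𝓞 K ⧸ P) := Ideal.finiteQuotientOfFreeOfNeBot P (CFT6.place φ).ne_bot
  have hmem : ∀ z : 𝓞 K, Ideal.Quotient.mk P z = 0 ↔ ‖φ z‖ < 1 := by
    intro z
    rw [Ideal.Quotient.eq_zero_iff_mem]; exact CFT6.mem_primeIdeal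
  have hnorm : ∀ z : 𝓞 K, Ideal.Quotient.mk P z ≠ 0 ↔ ‖φ z‖ = 1 := by
    intro z
    rw [Ne, Ideal.Quotient.eq_zero_iff_mem]; exact CFT6.notMem_primeIdeal
  have hy1 : ‖φ y‖ = 1 := by
    have h1 : φ y = (b : Cq q) + -((b : Cq q) - φ y) := by ring
    have h2 : ‖-((b : Cq q) - φ y)‖ < 1 := by rw [norm_neg]; exact hy
    rw [h1, IsUltrametricDist.norm_add_eq_max_of_norm_ne_norm (by rw [hb1]; exact h2.ne'), hb1,
      max_eq_left h2.le]
  have hY0 : Ideal.Quotient.mk P y ≠ 0 := (hnorm y).2 hy1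
  -- lifting units
  have hlift : ∀ W : 𝓞 K ⧸ P, W ≠ 0 → ∃ (w₀ : 𝓞 K) (w₁ : (Cq q)ˣ),
      Ideal.Quotient.mk P w₀ = W ∧ (w₁ : Cq q) = φ w₀ ∧ Fx φ w₁ ∧ ‖(w₁ : Cq q)‖ = 1 := by
    intro W hW
    obtain ⟨w₀, hw₀⟩ := Ideal.Quotient.mk_surjective W
    have hw1 : ‖φ w₀‖ = 1 := by rw [← hnorm, hw₀]; exact hW
    have hw0' : (w₀ : K) ≠ 0 := by
      intro h0; rw [h0, map_zero, norm_zero] at hw1; exact zero_ne_one hw1
    exact ⟨w₀, Units.map (φ : K →* Cq q) (Units.mk0 (w₀ : K) hw0'), hw₀, rfl, Fx_emb _, hw1⟩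
  by_cases hYp : ∃ W : 𝓞 K ⧸ P, W ^ 2 = Ideal.Quotient.mk P y
  · left
    obtain ⟨W, hW⟩ := hYp
    have hW0 : W ≠ 0 := by
      rintro rfl
      exact hY0 (by rw [← hW, zero_pow two_ne_zero])
    obtain ⟨w₀, w₁, hw₀, hw₁c, hw₁, hw₁1⟩ := hlift W hW0
    obtain ⟨w, hw, hw1, hwe⟩ := lift_close (p := 2) hq (v := b) (c := 1) (w₁ := w₁) hb
      (fun τ _ => by rw [Units.val_one, map_one]) hw₁ (by rw [Units.val_one, norm_one]) hw₁1 (by
        have h1 : ‖φ ((y - w₀ ^ 2 : 𝓞 K) : K)‖ < 1 := by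
          rw [← hmem, map_sub, map_pow, hw₀, hW, sub_self]
        have h2 : (b : Cq q) - ((1 : (Cq q)ˣ) : Cq q) * (w₁ : Cq q) ^ 2 =
            ((b : Cq q) - φ y) + φ ((y - w₀ ^ 2 : 𝓞 K) : K) := by
          rw [hw₁c]
          push_cast
          rw [map_sub, map_pow]
          ring
        rw [h2]
        exact lt_of_le_of_lt (IsUltrametricDist.norm_add_le_max _ _) (max_lt hy h1))
    exact ⟨w, hw, hw1, by rw [hwe, one_mul]⟩
  · right
    push Not at hYp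
    letI : Fintype (𝓞 K ⧸ P) := Fintype.ofFinite _
    have hchar : ringChar (𝓞 K ⧸ P) ≠ 2 := by
      intro h
      have h1 : ((2 : ℕ) : 𝓞 K ⧸ P) = 0 := by
        rw [← h]; exact ringChar.Nat.cast_ringChar
      have h2 : Ideal.Quotient.mk P ((2 : ℕ) : 𝓞 K) = 0 := by rw [map_natCast]; exact h1
      rw [hmem] at h2
      have h3 : ‖((2 : ℕ) : Cq q)‖ = 1 := norm_p_eq_one hq
      have h5 : (((2 : ℕ) : 𝓞 K) : K) = ((2 : ℕ) : K) := by push_cast; rfl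
      have h4 : φ (((2 : ℕ) : 𝓞 K) : K) = ((2 : ℕ) : Cq q) := by
        rw [h5]; exact map_natCast φ 2
      rw [h4, h3] at h2
      exact lt_irrefl _ h2
    have hodd := FiniteField.odd_card_of_char_ne_two hchar
    set Y := Ideal.Quotient.mk P y with hYdef
    obtain ⟨X, W, hXW⟩ := FiniteField.exists_root_sum_quadratic
      (f := Polynomial.X ^ 2 - Polynomial.C Y) (g := Polynomial.C (-Y) * Polynomial.X ^ 2)
      (Polynomial.degree_X_pow_sub_C two_pos Y)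
      (by rw [Polynomial.degree_C_mul_X_pow 2 (neg_ne_zero.2 hY0)]; rfl) hodd
    simp only [Polynomial.eval_sub, Polynomial.eval_pow, Polynomial.eval_X, Polynomial.eval_C,
      Polynomial.eval_mul] at hXW
    have hW0 : W ≠ 0 := by
      rintro rfl
      apply hYp X
      linear_combination hXW
    obtain ⟨x, hx⟩ := Ideal.Quotient.mk_surjective X
    obtain ⟨w₀, w₁, hw₀, hw₁c, hw₁, hw₁1⟩ := hlift W hW0
    -- the value
    have hclose : ‖((φ x) ^ 2 - (b : Cq q)) - b * (w₁ : Cq q) ^ 2‖ < 1 := by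
      have h1 : ‖φ ((x ^ 2 - y - y * w₀ ^ 2 : 𝓞 K) : K)‖ < 1 := by
        rw [← hmem, map_sub, map_sub, map_mul, map_pow, map_pow, hw₀, hx]
        linear_combination hXW
      have h2 : ((φ x) ^ 2 - (b : Cq q)) - b * (w₁ : Cq q) ^ 2 =
          φ ((x ^ 2 - y - y * w₀ ^ 2 : 𝓞 K) : K) + -(((b : Cq q) - φ y) * (1 + (w₁ : Cq q) ^ 2)) := by
        rw [hw₁c]
        push_cast
        rw [map_sub, map_sub, map_mul, map_pow, map_pow]
        ring
      rw [h2]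
      refine lt_of_le_of_lt (IsUltrametricDist.norm_add_le_max _ _) (max_lt h1 ?_)
      rw [norm_neg, norm_mul]
      refine mul_lt_one_of_nonneg_of_lt_one_left (norm_nonneg _) hy ?_
      refine le_trans (IsUltrametricDist.norm_add_le_max _ _) (max_le (by simp) ?_)
      rw [norm_pow, hw₁1, one_pow]
    have hbw : ‖(b : Cq q) * (w₁ : Cq q) ^ 2‖ = 1 := by
      rw [norm_mul, norm_pow, hb1, hw₁1, one_pow, mul_one]
    have hz0 : (φ x) ^ 2 - (b : Cq q) ≠ 0 := by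
      intro h0
      rw [h0, zero_sub, norm_neg, hbw] at hclose
      exact lt_irrefl _ hclose
    have hxF : ∀ τ : Gq q, τ • φ = φ → τ (φ x) = φ x := fun τ hτ =>
      congrFun (congrArg DFunLike.coe hτ) (x : K)
    obtain ⟨w, hw, hw1, hwe⟩ := lift_close (p := 2) hq (v := Units.mk0 _ hz0) (c := b)
      (w₁ := w₁) (fun τ hτ => by
        show τ ((φ x) ^ 2 - (b : Cq q)) = (φ x) ^ 2 - (b : Cq q)
        rw [map_sub, map_pow, hxF τ hτ, hb τ hτ]) hb hw₁ hb1 hw₁1 hclose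
    refine ⟨x, w, hw, hw1, ?_⟩
    have h5 := congrArg (fun u : (Cq q)ˣ => (u : Cq q)) hwe
    exact h5

end residue

section norms

variable {p : ℕ} [hp : Fact p.Prime] {K : Type u} {L : Type v} [Field K] [Field L] [Algebra K L]
  (k : Kum p K L) {q : Nat.Primes} [NumberField K] [NumberField L] [IsGalois K L]

/-- the image of `a` at an embedding -/
noncomputable def Kum.aq (φ : Emb K q) : (Cq q)ˣ := Units.map (φ : K →* Cq q) k.a

lemma Kum.Fx_aq (φ : Emb K q) : Fx φ (k.aq φ) := Fx_emb _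

include k in
open Classical in
lemma Kum.card_fibre (φ : Emb K q) :
    (univ.filter fun ψ : Emb L q => ψ.comp (algebraMap K L) = φ).card = p := by
  haveI := k.finite
  obtain ⟨ψ, rfl⟩ := exists_ext (L := L) φ
  have h := k.prod_fibre (fun _ : Emb L q => Multiplicative.ofAdd 1) ψ
  rw [prod_const, prod_const, card_range] at h
  have h2 := congrArg Multiplicative.toAdd h
  simpa using h2

include k in
/-- `p`-th powers are norms -/
lemma Kum.locNm_pow {φ : Emb K q} {w : (Cq q)ˣ} (hw : Fx φ w) :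
    LocNm (algebraMap K L) q φ (w ^ p) := by
  classical
  refine ⟨fun _ => w, fun τ hτ ψ _ => (hw τ hτ).symm, ?_⟩
  rw [prod_const, k.card_fibre]

include k in
lemma Kum.locUNm_pow {φ : Emb K q} {w : (Cq q)ˣ} (hw : Fx φ w) (hw1 : ‖(w : Cq q)‖ = 1) :
    LocUNm (algebraMap K L) q φ (w ^ p) := by
  classical
  refine ⟨fun _ => w, fun τ hτ ψ _ => (hw τ hτ).symm, fun _ _ => hw1, ?_⟩
  rw [prod_const, k.card_fibre]

lemma LocUNm.one {φ : Emb K q} : LocUNm (algebraMap K L) q φ 1 := by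
  classical
  exact ⟨fun _ => 1, fun τ _ ψ _ => by simp, fun _ _ => by simp, by simp⟩

lemma LocUNm.pow {φ : Emb K q} {u : (Cq q)ˣ} (h : LocUNm (algebraMap K L) q φ u) (i : ℕ) :
    LocUNm (algebraMap K L) q φ (u ^ i) := by
  induction i with
  | zero => rw [pow_zero]; exact LocUNm.one
  | succ n ih => rw [pow_succ]; exact ih.mul h

/-- split case: the stabiliser acts trivially on the fibre. -/
lemma Kum.smul_eq_of_split {φ : Emb K q} {c : (Cq q)ˣ} (hc : Fx φ c) (hcp : c ^ p = k.aq φ)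
    {ψ : Emb L q} (hψ : ψ.comp (algebraMap K L) = φ) {τ : Gq q} (hτ : τ • φ = φ) : τ • ψ = ψ := by
  have hω : IsPrimitiveRoot (ψ (algebraMap K L k.ζ)) p := k.hζL.map_of_injective ψ.injective
  have hωτ : τ (ψ (algebraMap K L k.ζ)) = ψ (algebraMap K L k.ζ) := by
    have h1 := congrArg (fun χ : Emb K q => χ k.ζ) hτ
    simp only [smul_emb_apply] at h1
    have h2 : φ k.ζ = ψ (algebraMap K L k.ζ) := by rw [← hψ]; rfl
    rw [← h2]; exact h1
  have hα : (ψ (k.α : L)) ^ p = (c : Cq q) ^ p := by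
    rw [← map_pow, k.hα]
    have h1 := congrArg (fun u : (Cq q)ˣ => (u : Cq q)) hcp
    simp only [Units.val_pow_eq_pow_val] at h1
    rw [h1, ← hψ]; rfl
  have hc0 : (c : Cq q) ≠ 0 := c.ne_zero
  have h3 : (ψ (k.α : L) / c) ^ p = 1 := by
    rw [div_pow, hα, div_self (pow_ne_zero _ hc0)]
  obtain ⟨i, _, hi⟩ := hω.eq_pow_of_pow_eq_one h3
  have h4 : ψ (k.α : L) = ψ (algebraMap K L k.ζ) ^ i * c := by
    rw [hi]; field_simp
  have h5 : τ (ψ (k.α : L)) = ψ (k.α : L) := by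
    rw [h4, map_mul, map_pow, hωτ, hc τ hτ]
  have h6 : (τ • ψ).comp (algebraMap K L) = ψ.comp (algebraMap K L) := by
    rw [smul_emb_comp, hψ, hτ]
  obtain ⟨j, hj, h7⟩ := k.exists_sh h6
  have h8 : k.sh j ψ (k.α : L) = ψ (k.α : L) := by
    rw [← h7]; exact h5
  rw [k.sh_α] at h8
  have h9 : ψ (algebraMap K L k.ζ) ^ j = 1 :=
    (mul_eq_right₀ ((map_ne_zero ψ).2 k.α.ne_zero)).1 h8
  have h10 : j = 0 := Nat.eq_zero_of_dvd_of_lt (hω.dvd_of_pow_eq_one j h9) hj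
  rw [h7, h10, k.sh_zero]

lemma Kum.locUNm_of_split {φ : Emb K q} {c : (Cq q)ˣ} (hc : Fx φ c) (hcp : c ^ p = k.aq φ)
    {u : (Cq q)ˣ} (hu : Fx φ u) (hu1 : ‖(u : Cq q)‖ = 1) : LocUNm (algebraMap K L) q φ u := by
  classical
  haveI := k.finite
  obtain ⟨ψ₀, hψ₀⟩ := exists_ext (L := L) φ
  refine ⟨fun ψ => if ψ = ψ₀ then u else 1, ?_, ?_, ?_⟩
  · intro τ hτ ψ hψ
    simp only []
    rw [k.smul_eq_of_split hc hcp hψ hτ]
    split_ifs
    · exact (hu τ hτ).symm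
    · simp
  · intro ψ _
    simp only []
    split_ifs
    · exact hu1
    · simp
  · rw [prod_ite_eq' _ ψ₀ (fun _ => u), if_pos (by simp [hψ₀])]

lemma Kum.locNm_of_split {φ : Emb K q} {c : (Cq q)ˣ} (hc : Fx φ c) (hcp : c ^ p = k.aq φ)
    {u : (Cq q)ˣ} (hu : Fx φ u) : LocNm (algebraMap K L) q φ u := by
  classical
  haveI := k.finite
  obtain ⟨ψ₀, hψ₀⟩ := exists_ext (L := L) φ
  refine ⟨fun ψ => if ψ = ψ₀ then u else 1, ?_, ?_⟩
  · intro τ hτ ψ hψ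
    simp only []
    rw [k.smul_eq_of_split hc hcp hψ hτ]
    split_ifs
    · exact (hu τ hτ).symm
    · simp
  · rw [prod_ite_eq' _ ψ₀ (fun _ => u), if_pos (by simp [hψ₀])]

/-- `a / c ^ p` is a norm -/
lemma Kum.locUNm_a (hp2 : p ≠ 2) {φ : Emb K q} {c : (Cq q)ˣ} (hc : Fx φ c)
    (hc1 : ‖(k.aq φ : Cq q)‖ = ‖(c : Cq q)‖ ^ p) :
    LocUNm (algebraMap K L) q φ (k.aq φ / c ^ p) := by
  classical
  haveI := k.finite
  obtain ⟨ψ₀, hψ₀⟩ := exists_ext (L := L) φ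
  refine ⟨fun ψ => Units.map (ψ : L →* Cq q) k.α / c, ?_, ?_, ?_⟩
  · intro τ hτ ψ hψ
    simp only [Units.val_div_eq_div_val, Units.coe_map, MonoidHom.coe_coe, map_div₀, smul_emb_apply]
    rw [hc τ hτ]
  · intro ψ hψ
    simp only [Units.val_div_eq_div_val, Units.coe_map, MonoidHom.coe_coe, norm_div]
    have h1 : ‖ψ (k.α : L)‖ ^ p = ‖(c : Cq q)‖ ^ p := by
      rw [← norm_pow, ← map_pow, k.hα, ← hc1, ← hψ]; rfl
    have h2 : ‖ψ (k.α : L)‖ = ‖(c : Cq q)‖ :=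
      (pow_left_inj₀ (norm_nonneg _) (norm_nonneg _) hp.out.ne_zero).1 h1
    rw [h2, div_self (norm_pos_iff.2 c.ne_zero).ne']
  · subst hψ₀
    rw [k.prod_fibre]
    apply Units.ext
    have hω : IsPrimitiveRoot (ψ₀ (algebraMap K L k.ζ)) p := k.hζL.map_of_injective ψ₀.injective
    simp only [Units.coe_prod, Units.val_div_eq_div_val, Units.coe_map, MonoidHom.coe_coe,
      Units.val_pow_eq_pow_val, Kum.aq]
    rw [prod_div_distrib, prod_const, card_range]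
    congr 1
    have h1 : ∀ i ∈ range p, k.sh i ψ₀ (k.α : L) = ψ₀ (algebraMap K L k.ζ) ^ i * ψ₀ (k.α : L) :=
      fun i _ => k.sh_α i ψ₀
    have h3 : (ψ₀ (k.α : L)) ^ p = ψ₀ (algebraMap K L (k.a : K)) := by rw [← map_pow, k.hα]
    rw [prod_congr rfl h1, prod_mul_distrib, prod_const, card_range, prod_pow_eq_pow_sum,
      sum_range_id, h3]
    have hodd : Odd p := hp.out.odd_of_ne_two hp2
    have h2 : p * (p - 1) / 2 = p * ((p - 1) / 2) := by
      obtain ⟨m, hm⟩ := hodd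
      have : p - 1 = 2 * m := by omega
      rw [this]
      rw [Nat.mul_div_cancel_left m two_pos, mul_comm 2 m, ← mul_assoc, Nat.mul_div_cancel _ two_pos]
    rw [h2, pow_mul, hω.pow_eq_one, one_pow, one_mul]
    rfl

/-- units are norms of units in the unramified case. -/
theorem Kum.locUNm_unit (hp2 : p ≠ 2) (hq : (q : ℕ) ≠ p) {φ : Emb K q} {c : (Cq q)ˣ} (hc : Fx φ c)
    (hc1 : ‖(k.aq φ : Cq q)‖ = ‖(c : Cq q)‖ ^ p) {u : (Cq q)ˣ} (hu : Fx φ u)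
    (hu1 : ‖(u : Cq q)‖ = 1) : LocUNm (algebraMap K L) q φ u := by
  have hb : Fx φ (k.aq φ / c ^ p) := (k.Fx_aq φ).div (hc.pow p)
  have hb1 : ‖((k.aq φ / c ^ p : (Cq q)ˣ) : Cq q)‖ = 1 := by
    rw [Units.val_div_eq_div_val, norm_div, Units.val_pow_eq_pow_val, norm_pow, hc1, div_self]
    exact pow_ne_zero _ (norm_pos_iff.2 c.ne_zero).ne'
  rcases exists_pow_mul_of_unit hq hb hu hb1 hu1 with ⟨w, hw, _, hwp⟩ | ⟨i, w, hw, hw1, rfl⟩
  · refine k.locUNm_of_split (c := w * c) (hw.mul hc) ?_ hu hu1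
    rw [mul_pow, hwp, div_mul_cancel]
  · exact ((k.locUNm_a hp2 hc hc1).pow i).mul (k.locUNm_pow hw hw1)

/-- units are norms of units in the unramified case, `p = 2`. -/
theorem Kum.locUNm_a_two (h2p : p = 2) (hq : (q : ℕ) ≠ p) {φ : Emb K q} {c : (Cq q)ˣ}
    (hc : Fx φ c) (hc1 : ‖(k.aq φ : Cq q)‖ = ‖(c : Cq q)‖ ^ p) :
    LocUNm (algebraMap K L) q φ (k.aq φ / c ^ p) := by
  classical
  subst h2p
  haveI := k.finite
  have hb : Fx φ (k.aq φ / c ^ 2) := (k.Fx_aq φ).div (hc.pow 2)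
  have hb1 : ‖((k.aq φ / c ^ 2 : (Cq q)ˣ) : Cq q)‖ = 1 := by
    rw [Units.val_div_eq_div_val, norm_div, Units.val_pow_eq_pow_val, norm_pow, hc1, div_self]
    exact pow_ne_zero _ (norm_pos_iff.2 c.ne_zero).ne'
  rcases exists_sq_sub hq hb hb1 with ⟨w, hw, hw1, hwp⟩ | ⟨x, w, hw, hw1, hxw⟩
  · rw [← hwp]
    exact k.locUNm_pow hw hw1
  · obtain ⟨ψ₀, hψ₀⟩ := exists_ext (L := L) φ
    -- values
    let A : Emb L q → Cq q := fun ψ => φ x + ψ (k.α : L) / c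
    have hsq : ∀ ψ : Emb L q, ψ.comp (algebraMap K L) = φ →
        (φ x + ψ (k.α : L) / c) * (φ x - ψ (k.α : L) / c) =
          ((k.aq φ / c ^ 2 : (Cq q)ˣ) : Cq q) * (w : Cq q) ^ 2 := by
      intro ψ hψ
      rw [← hxw]
      have h1 : (ψ (k.α : L)) ^ 2 = k.aq φ := by
        rw [← map_pow, k.hα, ← hψ]; rfl
      rw [Units.val_div_eq_div_val, Units.val_pow_eq_pow_val, ← h1]
      ring
    have hprodnorm : ∀ ψ : Emb L q, ψ.comp (algebraMap K L) = φ →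
        ‖φ x + ψ (k.α : L) / c‖ * ‖φ x - ψ (k.α : L) / c‖ = 1 := by
      intro ψ hψ
      rw [← norm_mul, hsq ψ hψ, norm_mul, hb1, norm_pow, hw1, one_pow, mul_one]
    have hxle : ‖φ x‖ ≤ 1 := by
      have h1 : ‖(φ x) ^ 2‖ ≤ 1 := by
        have h2 : (φ x) ^ 2 = ((k.aq φ / c ^ 2 : (Cq q)ˣ) : Cq q) * (w : Cq q) ^ 2 +
            ((k.aq φ / c ^ 2 : (Cq q)ˣ) : Cq q) := by rw [← hxw]; ring
        rw [h2]
        refine le_trans (IsUltrametricDist.norm_add_le_max _ _) (max_le ?_ hb1.le)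
        rw [norm_mul, hb1, norm_pow, hw1, one_pow, mul_one]
      rw [norm_pow] at h1
      exact (pow_le_one_iff_of_nonneg (norm_nonneg _) two_ne_zero).1 h1
    have hαle : ∀ ψ : Emb L q, ψ.comp (algebraMap K L) = φ → ‖ψ (k.α : L) / c‖ ≤ 1 := by
      intro ψ hψ
      have h1 : ‖ψ (k.α : L) / c‖ ^ 2 = 1 := by
        rw [← norm_pow, div_pow, ← hb1, Units.val_div_eq_div_val, Units.val_pow_eq_pow_val]
        congr 2
        rw [← map_pow, k.hα, ← hψ]; rfl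
      exact ((pow_eq_one_iff_of_nonneg (norm_nonneg _) hp.out.ne_zero).1 h1).le
    have hle : ∀ ψ : Emb L q, ψ.comp (algebraMap K L) = φ →
        ‖φ x + ψ (k.α : L) / c‖ ≤ 1 ∧ ‖φ x - ψ (k.α : L) / c‖ ≤ 1 := by
      intro ψ hψ
      constructor
      · exact le_trans (IsUltrametricDist.norm_add_le_max _ _) (max_le hxle (hαle ψ hψ))
      · rw [sub_eq_add_neg]
        refine le_trans (IsUltrametricDist.norm_add_le_max _ _) (max_le hxle ?_)
        rw [norm_neg]; exact hαle ψ hψ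
    have hA1 : ∀ ψ : Emb L q, ψ.comp (algebraMap K L) = φ → ‖A ψ‖ = 1 := by
      intro ψ hψ
      refine le_antisymm (hle ψ hψ).1 ?_
      have h1 := hprodnorm ψ hψ
      have h2 := (hle ψ hψ).2
      by_contra hlt
      push Not at hlt
      have h3 : ‖φ x + ψ (k.α : L) / c‖ * ‖φ x - ψ (k.α : L) / c‖ < 1 :=
        mul_lt_one_of_nonneg_of_lt_one_left (norm_nonneg _) hlt h2
      exact absurd h1 h3.ne
    have hA0 : ∀ ψ : Emb L q, ψ.comp (algebraMap K L) = φ → A ψ ≠ 0 := by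
      intro ψ hψ h0
      have h1 := hA1 ψ hψ
      rw [h0, norm_zero] at h1
      exact zero_ne_one h1
    have key : LocUNm (algebraMap K L) q φ ((k.aq φ / c ^ 2) * w ^ 2) := by
      refine ⟨fun ψ => if h : A ψ = 0 then 1 else Units.mk0 (A ψ) h, ?_, ?_, ?_⟩
      · intro τ hτ ψ hψ
        have hψτ : (τ • ψ).comp (algebraMap K L) = φ := by rw [smul_emb_comp, hψ, hτ]
        simp only []
        rw [dif_neg (hA0 ψ hψ), dif_neg (hA0 _ hψτ), Units.val_mk0, Units.val_mk0]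
        show φ x + τ (ψ (k.α : L)) / c = τ (φ x + ψ (k.α : L) / c)
        rw [map_add, map_div₀, hc τ hτ]
        congr 1
        exact (congrFun (congrArg DFunLike.coe hτ) (x : K)).symm
      · intro ψ hψ
        simp only []
        rw [dif_neg (hA0 ψ hψ), Units.val_mk0]
        exact hA1 ψ hψ
      · subst hψ₀
        rw [k.prod_fibre]
        apply Units.ext
        have hsh : ∀ i, (k.sh i ψ₀).comp (algebraMap K L) = ψ₀.comp (algebraMap K L) :=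
          fun i => k.sh_comp i ψ₀
        have h1 : ∀ i ∈ range 2, (((if h : A (k.sh i ψ₀) = 0 then 1 else
            Units.mk0 (A (k.sh i ψ₀)) h) : (Cq q)ˣ) : Cq q) = A (k.sh i ψ₀) := by
          intro i _
          rw [dif_neg (hA0 _ (hsh i)), Units.val_mk0]
        rw [Units.coe_prod, prod_congr rfl h1]
        have h2 : ∏ i ∈ range 2, A (k.sh i ψ₀) = A (k.sh 0 ψ₀) * A (k.sh 1 ψ₀) := by
          rw [prod_range_succ, prod_range_one]
        have hω : IsPrimitiveRoot (ψ₀ (algebraMap K L k.ζ)) 2 :=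
          k.hζL.map_of_injective ψ₀.injective
        have h3 : ψ₀ (algebraMap K L k.ζ) = -1 := by
          exact hω.eq_neg_one_of_two_right
        have h5 : A (k.sh 1 ψ₀) = ψ₀.comp (algebraMap K L) x - ψ₀ (k.α : L) / c := by
          show ψ₀.comp (algebraMap K L) x + k.sh 1 ψ₀ (k.α : L) / c = _
          rw [k.sh_α, pow_one, h3]
          ring
        have h6 : A (k.sh 0 ψ₀) = ψ₀.comp (algebraMap K L) x + ψ₀ (k.α : L) / c := by
          rw [k.sh_zero]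
        rw [h2, h5, h6, hsq ψ₀ rfl, Units.val_mul, Units.val_pow_eq_pow_val]
    have h7 := key.mul (k.locUNm_pow hw.inv (by
      rw [Units.val_inv_eq_inv_val, norm_inv, hw1, inv_one]))
    rwa [inv_pow, mul_inv_cancel_right] at h7

/-- units are norms of units in the unramified case. -/
theorem Kum.locUNm_unit' (hq : (q : ℕ) ≠ p) {φ : Emb K q} {c : (Cq q)ˣ} (hc : Fx φ c)
    (hc1 : ‖(k.aq φ : Cq q)‖ = ‖(c : Cq q)‖ ^ p) {u : (Cq q)ˣ} (hu : Fx φ u)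
    (hu1 : ‖(u : Cq q)‖ = 1) : LocUNm (algebraMap K L) q φ u := by
  by_cases h2p : p = 2
  · have hb : Fx φ (k.aq φ / c ^ p) := (k.Fx_aq φ).div (hc.pow p)
    have hb1 : ‖((k.aq φ / c ^ p : (Cq q)ˣ) : Cq q)‖ = 1 := by
      rw [Units.val_div_eq_div_val, norm_div, Units.val_pow_eq_pow_val, norm_pow, hc1, div_self]
      exact pow_ne_zero _ (norm_pos_iff.2 c.ne_zero).ne'
    rcases exists_pow_mul_of_unit hq hb hu hb1 hu1 with ⟨w, hw, _, hwp⟩ | ⟨i, w, hw, hw1, rfl⟩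
    · refine k.locUNm_of_split (c := w * c) (hw.mul hc) ?_ hu hu1
      rw [mul_pow, hwp, div_mul_cancel]
    · exact ((k.locUNm_a_two h2p hq hc hc1).pow i).mul (k.locUNm_pow hw hw1)
  · exact k.locUNm_unit h2p hq hc hc1 hu hu1

end norms

end Fermat.Agent.CFT
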