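import Mathlib
import Fermat.Agent.PTLocal.Herbrand

/-!
# Tate's lemma in multiplicative form
-/

set_option autoImplicit false

open Finset

namespace Fermat.Agent.CFT

open Fermat.Agent.PTLocal in
theorem tate_mul {A B : Type*} [CommGroup A] [CommGroup B] {p : ℕ} [hp : Fact p.Prime]
    (s : A →* A) (hs : ∀ a, s^[p] a = a) (ι : B →* A) (hι : Function.Injective ι)
    (hιr : ∀ a, s a = a ↔ a ∈ ι.range) (n : A →* B) (hn : ∀ a, ι (n a) = ∏ i ∈ range p, s^[i] a)
    (hkA : Nat.card (powMonoidHom p : A →* A).ker ≠ 0)
    (hiB : (powMonoidHom p : B →* B).range.index ≠ 0) :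
    (powMonoidHom p : A →* A).range.index * Nat.card (powMonoidHom p : B →* B).ker ^ p *
      n.range.index ^ (p - 1) =
    Nat.card (powMonoidHom p : A →* A).ker * (powMonoidHom p : B →* B).range.index ^ p *
      ((MonoidHom.id A / s).range.relIndex n.ker) ^ (p - 1) := by
  let s' : AddMonoid.End (Additive A) := MonoidHom.toAdditive s
  let ι' : Additive B →+ Additive A := MonoidHom.toAdditive ι
  have hspow : ∀ i (a : Additive A), (s' ^ i) a = Additive.ofMul (s^[i] a.toMul) := by
    intro i
    induction i with
    | zero => intro a; rfl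
    | succ n ih =>
      intro a
      rw [pow_succ]
      show (s' ^ n) (s' a) = _
      rw [ih, Function.iterate_succ_apply]
      rfl
  have hs' : s' ^ p = 1 := by
    ext a
    rw [hspow, hs]; rfl
  have hev : (ev s' (1 - Polynomial.X) : AddMonoid.End (Additive A)) = 1 - s' := by simp [ev]
  set AG := AddMonoidHom.ker (ev s' (1 - Polynomial.X) : Additive A →+ Additive A) with hAG
  have hmemAG : ∀ a : Additive A, a ∈ AG ↔ s' a = a := by
    intro a
    have h1 : a ∈ AG ↔ (ev s' (1 - Polynomial.X) : AddMonoid.End (Additive A)) a = 0 := Iff.rfl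
    rw [h1, hev]
    show a - s' a = 0 ↔ _
    rw [sub_eq_zero, eq_comm]
  have hAGr : AG = (⊤ : AddSubgroup (Additive B)).map ι' := by
    ext a
    rw [hmemAG]
    constructor
    · intro h
      obtain ⟨b, hb⟩ := (hιr a.toMul).1 (congrArg Additive.toMul h)
      exact ⟨Additive.ofMul b, trivial, congrArg Additive.ofMul hb⟩
    · rintro ⟨b, -, rfl⟩
      exact congrArg Additive.ofMul ((hιr _).2 ⟨b.toMul, rfl⟩)
  have hι' : Function.Injective ι' := hι
  -- translation of the counts
  have e1 : cc (pmul (Additive A) p) ⊤ = (powMonoidHom p : A →* A).range.index := by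
    unfold cc
    rw [AddSubgroup.relIndex_top_right]
    have : (⊤ : AddSubgroup (Additive A)).map (pmul (Additive A) p) =
        Subgroup.toAddSubgroup (powMonoidHom p : A →* A).range := by
      ext a
      constructor
      · rintro ⟨b, -, rfl⟩
        exact ⟨b.toMul, rfl⟩
      · rintro ⟨b, hb⟩
        exact ⟨Additive.ofMul b, trivial, congrArg Additive.ofMul hb⟩
    rw [this]; rfl
  have e2 : kc (pmul (Additive A) p) ⊤ = Nat.card (powMonoidHom p : A →* A).ker := by
    unfold kc
    rw [inf_top_eq]; rfl
  have hcc : ∀ b : Additive B, pmul (Additive A) p (ι' b) = ι' (p • b) := by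
    intro b; rw [pmul_apply, map_nsmul]
  have e3 : cc (pmul (Additive A) p) AG = (powMonoidHom p : B →* B).range.index := by
    unfold cc
    rw [hAGr]
    have h1 : ((⊤ : AddSubgroup (Additive B)).map ι').map (pmul (Additive A) p) =
        (Subgroup.toAddSubgroup (powMonoidHom p : B →* B).range).map ι' := by
      ext a
      constructor
      · rintro ⟨_, ⟨b, -, rfl⟩, rfl⟩
        exact ⟨p • b, ⟨b.toMul, rfl⟩, (hcc b).symm⟩
      · rintro ⟨b, ⟨c, hc⟩, rfl⟩
        refine ⟨ι' (Additive.ofMul c), ⟨_, trivial, rfl⟩, ?_⟩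
        rw [hcc]
        congr 1
    rw [h1, AddSubgroup.relIndex_map_map_of_injective _ _ hι', AddSubgroup.relIndex_top_right]
    rfl
  have e4 : kc (pmul (Additive A) p) AG = Nat.card (powMonoidHom p : B →* B).ker := by
    unfold kc
    rw [hAGr]
    have h1 : (AddMonoidHom.ker (pmul (Additive A) p) ⊓ (⊤ : AddSubgroup (Additive B)).map ι') =
        (Subgroup.toAddSubgroup (powMonoidHom p : B →* B).ker).map ι' := by
      ext a
      constructor
      · rintro ⟨h, ⟨b, -, rfl⟩⟩
        refine ⟨b, ?_, rfl⟩
        have h2 : ι' (p • b) = 0 := by rw [← hcc]; exact h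
        have h3 : p • b = 0 := hι' (by rw [h2, map_zero])
        exact h3
      · rintro ⟨b, hb, rfl⟩
        refine ⟨?_, ⟨b, trivial, rfl⟩⟩
        show pmul (Additive A) p (ι' b) = 0
        rw [hcc]
        have h3 : p • b = 0 := hb
        rw [h3, map_zero]
    rw [h1]
    exact (Nat.card_congr ((AddSubgroup.equivMapOfInjective _ ι' hι').toEquiv)).symm
  have hnrm : ∀ a : Additive A, (nrm p s' : Additive A →+ Additive A) a = ι' (Additive.ofMul (n a.toMul)) := by
    intro a
    have h1 : (nrm p s' : AddMonoid.End (Additive A)) a = ∑ i ∈ range p, (s' ^ i) a :=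
      map_sum (AddMonoidHom.eval a : (Additive A →+ Additive A) →+ Additive A)
        (fun i => (s' ^ i : AddMonoid.End (Additive A))) _
    rw [h1]
    have h2 : ι' (Additive.ofMul (n a.toMul)) = Additive.ofMul (∏ i ∈ range p, s^[i] a.toMul) :=
      congrArg Additive.ofMul (hn a.toMul)
    rw [h2, ofMul_prod]
    exact sum_congr rfl fun i _ => hspow i a
  have e5 : (AddMonoidHom.range (nrm p s' : Additive A →+ Additive A)).relIndex AG = n.range.index := by
    rw [hAGr]
    have h1 : AddMonoidHom.range (nrm p s' : Additive A →+ Additive A) =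
        (Subgroup.toAddSubgroup n.range).map ι' := by
      ext a
      constructor
      · rintro ⟨b, rfl⟩
        exact ⟨Additive.ofMul (n b.toMul), ⟨b.toMul, rfl⟩, (hnrm b).symm⟩
      · rintro ⟨_, ⟨c, hc⟩, rfl⟩
        refine ⟨Additive.ofMul c, (hnrm _).trans ?_⟩
        exact congrArg (fun z => ι' (Additive.ofMul z)) hc
    rw [h1, AddSubgroup.relIndex_map_map_of_injective _ _ hι', AddSubgroup.relIndex_top_right]
    rfl
  have e6 : (AddMonoidHom.range (ev s' (1 - Polynomial.X) : Additive A →+ Additive A)).relIndex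
      (AddMonoidHom.ker (nrm p s' : Additive A →+ Additive A)) =
      (MonoidHom.id A / s).range.relIndex n.ker := by
    have h1 : AddMonoidHom.range (ev s' (1 - Polynomial.X) : Additive A →+ Additive A) =
        Subgroup.toAddSubgroup (MonoidHom.id A / s).range := by
      rw [hev]
      ext a
      constructor
      · rintro ⟨b, rfl⟩
        exact ⟨b.toMul, rfl⟩
      · rintro ⟨b, hb⟩
        exact ⟨Additive.ofMul b, congrArg Additive.ofMul hb⟩
    have h2 : AddMonoidHom.ker (nrm p s' : Additive A →+ Additive A) =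
        Subgroup.toAddSubgroup n.ker := by
      ext a
      constructor
      · intro h
        have h4 : ι' (Additive.ofMul (n a.toMul)) = 0 := (hnrm a).symm.trans h
        have h3 : Additive.ofMul (n a.toMul) = 0 := hι' (by rw [h4, map_zero])
        exact congrArg Additive.toMul h3
      · intro h
        have h3 : n a.toMul = 1 := h
        refine (hnrm a).trans ?_
        rw [h3]
        exact map_zero ι'
    rw [h1, h2]; rfl
  have key := tate_phi (p := p) s' hs' (by rw [e2]; exact hkA) (by rw [e3]; exact hiB)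
  rw [e1, e2, e3, e4, e5, e6] at key
  exact key

end Fermat.Agent.CFT
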