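import Mathlib
import Fermat.Agent.CFT.H90
import Fermat.Agent.CFT.KumNorm
import Fermat.Agent.CFT.CS
import Fermat.Agent.CFT.TateMul
import Fermat.Agent.CFT6.CSIndex

/-!
# Herbrand quotient of the `S`-idele class group and the first inequality
-/

set_option autoImplicit false
set_option linter.style.haveILetI false
set_option linter.unusedSectionVars false

open Finset Fermat.Agent.CFT6

namespace Fermat.Agent.CFT

universe u v

variable {p : ℕ} [hp : Fact p.Prime] {K : Type u} {L : Type v} [Field K] [Field L] [Algebra K L]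
  [NumberField K] [NumberField L] [IsGalois K L] (k : Kum p K L) (S : Finset Nat.Primes)

/-- the components of an idele -/
abbrev Idele.fn {F : Type*} [Field F] (f : Idele F) : ∀ q : Nat.Primes, Emb F q → (Cq q)ˣ := f.1

/-- action of the generator on ideles -/
noncomputable def Kum.sI : Idele L →* Idele L := Idele.map (k.σ : L →+* L)

lemma Kum.sI_apply (f : Idele L) (q : Nat.Primes) (ψ : Emb L q) :
    (k.sI f).1 q ψ = f.1 q (k.sh 1 ψ) := by
  show f.1 q (ψ.comp (k.σ : L →+* L)) = _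
  congr 1

lemma Kum.sI_iterate (i : ℕ) (f : Idele L) (q : Nat.Primes) (ψ : Emb L q) :
    (k.sI^[i] f).1 q ψ = f.1 q (k.sh i ψ) := by
  induction i generalizing f with
  | zero => rw [k.sh_zero]; rfl
  | succ n ih =>
    rw [Function.iterate_succ_apply, ih, k.sI_apply, ← k.sh_add]

lemma Kum.sI_princ (y : Lˣ) : k.sI (princ L y) = princ L (Units.map (k.σ : L →* L) y) := rfl

lemma Kum.sI_mem {f : Idele L} (hf : f ∈ US L S) : k.sI f ∈ US L S := by
  refine ⟨fun q hq => ?_, fun q hq => ⟨(k.sI f).2.1 q, fun ψ => ?_⟩⟩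
  · funext ψ
    show (k.sI f).1 q ψ = 1
    rw [k.sI_apply]
    exact congrFun (hf.1 q hq) _
  · show ‖((k.sI f).1 q ψ : Cq q)‖ = 1
    rw [k.sI_apply]
    exact (hf.2 q hq).2 _

lemma Kum.sI_le : CSker L S ≤ (CSker L S).comap k.sI := by
  refine sup_le ?_ ?_
  · rintro _ ⟨y, rfl⟩
    exact Subgroup.mem_sup_left ⟨_, (k.sI_princ y).symm⟩
  · intro f hf
    exact Subgroup.mem_sup_right (k.sI_mem S hf)

/-- the action of the generator on the class group -/
noncomputable def Kum.sC : CS L S →* CS L S := QuotientGroup.map _ _ k.sI (k.sI_le S)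

lemma Kum.sC_mk (f : Idele L) : k.sC S (QuotientGroup.mk f) = QuotientGroup.mk (k.sI f) := rfl

lemma Kum.sC_iterate_mk (i : ℕ) (f : Idele L) :
    (k.sC S)^[i] (QuotientGroup.mk f) = QuotientGroup.mk (k.sI^[i] f) := by
  induction i generalizing f with
  | zero => rfl
  | succ n ih => rw [Function.iterate_succ_apply, k.sC_mk, ih, ← Function.iterate_succ_apply]

lemma Kum.sC_iterate_p (a : CS L S) : (k.sC S)^[p] a = a := by
  obtain ⟨f, rfl⟩ := QuotientGroup.mk_surjective a
  rw [k.sC_iterate_mk]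
  congr 1
  apply Subtype.ext
  funext q ψ
  rw [k.sI_iterate, k.sh_p]

section maps

variable (K L)

lemma map_le_CSker : CSker K S ≤ (CSker L S).comap (Idele.map (algebraMap K L)) := by
  refine sup_le ?_ ?_
  · rintro _ ⟨y, rfl⟩
    exact Subgroup.mem_sup_left ⟨_, (Idele.map_princ (algebraMap K L) y).symm⟩
  · intro f hf
    refine Subgroup.mem_sup_right ⟨fun q hq => ?_, fun q hq => ⟨(Idele.map _ f).2.1 q, fun ψ => ?_⟩⟩
    · funext ψ
      exact congrFun (hf.1 q hq) _
    · exact (hf.2 q hq).2 _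

/-- the map on class groups -/
noncomputable def ιC : CS K S →* CS L S :=
  QuotientGroup.map _ _ (Idele.map (algebraMap K L)) (map_le_CSker K L S)

lemma ιC_mk (f : Idele K) :
    ιC K L S (QuotientGroup.mk f) = QuotientGroup.mk (Idele.map (algebraMap K L) f) := rfl

lemma nm_le_CSker : CSker L S ≤ (CSker K S).comap (Idele.nm (algebraMap K L)) := by
  refine sup_le ?_ ?_
  · rintro _ ⟨y, rfl⟩
    exact Subgroup.mem_sup_left ⟨_, (Idele.nm_princ y).symm⟩
  · intro f hf
    refine Subgroup.mem_sup_right ⟨fun q hq => ?_, fun q hq => ⟨(Idele.nm _ f).2.1 q, ?_⟩⟩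
    · show nmq (algebraMap K L) q (f.1 q) = 1
      rw [hf.1 q hq, map_one]
    · exact norm_nmq (algebraMap K L) q (hf.2 q hq).2

/-- the norm on class groups -/
noncomputable def nC : CS L S →* CS K S :=
  QuotientGroup.map _ _ (Idele.nm (algebraMap K L)) (nm_le_CSker K L S)

lemma nC_mk (f : Idele L) :
    nC K L S (QuotientGroup.mk f) = QuotientGroup.mk (Idele.nm (algebraMap K L) f) := rfl

end maps

lemma Kum.ιC_nC (a : CS L S) : ιC K L S (nC K L S a) = ∏ i ∈ range p, (k.sC S)^[i] a := by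
  haveI := k.finite
  obtain ⟨f, rfl⟩ := QuotientGroup.mk_surjective a
  rw [nC_mk, ιC_mk, Idele.map_nm, k.prod_eq]
  have h1 : ∀ i ∈ range p, (k.sC S)^[i] (QuotientGroup.mk f : CS L S) =
      QuotientGroup.mk ((((k.σ ^ i : L ≃ₐ[K] L) : L ≃+* L)) • f) := by
    intro i _
    rw [k.sC_iterate_mk]
    congr 1
    apply Subtype.ext
    funext q ψ
    rw [k.sI_iterate]
    rfl
  rw [prod_congr rfl h1]
  exact map_prod (QuotientGroup.mk' (CSker L S)) _ _

section main

omit [NumberField K] [NumberField L] in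
lemma ne_p {S : Finset Nat.Primes} (hpS : (⟨p, hp.out⟩ : Nat.Primes) ∈ S) {q : Nat.Primes}
    (hq : q ∉ S) : (q : ℕ) ≠ p := by
  intro h
  apply hq
  have : q = ⟨p, hp.out⟩ := Subtype.ext h
  rw [this]; exact hpS

variable (hpS : (⟨p, hp.out⟩ : Nat.Primes) ∈ S)
include hpS

include k in
lemma Kum.ιC_injective : Function.Injective (ιC K L S) := by
  haveI := k.finite
  rw [injective_iff_map_eq_one]
  intro a ha
  obtain ⟨f, rfl⟩ := QuotientGroup.mk_surjective a
  rw [ιC_mk, QuotientGroup.eq_one_iff] at ha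
  obtain ⟨_, ⟨y, rfl⟩, u, hu, hyu⟩ := Subgroup.mem_sup.1 ha
  rw [QuotientGroup.eq_one_iff]
  set q₀ : Nat.Primes := ⟨p, hp.out⟩ with hq₀
  obtain ⟨ψ₀⟩ : Nonempty (Emb L q₀) := ⟨(IsAlgClosed.lift : L →ₐ[ℚ] Cq q₀).toRingHom⟩
  have h1 : ∀ ψ : Emb L q₀, ψ (y : L) = (f.1 q₀ (ψ.comp (algebraMap K L)) : Cq q₀) := by
    intro ψ
    have h2 := congrArg (fun g : Idele L => (g.1 q₀ ψ : Cq q₀)) hyu
    have h3 : ((princ L y * u : Idele L).1 q₀ ψ : Cq q₀) = ψ (y : L) * (u.1 q₀ ψ : Cq q₀) := rfl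
    have h5 := h3.symm.trans h2
    have h4 : u.1 q₀ = 1 := hu.1 q₀ hpS
    rw [h4] at h5
    simpa using h5
  have hσ : k.σ (y : L) = y := by
    have h2 := h1 (k.sh 1 ψ₀)
    rw [k.sh_comp, ← h1 ψ₀, k.sh_apply, pow_one] at h2
    exact ψ₀.injective h2
  obtain ⟨x, hx⟩ := k.exists_algebraMap_eq hσ
  have hx0 : x ≠ 0 := by
    rintro rfl
    rw [map_zero] at hx
    exact y.ne_zero hx.symm
  have hfu : ∀ q (ψ : Emb L q), ((f / princ K (Units.mk0 x hx0) : Idele K).1 q
      (ψ.comp (algebraMap K L))) = u.1 q ψ := by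
    intro q ψ
    have h2 := congrArg (fun g : Idele L => g.1 q ψ) hyu
    have h3 : (princ L y * u : Idele L).1 q ψ = (princ L y).1 q ψ * (u.1 q ψ) := rfl
    have h4 : (f / princ K (Units.mk0 x hx0) : Idele K).1 q (ψ.comp (algebraMap K L)) =
        f.1 q (ψ.comp (algebraMap K L)) / (princ K (Units.mk0 x hx0)).1 q (ψ.comp (algebraMap K L)) := rfl
    have h5 : (princ K (Units.mk0 x hx0)).1 q (ψ.comp (algebraMap K L)) = (princ L y).1 q ψ := by
      apply Units.ext
      show ψ (algebraMap K L x) = ψ (y : L)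
      rw [hx]
    have h6 : f.1 q (ψ.comp (algebraMap K L)) = (princ L y).1 q ψ * (u.1 q ψ) := h2.symm.trans h3
    rw [h4, h5, h6, mul_div_cancel_left]
  have hmem : f / princ K (Units.mk0 x hx0) ∈ US K S := by
    refine ⟨fun q hq => ?_, fun q hq => ⟨(f / princ K (Units.mk0 x hx0)).2.1 q, fun φ => ?_⟩⟩
    · funext φ
      obtain ⟨ψ, rfl⟩ := exists_ext (L := L) φ
      have h2 := hfu q ψ
      rw [hu.1 q hq] at h2
      exact h2
    · obtain ⟨ψ, rfl⟩ := exists_ext (L := L) φ
      have h2 := hfu q ψ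
      rw [h2]
      exact (hu.2 q hq).2 ψ
  have h7 : f = princ K (Units.mk0 x hx0) * (f / princ K (Units.mk0 x hx0)) := by
    rw [mul_div_cancel]
  rw [h7]
  exact Subgroup.mul_mem_sup ⟨_, rfl⟩ hmem

variable (ha : ∀ q ∉ S, ∀ φ : Emb K q, ‖φ (k.a : K)‖ = 1)
include ha

lemma Kum.norm_α {q : Nat.Primes} (hq : q ∉ S) (ψ : Emb L q) : ‖ψ (k.α : L)‖ = 1 := by
  have h1 : ‖ψ (k.α : L)‖ ^ p = 1 := by
    rw [← norm_pow, ← map_pow, k.hα]
    exact ha q hq (ψ.comp (algebraMap K L))
  exact (pow_eq_one_iff_of_nonneg (norm_nonneg _) hp.out.ne_zero).1 h1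

/-- units with trivial norm -/
lemma Kum.exists_US {u : Idele L} (hu : u ∈ US L S) (hN : Idele.nm (algebraMap K L) u = 1) :
    ∃ w ∈ US L S, u * w = k.sI w := by
  classical
  have h1 : ∀ q, q ∉ S → ∃ z ∈ Uq L q, ∀ ψ, u.1 q ψ * z ψ = z (k.sh 1 ψ) := by
    intro q hq
    refine exists_h90_unit k (ne_p hpS hq) (k.norm_α S hpS ha hq) (hu.2 q hq) ?_
    intro ψ
    have h2 := congrArg (fun g : Idele K => g.1 q (ψ.comp (algebraMap K L))) hN
    have h3 : (Idele.nm (algebraMap K L) u).1 q = nmq (algebraMap K L) q (u.1 q) := rfl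
    rw [← k.nmq_eq, ← h3]
    exact h2
  choose! z hz1 hz2 using h1
  refine ⟨⟨fun q => if q ∈ S then 1 else z q, ?_, ?_⟩, ⟨?_, ?_⟩, ?_⟩
  · intro q
    simp only []
    split_ifs with hq
    · exact one_mem _
    · exact (hz1 q hq).1
  · refine S.finite_toSet.subset ?_
    rintro q ⟨ψ, hψ⟩
    by_contra hq
    apply hψ
    simp only [if_neg (show q ∉ S from hq)]
    exact (hz1 q hq).2 ψ
  · intro q hq
    simp only [if_pos hq]
  · intro q hq
    simp only [if_neg hq]
    exact hz1 q hq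
  · apply Subtype.ext
    funext q ψ
    rw [k.sI_apply]
    show u.1 q ψ * (if q ∈ S then (1 : Emb L q → (Cq q)ˣ) else z q) ψ =
      (if q ∈ S then (1 : Emb L q → (Cq q)ˣ) else z q) (k.sh 1 ψ)
    split_ifs with hq
    · have := congrFun (hu.1 q hq) ψ
      simpa using this
    · exact hz2 q hq ψ

lemma Kum.sC_eq_iff (a : CS L S) : k.sC S a = a ↔ a ∈ (ιC K L S).range := by
  haveI := k.finite
  constructor
  · intro h
    obtain ⟨f, rfl⟩ := QuotientGroup.mk_surjective a
    rw [k.sC_mk] at h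
    have h1 := QuotientGroup.eq.1 h.symm
    obtain ⟨_, ⟨y, rfl⟩, u, hu, hyu⟩ := Subgroup.mem_sup.1 h1
    -- norm
    have hnσ : Idele.nm (algebraMap K L) (k.sI f) = Idele.nm (algebraMap K L) f := by
      apply Subtype.ext
      funext q φ
      obtain ⟨ψ, rfl⟩ := exists_ext (L := L) φ
      have e1 : (Idele.nm (algebraMap K L) (k.sI f)).1 q = nmq (algebraMap K L) q ((k.sI f).1 q) := rfl
      have e2 : (Idele.nm (algebraMap K L) f).1 q = nmq (algebraMap K L) q (f.1 q) := rfl
      rw [e1, e2, k.nmq_eq, k.nmq_eq]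
      have e3 : ∀ i ∈ range p, (k.sI f).1 q (k.sh i ψ) = f.1 q (k.sh (i + 1) ψ) := by
        intro i _
        rw [k.sI_apply, ← k.sh_add]
      rw [prod_congr rfl e3]
      have h2 := prod_range_succ' (fun i => f.1 q (k.sh i ψ)) p
      have h3 := prod_range_succ (fun i => f.1 q (k.sh i ψ)) p
      rw [h3, k.sh_p, k.sh_zero] at h2
      exact (mul_right_cancel h2).symm
    have hN : princ K (Units.map (Algebra.norm K : L →* K) y) * Idele.nm (algebraMap K L) u = 1 := by
      rw [← Idele.nm_princ, ← map_mul, hyu, map_mul, map_inv, hnσ, inv_mul_cancel]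
    set q₀ : Nat.Primes := ⟨p, hp.out⟩ with hq₀
    obtain ⟨ψ₀⟩ : Nonempty (Emb L q₀) := ⟨(IsAlgClosed.lift : L →ₐ[ℚ] Cq q₀).toRingHom⟩
    have hNy : Algebra.norm K (y : L) = 1 := by
      have h2 := congrArg (fun g : Idele K => (g.1 q₀ (ψ₀.comp (algebraMap K L)) : Cq q₀)) hN
      have h3 : ((princ K (Units.map (Algebra.norm K : L →* K) y) * Idele.nm (algebraMap K L) u :
          Idele K).1 q₀ (ψ₀.comp (algebraMap K L)) : Cq q₀) =
          (ψ₀.comp (algebraMap K L)) (Algebra.norm K (y : L)) *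
          (nmq (algebraMap K L) q₀ (u.1 q₀) (ψ₀.comp (algebraMap K L)) : Cq q₀) := rfl
      have h5 := h3.symm.trans h2
      rw [hu.1 q₀ hpS, map_one] at h5
      have h4 : (ψ₀.comp (algebraMap K L)) (Algebra.norm K (y : L)) =
          (ψ₀.comp (algebraMap K L)) 1 := by
        rw [map_one]; simpa using h5
      exact (ψ₀.comp (algebraMap K L)).injective h4
    obtain ⟨z, hz⟩ := k.exists_h90 (y := y) (by rw [← k.norm_eq, hNy, map_one])
    have hNu : Idele.nm (algebraMap K L) u = 1 := by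
      have h2 : Units.map (Algebra.norm K : L →* K) y = 1 := Units.ext hNy
      rw [h2, map_one, one_mul] at hN
      exact hN
    obtain ⟨w, hw, huw⟩ := k.exists_US S hpS ha hu hNu
    -- `f * z / w` is invariant
    set g : Idele L := f * princ L z / w with hg
    have hinv : k.sI g = g := by
      have h2 : k.sI f = f * (princ L y * u) := by rw [hyu, mul_inv_cancel_left]
      have h3 : princ L y * k.sI (princ L z) = princ L z := by
        rw [k.sI_princ, ← map_mul, hz]
      have h5 : (princ L y)⁻¹ * princ L z = k.sI (princ L z) := by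
        rw [inv_mul_eq_iff_eq_mul, h3]
      rw [hg, map_div, map_mul, h2, ← huw, ← h5]
      apply Additive.ofMul.injective
      simp only [ofMul_mul, ofMul_inv, ofMul_div]
      abel
    have hinv' : ∀ τ : L ≃ₐ[K] L, (τ : L ≃+* L) • g = g := by
      intro τ
      obtain ⟨i, _, rfl⟩ := k.exists_pow τ
      have h2 : (((k.σ ^ i : L ≃ₐ[K] L) : L ≃+* L)) • g = k.sI^[i] g := by
        apply Subtype.ext
        funext q ψ
        rw [k.sI_iterate]; rfl
      rw [h2]
      exact Function.iterate_fixed hinv i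
    obtain ⟨f', hf'⟩ := Idele.exists_map_eq (K := K) hinv'
    refine ⟨QuotientGroup.mk f', ?_⟩
    rw [ιC_mk, hf', QuotientGroup.eq]
    rw [hg]
    have h8 : (f * princ L z / w)⁻¹ * f = princ L z⁻¹ * w := by
      rw [map_inv]
      apply Additive.ofMul.injective
      simp only [ofMul_mul, ofMul_inv, ofMul_div]
      abel
    rw [h8]
    exact Subgroup.mul_mem_sup ⟨_, rfl⟩ hw
  · rintro ⟨b, rfl⟩
    obtain ⟨f, rfl⟩ := QuotientGroup.mk_surjective b
    rw [ιC_mk, k.sC_mk]
    congr 1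
    apply Subtype.ext
    funext q ψ
    rw [k.sI_apply]
    show f.1 q ((k.sh 1 ψ).comp (algebraMap K L)) = f.1 q (ψ.comp (algebraMap K L))
    rw [k.sh_comp]

end main

/-- the index of `p`-th powers in the `S`-idele class group is as expected -/
def GoodCS (p : ℕ) (F : Type*) [Field F] [NumberField F] (S : Finset Nat.Primes) : Prop :=
  Nat.card (powMonoidHom p : CS F S →* CS F S).ker ≠ 0 ∧
    (powMonoidHom p : CS F S →* CS F S).range.index =
      p ^ (Module.finrank ℚ F / 2 + 1) * Nat.card (powMonoidHom p : CS F S →* CS F S).ker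

lemma goodCS {F : Type*} [Field F] [NumberField F] (htc : NumberField.IsTotallyComplex F)
    (hpS : (⟨p, hp.out⟩ : Nat.Primes) ∈ S) : GoodCS p F S := by
  have h := index_pow_CS_tc S p htc ⟨_, hpS, rfl⟩
  exact ⟨h.2, h.1⟩

/-- **First inequality**, precise form. -/
theorem Kum.index_nC (htc : NumberField.IsTotallyComplex K) (hpS : (⟨p, hp.out⟩ : Nat.Primes) ∈ S)
    (ha : ∀ q ∉ S, ∀ φ : Emb K q, ‖φ (k.a : K)‖ = 1) :
    (nC K L S).range.index =
      p * (MonoidHom.id (CS L S) / k.sC S).range.relIndex (nC K L S).ker := by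
  haveI := k.finite
  have htcL : NumberField.IsTotallyComplex L := NumberField.isTotallyComplex_of_algebra K L
  have hK : GoodCS p K S := goodCS S htc hpS
  have hL : GoodCS p L S := goodCS S htcL hpS
  have key := tate_mul (p := p) (k.sC S) (k.sC_iterate_p S) (ιC K L S) (k.ιC_injective S hpS)
    (k.sC_eq_iff S hpS ha) (nC K L S) (k.ιC_nC S) hL.1 (by
      rw [hK.2]
      exact mul_ne_zero (pow_ne_zero _ hp.out.ne_zero) hK.1)
  have hn2 : 2 * (Module.finrank ℚ K / 2) = Module.finrank ℚ K :=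
    (CFT6.rank_tc htc).2
  have hfL : Module.finrank ℚ L = Module.finrank ℚ K * p := by
    rw [← k.hfin, Module.finrank_mul_finrank]
  set n2 := Module.finrank ℚ K / 2 with hn2def
  have hfL2 : Module.finrank ℚ L / 2 = n2 * p := by
    rw [hfL, ← hn2, mul_assoc, Nat.mul_div_cancel_left _ two_pos]
  rw [hL.2, hK.2, hfL2] at key
  set X := (nC K L S).range.index
  set h := (MonoidHom.id (CS L S) / k.sC S).range.relIndex (nC K L S).ker
  set kA := Nat.card (powMonoidHom p : CS L S →* CS L S).ker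
  set kB := Nat.card (powMonoidHom p : CS K S →* CS K S).ker
  obtain ⟨m, hm⟩ : ∃ m, p = m + 1 := ⟨p - 1, (Nat.sub_add_cancel hp.out.pos).symm⟩
  have hm1 : p - 1 = m := by omega
  have hm0 : m ≠ 0 := by have := hp.out.two_le; omega
  rw [hm1] at key
  have e1 : (p ^ (n2 + 1) * kB) ^ p = p ^ (n2 * p) * p ^ m * p * kB ^ p := by
    rw [mul_pow, ← pow_mul, add_mul, pow_add, one_mul]
    congr 1
    rw [mul_assoc, ← pow_succ, ← hm]
  rw [e1] at key
  have hpos : 0 < kA * kB ^ p * (p ^ (n2 * p) * p) := by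
    have h1 : 0 < kA := Nat.pos_of_ne_zero hL.1
    have h2 : 0 < kB := Nat.pos_of_ne_zero hK.1
    have h3 := hp.out.pos
    positivity
  have e2 : kA * kB ^ p * (p ^ (n2 * p) * p) * X ^ m = kA * kB ^ p * (p ^ (n2 * p) * p) * (p * h) ^ m := by
    rw [mul_pow]
    calc kA * kB ^ p * (p ^ (n2 * p) * p) * X ^ m = p ^ (n2 * p + 1) * kA * kB ^ p * X ^ m := by
          rw [pow_succ]; ring
      _ = kA * (p ^ (n2 * p) * p ^ m * p * kB ^ p) * h ^ m := key
      _ = _ := by ring
  have e3 := Nat.eq_of_mul_eq_mul_left hpos e2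
  exact Nat.pow_left_injective hm0 e3

section index

variable (htc : NumberField.IsTotallyComplex K) (hpS : (⟨p, hp.out⟩ : Nat.Primes) ∈ S)
  (ha : ∀ q ∉ S, ∀ φ : Emb K q, ‖φ (k.a : K)‖ = 1)

include k hpS ha in
/-- ideles which are trivial at `S` and units outside `S` are norms -/
lemma Kum.US_le : US K S ≤ (Idele.nm (algebraMap K L)).range := by
  intro f hf
  have h1 : ∀ q ∉ S, ∀ φ : Emb K q, LocUNm (algebraMap K L) q φ (f.1 q φ) := by
    intro q hq φ
    refine k.locUNm_unit' (ne_p hpS hq) (c := 1) (fun τ _ => by simp) ?_ (Fx_of_mem (f.2.1 q) φ)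
      ((hf.2 q hq).2 φ)
    rw [Units.val_one, norm_one, one_pow]
    exact ha q hq φ
  refine mem_range_nm f (fun q φ => ?_) ⟨S, h1⟩
  by_cases hq : q ∈ S
  · have : f.1 q φ = 1 := congrFun (hf.1 q hq) φ
    rw [show (f : ∀ q : Nat.Primes, Emb K q → (Cq q)ˣ) q φ = 1 from this]
    exact LocUNm.one.locNm
  · exact (h1 q hq φ).locNm

include k hpS ha in
lemma Kum.index_eq : ((princ K).range ⊔ (Idele.nm (algebraMap K L)).range).index =
    (nC K L S).range.index := by
  have h1 : (nC K L S).range.comap (QuotientGroup.mk' (CSker K S)) =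
      (princ K).range ⊔ (Idele.nm (algebraMap K L)).range := by
    ext f
    rw [Subgroup.mem_comap]
    constructor
    · rintro ⟨a, ha'⟩
      obtain ⟨g, rfl⟩ := QuotientGroup.mk_surjective a
      rw [nC_mk] at ha'
      have h2 := QuotientGroup.eq.1 ha'
      have h3 : (CSker K S) ≤ (princ K).range ⊔ (Idele.nm (algebraMap K L)).range :=
        sup_le_sup_left (k.US_le S hpS ha) _
      have h4 : f = Idele.nm (algebraMap K L) g * ((Idele.nm (algebraMap K L) g)⁻¹ * f) := by
        rw [mul_inv_cancel_left]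
      rw [h4]
      exact mul_mem (Subgroup.mem_sup_right ⟨g, rfl⟩) (h3 h2)
    · intro hf
      obtain ⟨_, ⟨y, rfl⟩, _, ⟨g, rfl⟩, rfl⟩ := Subgroup.mem_sup.1 hf
      refine ⟨QuotientGroup.mk g, ?_⟩
      rw [nC_mk]
      show (QuotientGroup.mk _ : CS K S) = QuotientGroup.mk (princ K y * Idele.nm (algebraMap K L) g)
      rw [QuotientGroup.eq]
      have h5 : (Idele.nm (algebraMap K L) g)⁻¹ * (princ K y * Idele.nm (algebraMap K L) g) =
          princ K y := by
        rw [mul_comm (princ K y), inv_mul_cancel_left]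
      rw [h5]
      exact Subgroup.mem_sup_left ⟨y, rfl⟩
  rw [← h1, Subgroup.index_comap_of_surjective _ (QuotientGroup.mk'_surjective _)]

include k htc hpS ha in
/-- **First inequality**: there are ideles which are not in `Kˣ N J_L`. -/
theorem Kum.sup_ne_top :
    (princ K).range ⊔ (Idele.nm (algebraMap K L)).range ≠ ⊤ := by
  intro h
  have h1 := k.index_eq S hpS ha
  rw [h, Subgroup.index_top, k.index_nC S htc hpS ha] at h1
  have h2 : p ∣ 1 := ⟨_, h1⟩
  exact hp.out.one_lt.ne' (Nat.dvd_one.1 h2)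

end index

end Fermat.Agent.CFT
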