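import Mathlib
import Fermat.Agent.CFT.FI

/-!
# Existence of non-split places
-/

set_option autoImplicit false
set_option linter.style.haveILetI false
set_option linter.unusedSectionVars false

open Finset Fermat.Agent.CFT6

namespace Fermat.Agent.CFT

universe u v

/-- the image of a unit under an embedding -/
noncomputable def em {K : Type*} [Field K] {q : Nat.Primes} (φ : Emb K q) : Kˣ →* (Cq q)ˣ :=
  Units.map (φ : K →* Cq q)

@[simp] lemma em_coe {K : Type*} [Field K] {q : Nat.Primes} (φ : Emb K q) (x : Kˣ) :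
    (em φ x : Cq q) = φ (x : K) := rfl

section Pw

variable {K : Type*} [Field K] {q : Nat.Primes}

/-- local `p`-th powers at `φ` -/
def Pw (p : ℕ) (φ : Emb K q) (u : (Cq q)ˣ) : Prop := ∃ c : (Cq q)ˣ, Fx φ c ∧ c ^ p = u

variable {p : ℕ} {φ : Emb K q}

lemma Pw.mul {u w : (Cq q)ˣ} (hu : Pw p φ u) (hw : Pw p φ w) : Pw p φ (u * w) := by
  obtain ⟨c, hc, rfl⟩ := hu
  obtain ⟨d, hd, rfl⟩ := hw
  exact ⟨c * d, hc.mul hd, mul_pow _ _ _⟩

lemma Pw.inv {u : (Cq q)ˣ} (hu : Pw p φ u) : Pw p φ u⁻¹ := by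
  obtain ⟨c, hc, rfl⟩ := hu
  exact ⟨c⁻¹, hc.inv, inv_pow _ _⟩

lemma Pw.div {u w : (Cq q)ˣ} (hu : Pw p φ u) (hw : Pw p φ w) : Pw p φ (u / w) := by
  rw [div_eq_mul_inv]; exact hu.mul hw.inv

lemma Pw.one : Pw p φ 1 := ⟨1, fun τ _ => by simp, one_pow _⟩

lemma Pw.pow {u : (Cq q)ˣ} (hu : Pw p φ u) (i : ℕ) : Pw p φ (u ^ i) := by
  obtain ⟨c, hc, rfl⟩ := hu
  exact ⟨c ^ i, hc.pow i, by rw [← pow_mul, ← pow_mul, mul_comm]⟩

lemma Pw.of_pow {c : (Cq q)ˣ} (hc : Fx φ c) : Pw p φ (c ^ p) := ⟨c, hc, rfl⟩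

lemma Fx.smul {u : (Cq q)ˣ} (hu : Fx φ u) (τ : Gq q) : Fx (τ • φ) (τ • u) := by
  intro ρ hρ
  have h1 : (τ⁻¹ * ρ * τ) • φ = φ := by
    rw [mul_smul, mul_smul, hρ, inv_smul_smul]
  have h2 : (τ⁻¹ * ρ * τ) • u = u := Units.ext (hu _ h1)
  rw [mul_smul, mul_smul, inv_smul_eq_iff] at h2
  exact congrArg (fun z : (Cq q)ˣ => (z : Cq q)) h2

lemma Pw.smul {u : (Cq q)ˣ} (hu : Pw p φ u) (τ : Gq q) : Pw p (τ • φ) (τ • u) := by
  obtain ⟨c, hc, rfl⟩ := hu
  refine ⟨τ • c, hc.smul τ, ?_⟩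
  apply Units.ext
  rw [Units.val_pow_eq_pow_val, smul_units_coe, smul_units_coe, Units.val_pow_eq_pow_val, map_pow]

lemma smul_em (τ : Gq q) (φ : Emb K q) (x : Kˣ) : τ • em φ x = em (τ • φ) x := Units.ext rfl

lemma Pw.smul_em {x : Kˣ} (hx : Pw p φ (em φ x)) (τ : Gq q) : Pw p (τ • φ) (em (τ • φ) x) := by
  rw [← CFT.smul_em]; exact hx.smul τ

lemma Fx.of_comp {L : Type*} [Field L] {g : K →+* L} {ψ : Emb L q} {u : (Cq q)ˣ}
    (hu : Fx (ψ.comp g) u) : Fx ψ u := by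
  intro τ hτ
  apply hu
  rw [← smul_emb_comp, hτ]

lemma Pw.of_comp {L : Type*} [Field L] {g : K →+* L} {ψ : Emb L q} {u : (Cq q)ˣ}
    (hu : Pw p (ψ.comp g) u) : Pw p ψ u := by
  obtain ⟨c, hc, rfl⟩ := hu
  exact ⟨c, hc.of_comp, rfl⟩

end Pw

section nosplit

variable {p : ℕ} [hp : Fact p.Prime]

/-- the set of bad primes of an element -/
noncomputable def badS {K : Type*} [Field K] [NumberField K] (a : Kˣ) : Finset Nat.Primes :=
  (finite_setOf_norm_ne_one a).toFinset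

lemma norm_of_notMem_badS {K : Type*} [Field K] [NumberField K] {a : Kˣ} {q : Nat.Primes}
    (hq : q ∉ badS a) (φ : Emb K q) : ‖φ (a : K)‖ = 1 := by
  by_contra h
  exact hq (by rw [badS, Set.Finite.mem_toFinset]; exact ⟨φ, h⟩)

/-- the set of bad primes of an idele -/
noncomputable def badI {K : Type*} [Field K] (f : Idele K) : Finset Nat.Primes := f.2.2.toFinset

lemma norm_of_notMem_badI {K : Type*} [Field K] {f : Idele K} {q : Nat.Primes}
    (hq : q ∉ badI f) (φ : Emb K q) : ‖(f.1 q φ : Cq q)‖ = 1 := by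
  by_contra h
  exact hq (by rw [badI, Set.Finite.mem_toFinset]; exact ⟨φ, h⟩)

/-- not all places are split -/
theorem exists_nonsplit_tc {K : Type u} [Field K] [NumberField K] {ζ : K}
    (htc : NumberField.IsTotallyComplex K) (hζ : IsPrimitiveRoot ζ p) (a : Kˣ) (ha : ∀ c : K, c ^ p ≠ a) (S₀ : Finset Nat.Primes) :
    ∃ q ∉ S₀, ∃ φ : Emb K q, ¬ Pw p φ (em φ a) := by
  classical
  by_contra hcon
  push Not at hcon
  obtain ⟨L, _, _, _, _, k, hkζ, hka⟩ := exists_kum hζ a ha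
  set S : Finset Nat.Primes := insert ⟨p, hp.out⟩ (S₀ ∪ badS a) with hS
  have hpS : (⟨p, hp.out⟩ : Nat.Primes) ∈ S := mem_insert_self _ _
  have hS₀ : ∀ q ∉ S, q ∉ S₀ := fun q hq h => hq (mem_insert_of_mem (mem_union_left _ h))
  have haS : ∀ q ∉ S, ∀ φ : Emb K q, ‖φ (k.a : K)‖ = 1 := by
    intro q hq φ
    rw [hka]
    exact norm_of_notMem_badS (fun h => hq (mem_insert_of_mem (mem_union_right _ h))) φ
  apply k.sup_ne_top S htc hpS haS
  rw [eq_top_iff]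
  intro f _
  obtain ⟨x, hx⟩ := exists_princ_mul_pow p S f.1 (fun q _ => f.2.1 q)
  have h1 : f = princ K x * (f / princ K x) := by rw [mul_div_cancel]
  rw [h1]
  refine Subgroup.mul_mem_sup ⟨x, rfl⟩ ?_
  have hsplit : ∀ q ∉ S, ∀ φ : Emb K q, ∃ c : (Cq q)ˣ, Fx φ c ∧ c ^ p = k.aq φ := by
    intro q hq φ
    have h2 := hcon q (hS₀ q hq) φ
    rw [← hka] at h2
    exact h2
  refine mem_range_nm _ (fun q φ => ?_) ⟨S ∪ badI (f / princ K x), fun q hq φ => ?_⟩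
  · by_cases hq : q ∈ S
    · obtain ⟨g, hg, hgf⟩ := hx q hq
      have h3 : ((f / princ K x : Idele K) : ∀ q : Nat.Primes, Emb K q → (Cq q)ˣ) q φ = g φ ^ p := by
        have h4 : ((f / princ K x : Idele K) : ∀ q : Nat.Primes, Emb K q → (Cq q)ˣ) q φ =
            f.1 q φ / (princ K x).1 q φ := rfl
        rw [h4, div_eq_iff_eq_mul]
        apply Units.ext
        rw [hgf φ, Units.val_mul, Units.val_pow_eq_pow_val, mul_comm]
        rfl
      rw [h3]
      exact k.locNm_pow (Fx_of_mem hg.1 φ)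
    · obtain ⟨c, hc, hcp⟩ := hsplit q hq φ
      exact k.locNm_of_split hc hcp (Fx_of_mem ((f / princ K x).2.1 q) φ)
  · rw [mem_union, not_or] at hq
    obtain ⟨c, hc, hcp⟩ := hsplit q hq.1 φ
    exact k.locUNm_of_split hc hcp (Fx_of_mem ((f / princ K x).2.1 q) φ) (norm_of_notMem_badI hq.2 φ)

/-- not all places are split -/
theorem exists_nonsplit {K : Type u} [Field K] [NumberField K] {ζ : K} (hp2 : p ≠ 2)
    (hζ : IsPrimitiveRoot ζ p) (a : Kˣ) (ha : ∀ c : K, c ^ p ≠ a) (S₀ : Finset Nat.Primes) :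
    ∃ q ∉ S₀, ∃ φ : Emb K q, ¬ Pw p φ (em φ a) :=
  exists_nonsplit_tc (CFT6.tc_of_primitiveRoot hp2 hζ) hζ a ha S₀

end nosplit

section kummer

variable {p : ℕ} [hp : Fact p.Prime] {K : Type u} {L : Type v} [Field K] [Field L] [Algebra K L]
  [NumberField K] [NumberField L] [IsGalois K L] (k : Kum p K L)

/-- elements of `K` becoming `p`-th powers in `L`. -/
theorem Kum.exists_eq_of_pow {b : Kˣ} {y : L} (hy : y ^ p = algebraMap K L b) :
    ∃ (i : ℕ) (x : Kˣ), b = k.a ^ i * x ^ p := by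
  have hy0 : y ≠ 0 := by
    rintro rfl
    rw [zero_pow hp.out.ne_zero] at hy
    exact b.ne_zero ((map_eq_zero _).1 hy.symm)
  have h1 : (k.σ y / y) ^ p = 1 := by
    rw [div_pow, ← map_pow, hy, AlgEquiv.commutes, div_self]
    rw [← hy]; exact pow_ne_zero _ hy0
  obtain ⟨i, _, hi⟩ := k.hζL.eq_pow_of_pow_eq_one h1
  have h2 : k.σ y = algebraMap K L k.ζ ^ i * y := by rw [hi]; field_simp
  have hα0 : (k.α : L) ≠ 0 := k.α.ne_zero
  have h3 : k.σ (y / (k.α : L) ^ i) = y / (k.α : L) ^ i := by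
    rw [map_div₀, map_pow, h2, k.hσ, mul_pow]
    have : (algebraMap K L k.ζ) ^ i ≠ 0 := pow_ne_zero _ (k.hζL.ne_zero hp.out.ne_zero)
    field_simp
  obtain ⟨x, hx⟩ := k.exists_algebraMap_eq h3
  have hx0 : x ≠ 0 := by
    rintro rfl
    rw [map_zero] at hx
    exact div_ne_zero hy0 (pow_ne_zero _ hα0) hx.symm
  refine ⟨i, Units.mk0 x hx0, Units.ext ?_⟩
  apply (algebraMap K L).injective
  rw [Units.val_mul, Units.val_pow_eq_pow_val, Units.val_pow_eq_pow_val, map_mul, map_pow, map_pow,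
    Units.val_mk0, hx, div_pow, ← k.hα, hy]
  rw [← pow_mul, ← pow_mul, mul_comm i p]
  field_simp

end kummer

end Fermat.Agent.CFT
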