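import Mathlib
import Fermat.Agent.CFT.NoSplit
import Fermat.Agent.CFT6.XIndex

/-!
# The second inequality
-/

set_option autoImplicit false
set_option linter.style.haveILetI false
set_option linter.unusedSectionVars false

open Finset Fermat.Agent.CFT6 IsDedekindDomain
open NumberField hiding place

namespace Fermat.Agent.CFT

universe u v

section group

/-- index bound for a cyclic quotient -/
lemma relIndex_dvd_of_cyclic {A : Type*} [CommGroup A] {H G : Subgroup A} {p : ℕ} {b : A}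
    (hb : b ∈ G) (hbp : b ^ p ∈ H) (h : ∀ x ∈ G, ∃ i : ℕ, x / b ^ i ∈ H) : H.relIndex G ∣ p := by
  let Q := G ⧸ H.subgroupOf G
  let b' : Q := QuotientGroup.mk ⟨b, hb⟩
  have h1 : ∀ y : Q, y ∈ Subgroup.zpowers b' := by
    intro y
    obtain ⟨⟨x, hx⟩, rfl⟩ := QuotientGroup.mk_surjective y
    obtain ⟨i, hi⟩ := h x hx
    refine ⟨i, ?_⟩
    show b' ^ (i : ℤ) = _
    rw [zpow_natCast]
    show (QuotientGroup.mk ((⟨b, hb⟩ : G) ^ i) : Q) = _
    rw [QuotientGroup.eq]
    show ((⟨b, hb⟩ : G) ^ i)⁻¹ * ⟨x, hx⟩ ∈ H.subgroupOf G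
    rw [Subgroup.mem_subgroupOf]
    show (b ^ i)⁻¹ * x ∈ H
    rw [inv_mul_eq_div]; exact hi
  have h2 : H.relIndex G = orderOf b' := by
    have h3 : Nat.card Q = orderOf b' := (orderOf_eq_card_of_forall_mem_zpowers h1).symm
    exact h3
  rw [h2]
  apply orderOf_dvd_of_pow_eq_one
  show (QuotientGroup.mk ((⟨b, hb⟩ : G) ^ p) : Q) = 1
  rw [QuotientGroup.eq_one_iff, Subgroup.mem_subgroupOf]
  exact hbp

end group

section T

variable {p : ℕ} [hp : Fact p.Prime] {K : Type u} [Field K] [NumberField K]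

/-- elements of `E_S` which are local `p`-th powers at `T` -/
noncomputable def WT (p : ℕ) (S : Finset Nat.Primes) (T : Finset (HeightOneSpectrum (𝓞 K))) :
    Subgroup Kˣ where
  carrier := {x | x ∈ SUnits K S ∧ ∀ (q : Nat.Primes) (φ : Emb K q), place φ ∈ T → Pw p φ (em φ x)}
  mul_mem' := by
    rintro a b ⟨ha, ha'⟩ ⟨hb, hb'⟩
    refine ⟨mul_mem ha hb, fun q φ hφ => ?_⟩
    rw [map_mul]; exact (ha' q φ hφ).mul (hb' q φ hφ)
  one_mem' := ⟨one_mem _, fun q φ _ => by rw [map_one]; exact Pw.one⟩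
  inv_mem' := by
    rintro a ⟨ha, ha'⟩
    refine ⟨inv_mem ha, fun q φ hφ => ?_⟩
    rw [map_inv]; exact (ha' q φ hφ).inv

lemma mem_WT {S : Finset Nat.Primes} {T : Finset (HeightOneSpectrum (𝓞 K))} {x : Kˣ} :
    x ∈ WT p S T ↔ x ∈ SUnits K S ∧
      ∀ (q : Nat.Primes) (φ : Emb K q), place φ ∈ T → Pw p φ (em φ x) := Iff.rfl

/-- places determine embeddings up to conjugation. -/
lemma exists_smul_of_place_eq {q q' : Nat.Primes} {φ : Emb K q} {φ' : Emb K q'}
    (h : place φ = place φ') : ∃ hq : q = q', ∃ τ : Gq q', φ' = τ • (hq ▸ φ) := by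
  have hq : q = q' := prime_unique (q_mem_place φ) (by rw [h]; exact q_mem_place φ')
  subst hq
  obtain ⟨τ, hτ⟩ := place_eq_iff.1 h
  exact ⟨rfl, τ, RingHom.ext fun x => (hτ x).symm⟩

/-- a property of embeddings stable under conjugation only depends on the place -/
lemma forall_of_place_eq {q : Nat.Primes} {φ : Emb K q}
    (P : ∀ q : Nat.Primes, Emb K q → Prop) (hP : ∀ q (φ : Emb K q) (τ : Gq q), P q φ → P q (τ • φ))
    (h : P q φ) {q' : Nat.Primes} {φ' : Emb K q'} (hφ : place φ = place φ') : P q' φ' := by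
  obtain ⟨rfl, τ, rfl⟩ := exists_smul_of_place_eq hφ
  exact hP _ _ _ h

/-- the sets of auxiliary places -/
structure GoodT (p : ℕ) (S : Finset Nat.Primes) (a : Kˣ) (T : Finset (HeightOneSpectrum (𝓞 K))) :
    Prop where
  notMem : ∀ v ∈ T, v ∉ above K S
  split : ∀ (q : Nat.Primes) (φ : Emb K q), place φ ∈ T → Pw p φ (em φ a)
  surj : ∀ u : Idele K, (∀ (q : Nat.Primes) (φ : Emb K q), place φ ∈ T → ‖(u.1 q φ : Cq q)‖ = 1) →
    ∃ e ∈ SUnits K S, ∀ (q : Nat.Primes) (φ : Emb K q), place φ ∈ T → Pw p φ (u.1 q φ / em φ e)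
  index : (WT p S T).relIndex (SUnits K S) ∣ p ^ T.card

variable {S : Finset Nat.Primes}

lemma place_notMem_above {q : Nat.Primes} (hq : q ∉ S) (φ : Emb K q) : place φ ∉ above K S := by
  rintro ⟨r, hr, hr'⟩
  have := prime_unique (q_mem_place φ) hr'
  exact hq (this ▸ hr)

lemma notMem_of_place {v : HeightOneSpectrum (𝓞 K)} (hv : v ∉ above K S) {q : Nat.Primes}
    {φ : Emb K q} (h : place φ = v) : q ∉ S := by
  intro hq
  apply hv
  rw [← h]
  exact ⟨q, hq, q_mem_place φ⟩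

lemma goodT_empty (a : Kˣ) : GoodT p S a ∅ where
  notMem := by simp
  split := by simp
  surj := fun u _ => ⟨1, one_mem _, by simp⟩
  index := by
    have : WT (K := K) p S ∅ = SUnits K S := by
      ext x; rw [mem_WT]; simp
    rw [this, Subgroup.relIndex_self]; exact one_dvd _

open Classical in
/-- adding a place to `T` -/
lemma GoodT.addPlace {a : Kˣ} {T : Finset (HeightOneSpectrum (𝓞 K))} (hT : GoodT p S a T)
    (hpS : (⟨p, hp.out⟩ : Nat.Primes) ∈ S)
    {q : Nat.Primes} (hq : q ∉ S) (φ : Emb K q) (hφT : place φ ∉ T) (hφa : Pw p φ (em φ a))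
    {b : Kˣ} (hb : b ∈ WT p S T) (hφb : ¬ Pw p φ (em φ b)) : GoodT p S a (insert (place φ) T) := by
  have hqp : (q : ℕ) ≠ p := ne_p hpS hq
  have hb1 : ‖(em φ b : Cq q)‖ = 1 := hb.1 q hq φ
  -- local generation
  have hgen : ∀ u : (Cq q)ˣ, Fx φ u → ‖(u : Cq q)‖ = 1 → ∃ i : ℕ, Pw p φ (u / em φ b ^ i) := by
    intro u hu hu1
    rcases exists_pow_mul_of_unit hqp (Fx_emb b) hu hb1 hu1 with ⟨w, hw, _, hwp⟩ | ⟨i, w, hw, _, h⟩
    · exact absurd ⟨w, hw, hwp⟩ hφb
    · refine ⟨i, w, hw, ?_⟩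
      rw [h]
      exact (mul_div_cancel_left _ _).symm
  -- extension to other embeddings
  have hext : ∀ x : Kˣ, Pw p φ (em φ x) → ∀ (q' : Nat.Primes) (φ' : Emb K q'),
      place φ' = place φ → Pw p φ' (em φ' x) := by
    intro x hx q' φ' h'
    exact forall_of_place_eq (fun q φ => Pw p φ (em φ x)) (fun q φ τ h => h.smul_em τ) hx h'.symm
  refine ⟨?_, ?_, ?_, ?_⟩
  · intro v hv
    rcases mem_insert.1 hv with rfl | hv
    · exact place_notMem_above hq φ
    · exact hT.notMem v hv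
  · intro q' φ' h'
    rcases mem_insert.1 h' with h' | h'
    · exact hext a hφa q' φ' h'
    · exact hT.split q' φ' h'
  · intro u hu
    obtain ⟨e, he, heT⟩ := hT.surj u (fun q' φ' h' => hu q' φ' (mem_insert_of_mem h'))
    have h1 : ‖((u.1 q φ / em φ e : (Cq q)ˣ) : Cq q)‖ = 1 := by
      rw [Units.val_div_eq_div_val, norm_div, hu q φ (mem_insert_self _ _)]
      have : ‖(em φ e : Cq q)‖ = 1 := he q hq φ
      rw [this, div_one]
    obtain ⟨i, hi⟩ := hgen _ ((Fx_of_mem (u.2.1 q) φ).div (Fx_emb e)) h1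
    refine ⟨e * b ^ i, mul_mem he (pow_mem hb.1 i), fun q' φ' h' => ?_⟩
    rw [map_mul, map_pow, ← div_div]
    rcases mem_insert.1 h' with h' | h'
    · refine forall_of_place_eq (fun q φ => Pw p φ (u.1 q φ / em φ e / em φ b ^ i)) ?_ hi h'.symm
      intro q φ τ h2
      have h3 := h2.smul τ
      have h4 : τ • (u.1 q φ / em φ e / em φ b ^ i) =
          u.1 q (τ • φ) / em (τ • φ) e / em (τ • φ) b ^ i := by
        apply Units.ext
        simp only [smul_units_coe, Units.val_div_eq_div_val, Units.val_pow_eq_pow_val, map_div₀,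
          map_pow, em_coe, smul_emb_apply]
        rw [u.2.1 q τ φ]
      rw [h4] at h3
      exact h3
    · exact (heT q' φ' h').div ((hb.2 q' φ' h').pow i)
  · rw [card_insert_of_notMem hφT, pow_succ, mul_comm]
    have hle1 : WT p S (insert (place φ) T) ≤ WT p S T := by
      intro x hx
      exact ⟨hx.1, fun q' φ' h' => hx.2 q' φ' (mem_insert_of_mem h')⟩
    have hle2 : WT p S T ≤ SUnits K S := fun x hx => hx.1
    rw [← Subgroup.relIndex_mul_relIndex _ _ _ hle1 hle2]
    refine mul_dvd_mul (relIndex_dvd_of_cyclic hb ?_ ?_) hT.index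
    · refine ⟨pow_mem hb.1 p, fun q' φ' _ => ?_⟩
      rw [map_pow]; exact Pw.of_pow (Fx_emb b)
    · intro x hx
      obtain ⟨i, hi⟩ := hgen (em φ x) (Fx_emb x) (hx.1 q hq φ)
      refine ⟨i, div_mem hx.1 (pow_mem hb.1 i), fun q' φ' h' => ?_⟩
      rcases mem_insert.1 h' with h' | h'
      · refine hext (x / b ^ i) ?_ q' φ' h'
        rw [map_div, map_pow]; exact hi
      · rw [map_div, map_pow]
        exact (hx.2 q' φ' h').div ((hb.2 q' φ' h').pow i)

end T

section choose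

variable {p : ℕ} [hp : Fact p.Prime] {K : Type u} {L : Type v} [Field K] [Field L] [Algebra K L]
  [NumberField K] [NumberField L] [IsGalois K L] (k : Kum p K L) {S : Finset Nat.Primes}

include k in
/-- a further place exists as long as `b ∉ ⟨a⟩ E^p` -/
lemma Kum.exists_place (htc : IsTotallyComplex K) (hpS : (⟨p, hp.out⟩ : Nat.Primes) ∈ S)
    (ha : ∀ q ∉ S, ∀ φ : Emb K q, ‖φ (k.a : K)‖ = 1) {b : Kˣ} (hbS : b ∈ SUnits K S)
    (hb : ∀ (i : ℕ) (x : Kˣ), b ≠ k.a ^ i * x ^ p) (S₀ : Finset Nat.Primes) :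
    ∃ q ∉ S ∪ S₀, ∃ φ : Emb K q, Pw p φ (em φ k.a) ∧ ¬ Pw p φ (em φ b) := by
  classical
  have h1 : ∀ c : L, c ^ p ≠ ((Units.map (algebraMap K L : K →* L) b : Lˣ) : L) := by
    intro c hc
    obtain ⟨i, x, h⟩ := k.exists_eq_of_pow (b := b) hc
    exact hb i x h
  have htcL : IsTotallyComplex L := isTotallyComplex_of_algebra K L
  obtain ⟨q, hq, ψ, hψ⟩ := exists_nonsplit_tc htcL k.hζL _ h1 (S ∪ S₀)
  have hqS : q ∉ S := fun h => hq (mem_union_left _ h)
  have hqp : (q : ℕ) ≠ p := ne_p hpS hqS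
  set φ : Emb K q := ψ.comp (algebraMap K L) with hφ
  have hem : em ψ (Units.map (algebraMap K L : K →* L) b) = em φ b := Units.ext rfl
  rw [hem] at hψ
  have hφb : ¬ Pw p φ (em φ b) := fun h => hψ h.of_comp
  refine ⟨q, hq, φ, ?_, hφb⟩
  rcases exists_pow_mul_of_unit hqp (φ := φ) (Fx_emb k.a) (Fx_emb b) (ha q hqS φ) (hbS q hqS φ) with
    ⟨w, hw, _, hwp⟩ | ⟨i, w, hw, _, h⟩
  · exact ⟨w, hw, hwp⟩
  · exfalso
    apply hψ
    refine ⟨em ψ k.α ^ i * w, (Fx.pow (Fx_emb k.α) i).mul hw.of_comp, ?_⟩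
    have h2 : em ψ k.α ^ p = em φ k.a := by
      apply Units.ext
      rw [Units.val_pow_eq_pow_val, em_coe, ← map_pow, k.hα]
      rfl
    rw [mul_pow, ← pow_mul, mul_comm i p, pow_mul, h2]
    exact h.symm

end choose

section main

variable {p : ℕ} [hp : Fact p.Prime] {K : Type u} {L : Type v} [Field K] [Field L] [Algebra K L]
  [NumberField K] [NumberField L] [IsGalois K L] (k : Kum p K L) {S : Finset Nat.Primes}

/-- the dimension of the group of `S`-units modulo `p`-th powers -/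
noncomputable def sdim (K : Type*) [Field K] [NumberField K] (S : Finset Nat.Primes) : ℕ :=
  ∑ q ∈ S, Nat.card (Orb K q) + Module.finrank ℚ K / 2

include k in
/-- auxiliary sets of places of all sizes `< s` exist -/
lemma Kum.exists_goodT (htc : IsTotallyComplex K) (hpS : (⟨p, hp.out⟩ : Nat.Primes) ∈ S)
    (ha : ∀ q ∉ S, ∀ φ : Emb K q, ‖φ (k.a : K)‖ = 1) (j : ℕ) (hj : j + 1 ≤ sdim K S) :
    ∃ T : Finset (HeightOneSpectrum (𝓞 K)), GoodT p S k.a T ∧ T.card = j := by
  classical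
  induction j with
  | zero => exact ⟨∅, goodT_empty _, rfl⟩
  | succ j ih =>
    obtain ⟨T, hT, hTc⟩ := ih (by omega)
    -- find `b`
    obtain ⟨b, hbW, hb⟩ : ∃ b ∈ WT p S T, ∀ (i : ℕ) (x : Kˣ), b ≠ k.a ^ i * x ^ p := by
      by_contra hcon
      push Not at hcon
      set E := SUnits K S with hE
      set Ep : Subgroup Kˣ := (powMonoidHom p : E →* E).range.map E.subtype with hEp
      have haE : k.a ∈ E := ha
      have hEpmem : ∀ x ∈ E, x ^ p ∈ Ep := fun x hx => ⟨⟨x, hx⟩ ^ p, ⟨⟨x, hx⟩, rfl⟩, rfl⟩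
      have hEple : Ep ≤ E := by
        rintro _ ⟨x, _, rfl⟩; exact x.2
      set A : Subgroup Kˣ := Ep ⊔ Subgroup.zpowers k.a with hA
      have hAE : A ≤ E := sup_le hEple (by rw [Subgroup.zpowers_le]; exact haE)
      have hWA : WT p S T ≤ A := by
        intro b hb
        obtain ⟨i, x, h⟩ := hcon b hb
        have hx : x ∈ E := by
          intro q hq φ
          have h1 := hb.1 q hq φ
          have h2 : ‖φ (b : K)‖ = ‖φ (k.a : K)‖ ^ i * ‖φ (x : K)‖ ^ p := by
            rw [h, Units.val_mul, Units.val_pow_eq_pow_val, Units.val_pow_eq_pow_val, map_mul, map_pow,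
              map_pow, norm_mul, norm_pow, norm_pow]
          rw [h2, ha q hq φ, one_pow, one_mul] at h1
          exact (pow_eq_one_iff_of_nonneg (norm_nonneg _) hp.out.ne_zero).1 h1
        rw [h, mul_comm]
        exact Subgroup.mul_mem_sup (hEpmem x hx) (Subgroup.npow_mem_zpowers _ _)
      have h1 : A.relIndex E ∣ p ^ j :=
        (Subgroup.relIndex_dvd_of_le_left E hWA).trans (hTc ▸ hT.index)
      have h2 : Ep.relIndex E = p ^ sdim K S := by
        have h3 := index_pow_SUnits_tc p htc k.hζ S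
        have h4 : Ep.relIndex E = (powMonoidHom p : E →* E).range.index := by
          have h5 := Subgroup.relIndex_map_map_of_injective (powMonoidHom p : E →* E).range ⊤
            E.subtype_injective
          rw [← MonoidHom.range_eq_map, Subgroup.range_subtype, Subgroup.relIndex_top_right] at h5
          exact h5
        rw [h4, h3]; rfl
      have h3 : Ep.relIndex A ∣ p := by
        refine relIndex_dvd_of_cyclic (b := k.a)
          (Subgroup.mem_sup_right (Subgroup.mem_zpowers _)) (hEpmem _ haE) ?_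
        intro x hx
        obtain ⟨y, hy, z, hz, rfl⟩ := Subgroup.mem_sup.1 hx
        obtain ⟨n, rfl⟩ := Subgroup.mem_zpowers_iff.1 hz
        -- reduce the exponent modulo `p`
        have hp0 : (p : ℤ) ≠ 0 := by exact_mod_cast hp.out.ne_zero
        obtain ⟨i, hi⟩ := Int.eq_ofNat_of_zero_le (Int.emod_nonneg n hp0)
        refine ⟨i, ?_⟩
        have h4 : y * k.a ^ n / k.a ^ i = y * (k.a ^ (n / p)) ^ p := by
          have h5 : n = i + p * (n / p) := by
            have := Int.emod_add_mul_ediv n p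
            rw [hi] at this; exact this.symm
          have h6 : k.a ^ n = k.a ^ i * (k.a ^ (n / p)) ^ p := by
            conv_lhs => rw [h5]
            rw [zpow_add, zpow_natCast, mul_comm (p : ℤ), zpow_mul, zpow_natCast]
          rw [h6, ← mul_assoc, mul_comm y, mul_assoc, mul_div_cancel_left]
        rw [h4]
        exact mul_mem hy (hEpmem _ (zpow_mem haE _))
      have h4 : Ep.relIndex A * A.relIndex E = Ep.relIndex E :=
        Subgroup.relIndex_mul_relIndex _ _ _ le_sup_left hAE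
      have h5 : p ^ sdim K S ∣ p ^ (j + 1) := by
        rw [← h2, ← h4, pow_succ, mul_comm]
        exact mul_dvd_mul h1 h3
      have h6 := (Nat.pow_dvd_pow_iff_le_right hp.out.one_lt).1 h5
      omega
    -- primes below `T`
    choose r hr using fun v : HeightOneSpectrum (𝓞 K) => exists_prime_mem v
    obtain ⟨q, hq, φ, hφa, hφb⟩ := k.exists_place htc hpS ha hbW.1 hb (T.image r)
    rw [mem_union, not_or] at hq
    have hφT : place φ ∉ T := by
      intro h
      apply hq.2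
      rw [mem_image]
      exact ⟨_, h, prime_unique (hr _) (q_mem_place φ)⟩
    exact ⟨_, hT.addPlace hpS hq.1 φ hφT hφa hbW hφb, by rw [card_insert_of_notMem hφT, hTc]⟩

/-- injectivity needed for the index lemma -/
lemma GoodT.inj {ζ : K} (htc : IsTotallyComplex K) (hζ : IsPrimitiveRoot ζ p)
    (hpS : (⟨p, hp.out⟩ : Nat.Primes) ∈ S)
    (hgen : ∀ f : Idele K, ∃ x : Kˣ, ∀ q ∉ S, ∀ φ : Emb K q, ‖((f * princ K x).1 q φ : Cq q)‖ = 1)
    {a : Kˣ} {T : Finset (HeightOneSpectrum (𝓞 K))} (hT : GoodT p S a T)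
    (b : Kˣ) (hb : b ∈ ET S T) (hbS : ∀ q ∈ S, ∃ g ∈ Jq K q, g ^ p = (princ K b).1 q) :
    ∃ c : Kˣ, b = c ^ p := by
  classical
  by_contra hcon
  push Not at hcon
  have hb' : ∀ c : K, c ^ p ≠ b := by
    intro c hc
    have hc0 : c ≠ 0 := by
      rintro rfl
      rw [zero_pow hp.out.ne_zero] at hc
      exact b.ne_zero hc.symm
    exact hcon (Units.mk0 c hc0) (Units.ext hc.symm)
  obtain ⟨L', _, _, _, _, k', hkζ, hka⟩ := exists_kum hζ b hb'
  choose r hr using fun v : HeightOneSpectrum (𝓞 K) => exists_prime_mem v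
  set S₂ : Finset Nat.Primes := S ∪ badS b with hS₂
  have hpS₂ : (⟨p, hp.out⟩ : Nat.Primes) ∈ S₂ := mem_union_left _ hpS
  have hbS₂ : ∀ q ∉ S₂, ∀ φ : Emb K q, ‖φ (k'.a : K)‖ = 1 := by
    intro q hq φ
    rw [hka]
    exact norm_of_notMem_badS (fun h => hq (mem_union_right _ h)) φ
  apply k'.sup_ne_top S₂ htc hpS₂ hbS₂
  rw [eq_top_iff]
  intro f _
  obtain ⟨x, hx⟩ := hgen f
  obtain ⟨e, he, heT⟩ := hT.surj (f * princ K x) (fun q φ hφ => hx q
    (notMem_of_place (hT.notMem _ hφ) rfl) φ)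
  set f₂ : Idele K := f * princ K x / princ K e with hf₂
  have h1 : f = princ K (e / x) * f₂ := by
    rw [hf₂, map_div]
    apply Additive.ofMul.injective
    simp only [ofMul_mul, ofMul_div]
    abel
  rw [h1]
  refine Subgroup.mul_mem_sup ⟨_, rfl⟩ ?_
  have hf₂1 : ∀ q ∉ S, ∀ φ : Emb K q, ‖(f₂.1 q φ : Cq q)‖ = 1 := by
    intro q hq φ
    have h2 : f₂.1 q φ = (f * princ K x).1 q φ / em φ e := rfl
    rw [h2, Units.val_div_eq_div_val, norm_div, hx q hq φ]
    have h3 : ‖(em φ e : Cq q)‖ = 1 := he q hq φ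
    rw [h3, div_one]
  have hU : ∀ q ∉ S, ∀ φ : Emb K q, LocUNm (algebraMap K L') q φ (f₂.1 q φ) := by
    intro q hq φ
    by_cases hφ : place φ ∈ T
    · obtain ⟨c, hc, hcp⟩ := heT q φ hφ
      have h2 : f₂.1 q φ = c ^ p := hcp.symm
      have h3 := hf₂1 q hq φ
      rw [h2] at h3 ⊢
      rw [Units.val_pow_eq_pow_val, norm_pow] at h3
      exact k'.locUNm_pow hc ((pow_eq_one_iff_of_nonneg (norm_nonneg _) hp.out.ne_zero).1 h3)
    · refine k'.locUNm_unit' (ne_p hpS hq) (c := 1) (fun τ _ => by simp) ?_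
        (Fx_of_mem (f₂.2.1 q) φ) (hf₂1 q hq φ)
      rw [Units.val_one, norm_one, one_pow]
      have h2 : ‖φ (b : K)‖ = 1 := by
        rw [← valuation_eq_one_iff]
        exact hb (place φ) (mem_above_union hq hφ)
      have h3 : (k'.aq φ : Cq q) = φ (b : K) := by rw [← hka]; rfl
      rw [h3]; exact h2
  refine mem_range_nm f₂ (fun q φ => ?_) ⟨S, hU⟩
  by_cases hq : q ∈ S
  · obtain ⟨g, hg, hgb⟩ := hbS q hq
    have h2 : g φ ^ p = k'.aq φ := by
      have := congrFun hgb φ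
      have h3 : k'.aq φ = (princ K b).1 q φ := by rw [← hka]; rfl
      rw [h3]; exact this
    exact k'.locNm_of_split (Fx_of_mem hg φ) h2 (Fx_of_mem (f₂.2.1 q) φ)
  · exact (hU q hq φ).locNm

include k in
/-- **Second inequality** -/
theorem Kum.index_dvd (htc : IsTotallyComplex K) (hpS : (⟨p, hp.out⟩ : Nat.Primes) ∈ S)
    (ha : ∀ q ∉ S, ∀ φ : Emb K q, ‖φ (k.a : K)‖ = 1)
    (hgen : ∀ f : Idele K, ∃ x : Kˣ, ∀ q ∉ S, ∀ φ : Emb K q, ‖((f * princ K x).1 q φ : Cq q)‖ = 1) :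
    ((princ K).range ⊔ (Idele.nm (algebraMap K L)).range).index ∣ p := by
  classical
  have hs : 1 ≤ sdim K S := by
    unfold sdim
    have h1 : 0 < Nat.card (Orb K ⟨p, hp.out⟩) := by
      obtain ⟨φ⟩ : Nonempty (Emb K ⟨p, hp.out⟩) :=
        ⟨(IsAlgClosed.lift : K →ₐ[ℚ] Cq ⟨p, hp.out⟩).toRingHom⟩
      haveI : Nonempty (Orb K ⟨p, hp.out⟩) := ⟨Quotient.mk _ φ⟩
      exact Nat.card_pos
    have h2 : Nat.card (Orb K ⟨p, hp.out⟩) ≤ ∑ q ∈ S, Nat.card (Orb K q) :=
      single_le_sum (f := fun q => Nat.card (Orb K q)) (fun _ _ => Nat.zero_le _) hpS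
    omega
  obtain ⟨T, hT, hTc⟩ := k.exists_goodT htc hpS ha (sdim K S - 1) (by omega)
  have h1 := index_princ_sup_DT_tc p S T htc k.hζ ⟨_, hpS, rfl⟩ hgen hT.notMem
    (fun b hb hbS => hT.inj htc k.hζ hpS hgen b hb hbS)
  have h2 : ((princ K).range ⊔ DT p S T).index = p := by
    have h3 : ((princ K).range ⊔ DT p S T).index * p ^ (sdim K S + T.card) = p ^ (2 * sdim K S) := h1
    rw [hTc] at h3
    have h4 : 2 * sdim K S = 1 + (sdim K S + (sdim K S - 1)) := by omega
    rw [h4, pow_add p 1, pow_one] at h3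
    exact Nat.eq_of_mul_eq_mul_right (pow_pos hp.out.pos _) h3
  have h3 : DT p S T ≤ (Idele.nm (algebraMap K L)).range := by
    intro f hf
    refine mem_range_nm f (fun q φ => ?_) ⟨S ∪ badI f, fun q hq φ => ?_⟩
    · by_cases hq : q ∈ S
      · obtain ⟨g, hg, hgf⟩ := hf.1 q hq
        have h4 : (f : ∀ q : Nat.Primes, Emb K q → (Cq q)ˣ) q φ = g φ ^ p := (congrFun hgf φ).symm
        rw [h4]
        exact k.locNm_pow (Fx_of_mem hg φ)
      · by_cases hφ : place φ ∈ T
        · obtain ⟨c, hc, hcp⟩ := hT.split q φ hφ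
          exact k.locNm_of_split hc hcp (Fx_of_mem (f.2.1 q) φ)
        · refine (k.locUNm_unit' (ne_p hpS hq) (c := 1) (fun τ _ => by simp) ?_
            (Fx_of_mem (f.2.1 q) φ) (hf.2 q hq φ hφ)).locNm
          rw [Units.val_one, norm_one, one_pow]
          exact ha q hq φ
    · rw [mem_union, not_or] at hq
      refine k.locUNm_unit' (ne_p hpS hq.1) (c := 1) (fun τ _ => by simp) ?_
        (Fx_of_mem (f.2.1 q) φ) (norm_of_notMem_badI hq.2 φ)
      rw [Units.val_one, norm_one, one_pow]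
      exact ha q hq.1 φ
  have h4 : (princ K).range ⊔ DT p S T ≤ (princ K).range ⊔ (Idele.nm (algebraMap K L)).range :=
    sup_le_sup_left h3 _
  have h5 := Subgroup.index_dvd_of_le h4
  rwa [h2] at h5

end main

end Fermat.Agent.CFT
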