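import Mathlib
import Fermat.Agent.CFT.SI

/-!
# The Hasse norm theorem for cyclic extensions of prime degree
-/

set_option autoImplicit false
set_option linter.style.haveILetI false
set_option linter.unusedSectionVars false

open Finset Fermat.Agent.CFT6 IsDedekindDomain
open NumberField hiding place

namespace Fermat.Agent.CFT

universe u v

variable {p : ℕ} [hp : Fact p.Prime] {K : Type u} {L : Type v} [Field K] [Field L] [Algebra K L]
  [NumberField K] [NumberField L] [IsGalois K L] (k : Kum p K L)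

/-- `Ĥ⁻¹` of the class group vanishes, and the norm index is `p`. -/
theorem Kum.index_eq_p (htc : IsTotallyComplex K) {S : Finset Nat.Primes}
    (hpS : (⟨p, hp.out⟩ : Nat.Primes) ∈ S)
    (ha : ∀ q ∉ S, ∀ φ : Emb K q, ‖φ (k.a : K)‖ = 1)
    (hgen : ∀ f : Idele K, ∃ x : Kˣ, ∀ q ∉ S, ∀ φ : Emb K q, ‖((f * princ K x).1 q φ : Cq q)‖ = 1) :
    ((princ K).range ⊔ (Idele.nm (algebraMap K L)).range).index = p ∧
      (nC K L S).ker ≤ (MonoidHom.id (CS L S) / k.sC S).range := by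
  have h1 := k.index_dvd htc hpS ha hgen
  have h2 := k.index_eq S hpS ha
  have h3 := k.index_nC S htc hpS ha
  set h := (MonoidHom.id (CS L S) / k.sC S).range.relIndex (nC K L S).ker with hh
  have h4 : h = 1 := by
    rw [h2, h3] at h1
    have h5 : p * h ∣ p * 1 := by rwa [mul_one]
    exact Nat.dvd_one.1 (Nat.dvd_of_mul_dvd_mul_left hp.out.pos h5)
  refine ⟨by rw [h2, h3, h4, mul_one], ?_⟩
  exact Subgroup.relIndex_eq_one.1 h4

lemma Kum.nm_sI (f : Idele L) :
    Idele.nm (algebraMap K L) (k.sI f) = Idele.nm (algebraMap K L) f := by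
  haveI := k.finite
  apply Subtype.ext
  funext q φ
  obtain ⟨ψ, rfl⟩ := exists_ext (L := L) φ
  have e1 : (Idele.nm (algebraMap K L) (k.sI f)).1 q = nmq (algebraMap K L) q ((k.sI f).1 q) := rfl
  have e2 : (Idele.nm (algebraMap K L) f).1 q = nmq (algebraMap K L) q (f.1 q) := rfl
  rw [e1, e2, k.nmq_eq, k.nmq_eq]
  have e3 : ∀ i ∈ range p, (k.sI f).1 q (k.sh i ψ) = f.1 q (k.sh (i + 1) ψ) := by
    intro i _
    rw [k.sI_apply, ← k.sh_add]
  rw [prod_congr rfl e3]
  have h2 := prod_range_succ' (fun i => f.1 q (k.sh i ψ)) p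
  have h3 := prod_range_succ (fun i => f.1 q (k.sh i ψ)) p
  rw [h3, k.sh_p, k.sh_zero] at h2
  exact (mul_right_cancel h2).symm

include k in
/-- Hasse norm theorem, idelic form, Kummer case -/
theorem Kum.hasse_tc (htc : IsTotallyComplex K) (x : Kˣ) (hx : princ K x ∈ (Idele.nm (algebraMap K L)).range) :
    ∃ y : Lˣ, Algebra.norm K (y : L) = x := by
  classical
  haveI := k.finite
  obtain ⟨S, hS₀, hgen⟩ := exists_gen_S (K := K) (insert ⟨p, hp.out⟩ (badS k.a))
  have hpS : (⟨p, hp.out⟩ : Nat.Primes) ∈ S := hS₀ (mem_insert_self _ _)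
  have ha : ∀ q ∉ S, ∀ φ : Emb K q, ‖φ (k.a : K)‖ = 1 := fun q hq φ =>
    norm_of_notMem_badS (fun h => hq (hS₀ (mem_insert_of_mem h))) φ
  have hker := (k.index_eq_p htc hpS ha hgen).2
  obtain ⟨f, hf⟩ := hx
  have h1 : (QuotientGroup.mk f : CS L S) ∈ (nC K L S).ker := by
    rw [MonoidHom.mem_ker, nC_mk, hf, QuotientGroup.eq_one_iff]
    exact Subgroup.mem_sup_left ⟨x, rfl⟩
  obtain ⟨a, ha'⟩ := hker h1
  obtain ⟨g, rfl⟩ := QuotientGroup.mk_surjective a
  have h2 : (QuotientGroup.mk (g / k.sI g) : CS L S) = QuotientGroup.mk f := ha'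
  rw [QuotientGroup.eq] at h2
  obtain ⟨_, ⟨y, rfl⟩, u, hu, hyu⟩ := Subgroup.mem_sup.1 h2
  have h3 : f = (g / k.sI g) * (princ L y * u) := by rw [hyu, mul_inv_cancel_left]
  have h4 : princ K x = princ K (Units.map (Algebra.norm K : L →* K) y) *
      Idele.nm (algebraMap K L) u := by
    rw [← hf, h3, map_mul, map_div, k.nm_sI, div_self', one_mul, map_mul, Idele.nm_princ]
  set q₀ : Nat.Primes := ⟨p, hp.out⟩ with hq₀
  obtain ⟨φ₀⟩ : Nonempty (Emb K q₀) := ⟨(IsAlgClosed.lift : K →ₐ[ℚ] Cq q₀).toRingHom⟩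
  refine ⟨y, ?_⟩
  have h5 := congrArg (fun g : Idele K => (g.1 q₀ φ₀ : Cq q₀)) h4
  have h6 : ((princ K (Units.map (Algebra.norm K : L →* K) y) * Idele.nm (algebraMap K L) u :
      Idele K).1 q₀ φ₀ : Cq q₀) = φ₀ (Algebra.norm K (y : L)) *
      (nmq (algebraMap K L) q₀ (u.1 q₀) φ₀ : Cq q₀) := rfl
  have h7 : (φ₀ (x : K) : Cq q₀) = _ := h5
  rw [h6, hu.1 q₀ hpS, map_one] at h7
  have h8 : φ₀ (x : K) = φ₀ (Algebra.norm K (y : L)) := by simpa using h7
  exact (φ₀.injective h8).symm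

include k in
/-- Hasse norm theorem, idelic form, Kummer case -/
theorem Kum.hasse (hp2 : p ≠ 2) (x : Kˣ) (hx : princ K x ∈ (Idele.nm (algebraMap K L)).range) :
    ∃ y : Lˣ, Algebra.norm K (y : L) = x :=
  k.hasse_tc (tc_of_primitiveRoot hp2 k.hζ) x hx

/-- **Hasse norm theorem** for Galois extensions of prime degree `p` of totally complex number
fields containing the `p`-th roots of unity. -/
theorem hasse_norm_tc (htc : IsTotallyComplex K) (hfin : Module.finrank K L = p) {ζ : K}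
    (hζ : IsPrimitiveRoot ζ p)
    (x : Kˣ) (h : ∀ (q : Nat.Primes) (φ : Emb K q), LocNm (algebraMap K L) q φ (em φ x)) :
    ∃ y : Lˣ, Algebra.norm K (y : L) = x := by
  classical
  obtain ⟨k, _⟩ := exists_kum_of_isGalois hζ L hfin
  refine k.hasse_tc htc x (mem_range_nm _ h
    ⟨insert ⟨p, hp.out⟩ (badS k.a ∪ badS x), fun q hq φ => ?_⟩)
  have hq1 : (q : ℕ) ≠ p := by
    intro h1
    have h2 : q = ⟨p, hp.out⟩ := Subtype.ext h1
    exact hq (h2 ▸ mem_insert_self _ _)
  have hq2 : q ∉ badS k.a := fun h => hq (mem_insert_of_mem (mem_union_left _ h))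
  have hq3 : q ∉ badS x := fun h => hq (mem_insert_of_mem (mem_union_right _ h))
  refine k.locUNm_unit' hq1 (c := 1) (fun τ _ => by simp) ?_
    (Fx_emb x) (norm_of_notMem_badS hq3 φ)
  rw [Units.val_one, norm_one, one_pow]
  exact norm_of_notMem_badS hq2 φ

/-- **Hasse norm theorem** for Galois extensions of prime degree `p ≠ 2` of number fields containing
the `p`-th roots of unity. -/
theorem hasse_norm (hp2 : p ≠ 2) (hfin : Module.finrank K L = p) {ζ : K} (hζ : IsPrimitiveRoot ζ p)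
    (x : Kˣ) (h : ∀ (q : Nat.Primes) (φ : Emb K q), LocNm (algebraMap K L) q φ (em φ x)) :
    ∃ y : Lˣ, Algebra.norm K (y : L) = x :=
  hasse_norm_tc (tc_of_primitiveRoot hp2 hζ) hfin hζ x h

/-- the norm index of ideles. -/
theorem index_princ_sup_nm_tc (htc : IsTotallyComplex K) (hfin : Module.finrank K L = p) {ζ : K}
    (hζ : IsPrimitiveRoot ζ p) :
    ((princ K).range ⊔ (Idele.nm (algebraMap K L)).range).index = p := by
  classical
  obtain ⟨k, _⟩ := exists_kum_of_isGalois hζ L hfin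
  obtain ⟨S, hS₀, hgen⟩ := exists_gen_S (K := K) (insert ⟨p, hp.out⟩ (badS k.a))
  exact (k.index_eq_p htc (hS₀ (mem_insert_self _ _)) (fun q hq φ =>
    norm_of_notMem_badS (fun h => hq (hS₀ (mem_insert_of_mem h))) φ) hgen).1

/-- the norm index of ideles. -/
theorem index_princ_sup_nm (hp2 : p ≠ 2) (hfin : Module.finrank K L = p) {ζ : K}
    (hζ : IsPrimitiveRoot ζ p) :
    ((princ K).range ⊔ (Idele.nm (algebraMap K L)).range).index = p :=
  index_princ_sup_nm_tc (tc_of_primitiveRoot hp2 hζ) hfin hζ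

end Fermat.Agent.CFT
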